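import Fermat.Agent.Carayol.Kill.Patch

/-!
# The global root

Gluing the sections of the two charts: finiteness of the Čech cokernel and the global root.

Main result: `isConstMulPow_of_sections`.
-/

set_option autoImplicit false

open Polynomial IntermediateField
open scoped IntermediateField

namespace Fermat.Agent.Carayol.Kill

variable {K F : Type*} [Field K] [Field F] [Algebra K F] {W : ValuationSubring K} {q : ℕ} {t : F}

theorem par_ne_zero (hc : Cover K t) : t ≠ 0 := fun h => hc.transcendental (h ▸ isAlgebraic_zero)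

/-- A polynomial in `t` divided by a high power of `t` is a polynomial in `t⁻¹`. -/
theorem exists_evW_inv (ht : t ≠ 0) {p : W[X]} {m : ℕ} (hp : p.natDegree ≤ m) :
    evW W t⁻¹ (p.reflect m) = (t⁻¹) ^ m * evW W t p := by
  let : Invertible t := invertibleOfNonzero ht
  have h := eval₂_reflect_mul_pow ((algebraMap K F).comp W.subtype) t m p hp
  rw [invOf_eq_inv] at h
  show eval₂ ((algebraMap K F).comp W.subtype) t⁻¹ (p.reflect m) =
    (t⁻¹) ^ m * eval₂ ((algebraMap K F).comp W.subtype) t p
  rw [← h, inv_pow, mul_comm (t ^ m)⁻¹, mul_assoc, mul_inv_cancel₀ (pow_ne_zero m ht), mul_one]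

/-- Elements of one chart lie in the other after multiplication by a power of the parameter. -/
theorem exists_pow_mul_mem_inv (ht : t ≠ 0) {x : F} (hx : x ∈ chart W t) :
    ∃ k : ℕ, (t⁻¹) ^ k * x ∈ chart W t⁻¹ := by
  obtain ⟨P, hP, hPx⟩ := mem_chart.1 hx
  set N := P.support.sup fun i => (P.coeff i).natDegree
  refine ⟨N, ?_⟩
  let P' : F[X] := scaleRoots (P.map (evW W t)) ((t⁻¹) ^ N)
  have hl : P' ∈ lifts (evW W t⁻¹) := by
    rw [lifts_iff_coeff_lifts]
    intro i
    simp only [P']
    rw [coeff_scaleRoots, coeff_map, hP.natDegree_map]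
    by_cases hi : i ∈ P.support
    · rcases lt_or_ge i P.natDegree with hlt | hge
      · refine ⟨(P.coeff i).reflect (N * (P.natDegree - i)), ?_⟩
        rw [exists_evW_inv ht ?_, pow_mul, mul_comm]
        calc (P.coeff i).natDegree ≤ N := Finset.le_sup (f := fun i => (P.coeff i).natDegree) hi
          _ ≤ N * (P.natDegree - i) := Nat.le_mul_of_pos_right _ (Nat.sub_pos_of_lt hlt)
      · obtain rfl : i = P.natDegree :=
          le_antisymm (le_natDegree_of_mem_supp i hi) hge
        exact ⟨1, by rw [map_one, hP.coeff_natDegree, map_one, Nat.sub_self, pow_zero, mul_one]⟩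
    · exact ⟨0, by rw [map_zero, notMem_support_iff.1 hi, map_zero, zero_mul]⟩
  obtain ⟨Q, hQ, -, hQm⟩ := lifts_and_natDegree_eq_and_monic hl
    ((monic_scaleRoots_iff _).mpr (hP.map _))
  refine mem_chart.2 ⟨Q, hQm, ?_⟩
  rw [eval₂_eq_eval_map, hQ]
  exact scaleRoots_eval₂_eq_zero (RingHom.id F) (by rw [eval₂_map, RingHom.id_comp]; exact hPx)

/-- The chart with the parameter inverted. -/
noncomputable def overlap (W : ValuationSubring K) (t : F) : Subring F where
  carrier := {x | ∃ k : ℕ, t ^ k * x ∈ chart W t}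
  mul_mem' := fun {x y} ⟨i, hi⟩ ⟨j, hj⟩ => ⟨i + j, by
    rw [pow_add, show t ^ i * t ^ j * (x * y) = (t ^ i * x) * (t ^ j * y) by ring]
    exact mul_mem hi hj⟩
  one_mem' := ⟨0, by simp⟩
  add_mem' := fun {x y} ⟨i, hi⟩ ⟨j, hj⟩ => ⟨i + j, by
    rw [pow_add, show t ^ i * t ^ j * (x + y) = t ^ j * (t ^ i * x) + t ^ i * (t ^ j * y) by ring]
    exact add_mem (mul_mem (pow_mem par_mem_chart _) hi) (mul_mem (pow_mem par_mem_chart _) hj)⟩
  zero_mem' := ⟨0, by simp⟩
  neg_mem' := fun {x} ⟨i, hi⟩ => ⟨i, by rw [mul_neg]; exact neg_mem hi⟩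

theorem chart_le_overlap : chart W t ≤ overlap W t := fun x hx => ⟨0, by simpa using hx⟩

theorem chart_inv_le_overlap (ht : t ≠ 0) : chart W t⁻¹ ≤ overlap W t := fun x hx => by
  obtain ⟨k, hk⟩ := exists_pow_mul_mem_inv (inv_ne_zero ht) hx
  exact ⟨k, by simpa using hk⟩

theorem rootClosed_overlap : RootClosed (overlap W t) := by
  rintro x m hm ⟨k, hk⟩
  refine ⟨k, rootClosed_chart _ m hm ?_⟩
  obtain ⟨j, rfl⟩ : ∃ j, m = j + 1 := ⟨m - 1, by omega⟩
  rw [mul_pow, pow_succ (t ^ k), mul_assoc]
  exact mul_mem (pow_mem (pow_mem par_mem_chart _) _) hk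

/-- An element of both charts is algebraic. -/
theorem isAlgebraic_of_mem_charts {x : F} (h₀ : x ∈ chart W t) (h₁ : x ∈ chart W t⁻¹) :
    IsAlgebraic K x := by
  by_contra hx
  have hx0 : x ≠ 0 := fun h => hx (h ▸ isAlgebraic_zero)
  have htr : Transcendental K x⁻¹ := fun h => hx (by simpa using h.inv)
  obtain ⟨p, hp⟩ := mem_aeval_of_isIntegral htr (x := x)
    (by simpa using inv_mem (mem_adjoin_simple_self K x⁻¹)) fun U hU => by
      have hK : ∀ a : K, algebraMap K F a ∈ U := fun a => by simpa using hU (C a)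
      have hev : ∀ {s : F}, s ∈ U → ∀ P : W[X], evW W s P ∈ U := fun {s} hs P => by
        induction P using Polynomial.induction_on' with
        | add P P' h h' => rw [map_add]; exact add_mem h h'
        | monomial i a =>
          rw [show monomial i a = C a * X ^ i from (C_mul_X_pow_eq_monomial).symm, map_mul, map_pow,
            evW_C, evW_X]
          exact mul_mem (hK _) (pow_mem hs i)
      rcases U.mem_or_inv_mem t with h | h
      · exact mem_valuationSubring_of_mem_chart h₀ (hev h)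
      · exact mem_valuationSubring_of_mem_chart h₁ (hev h)
  refine htr ⟨X * p - 1, fun h => ?_, ?_⟩
  · simpa using congrArg (fun P : K[X] => P.coeff 0) h
  · rw [map_sub, map_mul, aeval_X, hp, map_one, inv_mul_cancel₀ hx0, sub_self]

variable (hb : BaseData W q) (hc : Cover K t)

include hb hc in
/-- The root sections of a chart are finitely generated over the polynomials in the parameter. -/
theorem exists_sections_gen {n : ℕ} (hn : 0 < n) {f : F} (hf : f ≠ 0) :
    ∃ s : Finset F, (∀ h ∈ s, IsRootSection (chart W t) n f h) ∧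
      ∀ d, IsRootSection (chart W t) n f d → ∀ A : AddSubgroup F,
        (∀ h ∈ s, ∀ p : W[X], evW W t p * h ∈ A) → d ∈ A := by
  classical
  by_cases h0 : ∃ h, h ≠ 0 ∧ IsRootSection (chart W t) n f h
  swap
  · refine ⟨∅, by simp, fun d hd A _ => ?_⟩
    rcases eq_or_ne d 0 with rfl | hd0
    · exact A.zero_mem
    · exact absurd ⟨d, hd0, hd⟩ h0
  obtain ⟨h₀, hh0, hh₀⟩ := h0
  have := hb.dvr
  have := hc.finite
  have := hc.galois
  let : Algebra W[X] F := (evW W t).toAlgebra
  let g : W[X] →+* K⟮t⟯ := (evW W t).codRestrict K⟮t⟯.toSubfield.toSubring evW_mem_adjoin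
  let : Algebra W[X] K⟮t⟯ := g.toAlgebra
  have : IsScalarTower W[X] K⟮t⟯ F := IsScalarTower.of_algebraMap_eq' rfl
  have hginj : Function.Injective g := fun a b h => evW_injective hc.transcendental
    (congrArg Subtype.val h)
  have : FaithfulSMul W[X] K⟮t⟯ := (faithfulSMul_iff_algebraMap_injective _ _).mpr hginj
  have : IsFractionRing W[X] K⟮t⟯ := by
    refine IsFractionRing.of_field _ _ fun z => ?_
    rcases eq_or_ne z 0 with rfl | hz
    · exact ⟨0, 1, by simp⟩
    obtain ⟨j, a, b, -, hb', e⟩ := exists_rep hb z.2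
      (fun h => hz (Subtype.ext h))
    have hq := q_ne_zero (F := F) hb
    have hb0 := evW_ne_zero hc.transcendental hb'
    have hC : ∀ m : ℕ, evW W t (C ((q : W) ^ m)) = (q : F) ^ m := fun m => by
      rw [evW_C]; push_cast; simp
    rcases le_or_gt 0 j with hj | hj
    · obtain ⟨m, rfl⟩ := Int.eq_ofNat_of_zero_le hj
      refine ⟨C ((q : W) ^ m) * a, b, Subtype.ext ?_⟩
      show (z : F) = evW W t _ / evW W t b
      rw [e, map_mul, hC, zpow_natCast, mul_div_assoc]
    · obtain ⟨m, rfl⟩ : ∃ m : ℕ, j = -(m : ℤ) := ⟨(-j).toNat, by omega⟩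
      refine ⟨a, C ((q : W) ^ m) * b, Subtype.ext ?_⟩
      show (z : F) = evW W t a / evW W t _
      rw [e, map_mul, hC, zpow_neg, zpow_natCast]
      field_simp
  have hfin : Module.Finite W[X] (integralClosure W[X] F) :=
    IsIntegralClosure.finite W[X] K⟮t⟯ F (integralClosure W[X] F)
  have : IsNoetherian W[X] (integralClosure W[X] F) :=
    isNoetherian_of_isNoetherianRing_of_finite W[X] (integralClosure W[X] F)
  set u := f / h₀ ^ (n - 1) with hu
  have hu0 : u ≠ 0 := div_ne_zero hf (pow_ne_zero _ hh0)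
  let N : Submodule W[X] (integralClosure W[X] F) :=
    { carrier := {a | IsRootSection (chart W t) n f ((a : F) * u)}
      zero_mem' := by
        show IsRootSection (chart W t) n f (((0 : integralClosure W[X] F) : F) * u)
        rw [ZeroMemClass.coe_zero, zero_mul]; exact IsRootSection.zero hn
      add_mem' := fun {a b} (ha : IsRootSection (chart W t) n f ((a : F) * u))
          (hb' : IsRootSection (chart W t) n f ((b : F) * u)) => by
        show IsRootSection (chart W t) n f (((a + b : integralClosure W[X] F) : F) * u)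
        rw [AddMemClass.coe_add, add_mul]; exact ha.add rootClosed_chart hn hb'
      smul_mem' := fun c {a} (ha : IsRootSection (chart W t) n f ((a : F) * u)) => by
        show IsRootSection (chart W t) n f (evW W t c * (a : F) * u)
        rw [mul_assoc]; exact ha.smul (evW_mem_chart c) }
  obtain ⟨s, hs⟩ := IsNoetherian.noetherian N
  refine ⟨s.image fun a : integralClosure W[X] F => (a : F) * u, fun h hh => ?_,
    fun d hd A hA => ?_⟩
  · obtain ⟨a, ha, rfl⟩ := Finset.mem_image.1 hh
    exact (show a ∈ N from hs ▸ Submodule.subset_span ha)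
  have hmem : d * h₀ ^ (n - 1) / f ∈ chart W t := by
    simpa using IsRootSection.pow_mul_pow rootClosed_chart hn hd hh₀
      (Nat.add_sub_cancel' hn : 1 + (n - 1) = n)
  have hdu : d * h₀ ^ (n - 1) / f * u = d := by
    rw [hu]
    field_simp
  have hN : (⟨_, hmem⟩ : integralClosure W[X] F) ∈ N := by
    show IsRootSection (chart W t) n f (d * h₀ ^ (n - 1) / f * u)
    rwa [hdu]
  rw [← hs, Submodule.mem_span_finset] at hN
  obtain ⟨c, -, hc'⟩ := hN
  have e : d = ∑ a ∈ s, evW W t (c a) * ((a : F) * u) := by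
    have h1 := congrArg (fun a : integralClosure W[X] F => (a : F) * u) hc'
    simp only [AddSubmonoidClass.coe_finsetSum, Finset.sum_mul, hdu] at h1
    rw [← h1]
    exact Finset.sum_congr rfl fun a _ => (mul_assoc _ _ _)
  rw [e]
  exact sum_mem fun a ha => hA _ (Finset.mem_image_of_mem _ ha) (c a)

include hb hc in
/-- **Gluing the two charts.** -/
theorem isConstMulPow_of_sections (hv : ∀ V, IsVert W q t⁻¹ V ↔ IsVert W q t V) {n : ℕ}
    (hn : 0 < n) (hnW : IsUnit (n : W)) {f : F} (hf : f ≠ 0) {rt : ValuationSubring F → F}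
    (hrt : ∀ V, IsVert W q t V → IsRootAt n V f (rt V)) {s₀ s₁ : F}
    (hs₀ : IsRootSection (chart W t) n f s₀) (hs₁ : IsRootSection (chart W t⁻¹) n f s₁)
    (h₀ : ∀ V, IsVert W q t V → s₀ / rt V - 1 ∈ V.nonunits)
    (h₁ : ∀ V, IsVert W q t⁻¹ V → s₁ / rt V - 1 ∈ V.nonunits) : IsConstMulPow K n f := by
  classical
  have ht := par_ne_zero hc
  have hqC : ∀ {s : F}, (q : F) ∈ chart W s := fun {s} => natCast_mem_chart q
  -- congruent roots give nilpotence modulo `q`
  have hnil : ∀ {U : ValuationSubring F} {s : F}, IsRootAt n U f (rt U) →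
      s / rt U - 1 ∈ U.nonunits → s ^ n / f - 1 ∈ U.nonunits := fun {U s} hr hs => by
    have hs1 := val_eq_one_of_congr (map_one _) hs
    rw [show s ^ n / f = (s / rt U) ^ n * (rt U ^ n / f) by
      rw [div_pow, div_mul_div_cancel₀ (pow_ne_zero _ (hr.ne_zero hn))]]
    have h := congr_mul (x := (s / rt U) ^ n) (y := 1) (a := rt U ^ n / f) (b := 1)
      (pow_mem (mem_of_val hs1) n) U.one_mem
      (by simpa using congr_pow (mem_of_val hs1) U.one_mem hs n) hr
    rwa [one_mul] at h
  have ha₀ : NilMod (chart W t) (q : F) (s₀ ^ n / f - 1) := by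
    refine ⟨sub_mem hs₀ (one_mem _), ?_⟩
    obtain ⟨N, -, y, hy, e⟩ := exists_pow_eq_q_mul hb hc (sub_mem hs₀ (one_mem _))
      fun V hV => hnil (hrt V hV) (h₀ V hV)
    exact ⟨N, y, hy, e⟩
  have ha₁ : NilMod (chart W t⁻¹) (q : F) (s₁ ^ n / f - 1) := by
    refine ⟨sub_mem hs₁ (one_mem _), ?_⟩
    obtain ⟨N, -, y, hy, e⟩ := exists_pow_eq_q_mul hb hc.inv (sub_mem hs₁ (one_mem _))
      fun V hV => hnil (hrt V ((hv V).1 hV)) (h₁ V hV)
    exact ⟨N, y, hy, e⟩
  have hd : NilMod (overlap W t) (q : F) ((s₀ - s₁) ^ n / f) := by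
    have hx : (s₀ - s₁) ^ n / f ∈ overlap W t :=
      (hs₀.mono chart_le_overlap).sub rootClosed_overlap hn (hs₁.mono (chart_inv_le_overlap ht))
    refine ⟨hx, ?_⟩
    obtain ⟨k, hk⟩ := hx
    obtain ⟨N, -, y, hy, e⟩ := exists_pow_eq_q_mul hb hc hk fun V hV => by
      refine nonunits_mul_left (pow_mem (by simpa [evW_X] using hV.evW_mem X) k) ?_
      have hr := hrt V hV
      rw [show (s₀ - s₁) ^ n / f = ((s₀ / rt V - 1) - (s₁ / rt V - 1)) ^ n * (rt V ^ n / f) by
        rw [sub_sub_sub_cancel_right, ← sub_div, div_pow,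
          div_mul_div_cancel₀ (pow_ne_zero _ (hr.ne_zero hn))]]
      exact nonunits_mul_right (mem_of_val hr.val) ((pow_mem_nonunits_iff hn.ne').2
        (sub_mem_nonunits (h₀ V hV) (h₁ V ((hv V).2 hV))))
    refine ⟨N, y / t ^ (k * N), ⟨k * N, ?_⟩, ?_⟩
    · rwa [mul_div_cancel₀ _ (pow_ne_zero _ ht)]
    · rw [mul_pow, ← pow_mul] at e
      rw [← mul_div_assoc, eq_div_iff (pow_ne_zero _ ht), mul_comm, e]
  -- the constants
  set W₀ := ((algebraMap K F).comp W.subtype).range
  have := hb.dvr
  have : IsNoetherianRing W₀ := isNoetherianRing_range _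
  have hW : ∀ s : F, W₀ ≤ chart W s := by
    rintro s _ ⟨w, rfl⟩
    exact algebraMap_mem_chart w
  -- the finite module
  obtain ⟨s, hs, hgen⟩ := exists_sections_gen hb hc hn hf
  have hN : ∀ h ∈ s, ∃ j : ℕ, ∀ m : ℕ, j ≤ m →
      IsRootSection (chart W t⁻¹) n f ((t⁻¹) ^ m * h) := by
    intro h hh
    obtain ⟨k, hk⟩ := exists_pow_mul_mem_inv ht (hs h hh)
    refine ⟨k, fun m hm => ?_⟩
    unfold IsRootSection
    rw [mul_pow, mul_div_assoc, ← pow_mul, ← Nat.sub_add_cancel
      (show k ≤ m * n from le_trans hm (Nat.le_mul_of_pos_right _ hn)), pow_add, mul_assoc]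
    exact mul_mem (pow_mem par_mem_chart _) hk
  choose! j hj using hN
  set J := s.sup j
  let G : Finset F := (Finset.range (J + 1) ×ˢ s).image fun x => (t⁻¹) ^ x.1 * x.2
  obtain ⟨c, hfin⟩ := exists_torsion_bound (W := W₀) (R₀ := chart W t) (R₁ := chart W t⁻¹)
    (R := overlap W t) (π := (q : F)) (n := n) (f := f) ⟨(q : W), by simp⟩ hn (hW t) (hW t⁻¹)
    ((hW t).trans chart_le_overlap) rootClosed_chart rootClosed_chart rootClosed_overlap
    (Submodule.span W₀ G) (Submodule.fg_span G.finite_toSet) (fun d hd => by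
      set X' := rootSections W₀ (chart W t) (hW t) rootClosed_chart hn f ⊔
        rootSections W₀ (chart W t⁻¹) (hW t⁻¹) rootClosed_chart hn f ⊔ Submodule.span W₀ G
      have hpiece : ∀ h ∈ s, ∀ m i : ℕ, (t⁻¹) ^ m * (t ^ i * h) ∈ X' := by
        intro h hh m i
        rcases le_total m i with hmi | him
        · refine Submodule.mem_sup_left (Submodule.mem_sup_left ?_)
          obtain ⟨l, rfl⟩ := Nat.exists_eq_add_of_le hmi
          rw [← mul_assoc, pow_add, ← mul_assoc, ← mul_pow, inv_mul_cancel₀ ht, one_pow, one_mul]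
          exact (hs h hh).smul (pow_mem par_mem_chart _)
        · obtain ⟨l, rfl⟩ := Nat.exists_eq_add_of_le him
          rw [← mul_assoc, pow_add, mul_right_comm ((t⁻¹) ^ i), ← mul_pow, inv_mul_cancel₀ ht,
            one_pow, one_mul]
          rcases le_total (j h) l with hl | hl
          · exact Submodule.mem_sup_left (Submodule.mem_sup_right (hj h hh l hl))
          · refine Submodule.mem_sup_right (Submodule.subset_span (Finset.mem_image.2
              ⟨(l, h), Finset.mem_product.2 ⟨Finset.mem_range.2 ?_, hh⟩, rfl⟩))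
            exact Nat.lt_succ_of_le (hl.trans (Finset.le_sup hh))
      obtain ⟨k, hk⟩ := hd
      have hk' : IsRootSection (chart W t) n f (t ^ k * d) := by
        obtain ⟨l, rfl⟩ : ∃ l, n = l + 1 := ⟨n - 1, by omega⟩
        unfold IsRootSection
        rw [mul_pow, mul_div_assoc, pow_succ (t ^ k), mul_assoc]
        exact mul_mem (pow_mem (pow_mem par_mem_chart _) _) hk
      let A : AddSubgroup F :=
        X'.toAddSubgroup.comap (AddMonoidHom.mulLeft ((t⁻¹) ^ k))
      have hA := hgen _ hk' A fun h hh p => by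
        induction p using Polynomial.induction_on' with
        | add P P' e e' => rw [map_add, add_mul]; exact A.add_mem e e'
        | monomial i a =>
          show (t⁻¹) ^ k * (evW W t (monomial i a) * h) ∈ X'
          rw [show monomial i a = C a * X ^ i from (C_mul_X_pow_eq_monomial).symm, map_mul, map_pow,
            evW_C, evW_X, show (t⁻¹) ^ k * (algebraMap K F a * t ^ i * h) =
              algebraMap K F a * ((t⁻¹) ^ k * (t ^ i * h)) by ring]
          exact X'.smul_mem (⟨_, ⟨a, rfl⟩⟩ : W₀) (hpiece h hh k i)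
      change (t⁻¹) ^ k * (t ^ k * d) ∈ X' at hA
      rwa [← mul_assoc, ← mul_pow, inv_mul_cancel₀ ht, one_pow, one_mul] at hA)
  have := hb.charZero
  have hn0 : (n : F) ≠ 0 := by
    rw [← map_natCast (algebraMap K F)]
    exact (_root_.map_ne_zero _).2 (Nat.cast_ne_zero.2 hn.ne')
  have hinv : ∀ s : F, (n : F)⁻¹ ∈ chart W s := fun s => by
    obtain ⟨u, hu⟩ := hnW
    have e : (n : F)⁻¹ = algebraMap K F ((u⁻¹ : Wˣ) : W) := by
      refine (eq_inv_of_mul_eq_one_left ?_).symm
      rw [← map_natCast (algebraMap K F), ← map_mul, show ((n : ℕ) : K) = ((u : W) : K) by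
        rw [hu]; simp, ← MulMemClass.coe_mul, Units.inv_mul, OneMemClass.coe_one, map_one]
    rw [e]; exact algebraMap_mem_chart _
  have hqu : ((q : F))⁻¹ ∉ chart W t := fun h => by
    obtain ⟨V, hV⟩ := exists_isVert hb hc
    rcases (ValuationSubring.mem_nonunits_iff_or V).1 hV.q_mem with h' | h'
    · exact q_ne_zero hb h'
    · exact h' (mem_valuationSubring_of_mem_chart h hV.evW_mem)
  obtain ⟨h, hh, hh₀, hh₁⟩ := exists_global_rootSection chart_le_overlap (chart_inv_le_overlap ht)
    rootClosed_chart rootClosed_chart rootClosed_overlap hn hn0 (hinv t) (hinv t⁻¹) hqC hqC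
    (q_ne_zero hb) hqu hs₀ hs₁ ha₀ ha₁ hd hfin
  refine ⟨(h ^ n / f)⁻¹, h, (isAlgebraic_of_mem_charts hh₀ hh₁).inv, ?_⟩
  rw [inv_div, div_mul_cancel₀ _ (pow_ne_zero _ hh)]

end Fermat.Agent.Carayol.Kill
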