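import Fermat.Agent.Carayol.Kill.Coherent
import Fermat.Agent.Carayol.Kill.Global
import Mathlib.RingTheory.Henselian

/-!
# From the special fibre to the torus classes

The averaging and gluing argument: the geometric input of Carayol's theorem from the structure
of the special fibre.

Main result: `killsTorusClasses_of_specialFibre`.
-/

set_option autoImplicit false

namespace Fermat.Agent.Carayol

open Kill

/-- **Averaging and gluing**: the structure of the special fibre kills the torus classes. -/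
theorem killsTorusClasses_of_specialFibre {K F : Type*} [Field K] [CharZero K] [Field F]
    [DecidableEq F] [Algebra K F] (W : ValuationSubring K) [IsDiscreteValuationRing W]
    [HenselianLocalRing W] [IsAlgClosed (IsLocalRing.ResidueField W)]
    {fam : WeierstrassCurve (Polynomial ℤ)} {q r : ℕ} [NeZero (q * r)] (hqr : r.Coprime q)
    (hΔ : fam.Δ ≠ 0) (L : LevelData K F fam q r) {T : F} (hS : SpecialFibre W L T) :
    KillsTorusClasses L := by
  classical
  have : Fact q.Prime := ⟨hS.base.prime⟩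
  have := finite_levelFix hS
  have : Fintype L.levelFix := Fintype.ofFinite _
  obtain ⟨D, hD, hdat⟩ := exists_rDatum hS hΔ hqr
  set E := avgExp L * Fintype.card L.levelFix with hE
  have hEpos : 0 < E := Nat.mul_pos (avgExp_pos hS hΔ) Fintype.card_pos
  refine ⟨D * E, Nat.mul_pos hD hEpos, fun n hn hnq f hf htor hloc hbor => ?_⟩
  have hprod : ∀ i : Fin 2,
      ∏ᶠ σ ∈ (L.borel i : Set (F ≃ₐ[K] F)), σ f = bProd L i f := by
    intro i
    have e : (L.borel i : Set (F ≃ₐ[K] F)) = ↑((Finset.univ.filter (· ∈ Bor L i)).map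
        (Function.Embedding.subtype (· ∈ L.levelFix))) := by
      ext σ
      rw [Finset.mem_coe, Finset.mem_map]
      constructor
      · intro h
        exact ⟨⟨σ, h.1⟩, Finset.mem_filter.2 ⟨Finset.mem_univ _, h⟩, rfl⟩
      · rintro ⟨τ, hτ, rfl⟩
        exact (Finset.mem_filter.1 hτ).2
    rw [e, finprod_mem_coe_finset, Finset.prod_map, bProd]
    rfl
  have hdatum : Datum L n f := by
    refine ⟨hf, fun t ht => htor _ ⟨ht.1, ht.2⟩, hloc, fun i => ?_⟩
    obtain ⟨c, g, hc, e⟩ := hbor i
    exact ⟨c, g, hc, (hprod i).symm.trans e⟩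
  obtain ⟨m, hm⟩ := hdat n hn f hdatum
  set f₁ := f ^ D / (q : F) ^ m with hf₁
  have hrf : RootFun W q T n (f₁ ^ E) := hm.rootFun.pow E
  obtain ⟨rt, hrt, hcomp⟩ := exists_coherent_roots hS hΔ hqr hn hrf
    fun t hCh M M₀ V V' hX hX₀ hB hB' => jmp_pow_eq_one hS hΔ hqr hCh hn hX hX₀ hm hB hB'
  have hnW : IsUnit (n : W) := isUnit_natCast hS.base hnq
  obtain ⟨s₀, hs₀, h₀⟩ := exists_chart_section hS.base hS.cover hS.good₀ hn hnW hrf hrt
    (hcomp T (isChart_self hS))
  obtain ⟨s₁, hs₁, h₁⟩ := exists_chart_section hS.base hS.cover.inv hS.good₁ hn hnW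
    (hrf.of_iff hS.isVert_inv) (fun V hV => hrt V ((hS.isVert_inv V).1 hV))
    (hcomp T⁻¹ (isChart_inv hS))
  obtain ⟨c, g, hc, e⟩ := isConstMulPow_of_sections hS.base hS.cover hS.isVert_inv hn hnW
    hrf.ne_zero hrt hs₀ hs₁ h₀ h₁
  refine ⟨c * (q : F) ^ (m * E), g, ?_, ?_⟩
  · exact mem_algebraicClosure_iff.1 (mul_mem (mem_algebraicClosure_iff.2 hc)
      (zpow_mem (_root_.natCast_mem (algebraicClosure K F) q) _))
  · have hq := q_ne_zero (F := F) hS.base
    rw [hf₁, div_pow, ← pow_mul, ← zpow_natCast ((q : F) ^ m), ← zpow_mul,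
      div_eq_iff (zpow_ne_zero _ hq)] at e
    rw [e]
    ring

end Fermat.Agent.Carayol
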