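import Fermat.Agent.Carayol.Kill.Lines

/-!
# Averaging over lines

Kernel lines of components and the averaging lemma: a torus invariant function whose sums over
both Borel subgroups are constant is, after a fixed multiple, constant.

Main result: `average`.
-/

set_option autoImplicit false

open Polynomial
open scoped Pointwise

namespace Fermat.Agent.Carayol.Kill

variable {K F : Type*} [Field K] [CharZero K] [Field F] [DecidableEq F] [Algebra K F]
  {W : ValuationSubring K} {fam : WeierstrassCurve ℤ[X]} {q r : ℕ} [NeZero (q * r)]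
  [Fact q.Prime] {L : LevelData K F fam q r} {T : F}

/-- The kernel line at a component. -/
def HasLine (L : LevelData K F fam q r) (V : ValuationSubring F) (v : Fin 2 → ZMod q) : Prop :=
  v ≠ 0 ∧ ∀ w, InKer V (qPt L w) ↔ ∃ c : ZMod q, w = c • v

theorem exists_combination {v v' : Fin 2 → ZMod q} (hv : v ≠ 0)
    (hv' : ∀ c : ZMod q, v' ≠ c • v) (w : Fin 2 → ZMod q) :
    ∃ a b : ZMod q, w = a • v + b • v' := by
  have hd : v 0 * v' 1 - v 1 * v' 0 ≠ 0 := by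
    intro h
    by_cases h0 : v 0 = 0
    · have h1 : v 1 ≠ 0 := fun h1 => hv (funext fun i => by fin_cases i <;> simp [h0, h1])
      have h2 : v' 0 = 0 := by simpa [h0, h1] using h
      refine hv' (v' 1 * (v 1)⁻¹) (funext fun i => ?_)
      fin_cases i <;> simp [h0, h2, h1]
    · refine hv' (v' 0 * (v 0)⁻¹) (funext fun i => ?_)
      fin_cases i <;> simp only [Fin.zero_eta, Fin.mk_one, Pi.smul_apply, smul_eq_mul] <;>
        field_simp
      linear_combination h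
  refine ⟨(w 0 * v' 1 - w 1 * v' 0) / (v 0 * v' 1 - v 1 * v' 0),
    (v 0 * w 1 - v 1 * w 0) / (v 0 * v' 1 - v 1 * v' 0), funext fun i => ?_⟩
  fin_cases i <;>
    simp only [Fin.zero_eta, Fin.mk_one, Pi.add_apply, Pi.smul_apply, smul_eq_mul] <;>
    rw [div_mul_eq_mul_div, div_mul_eq_mul_div, ← add_div, eq_div_iff hd] <;> ring

theorem single_indep {i j : Fin 2} (hij : i ≠ j) (c : ZMod q) :
    (Pi.single j 1 : Fin 2 → ZMod q) ≠ c • Pi.single i 1 := fun h => by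
  have := congrFun h j
  simp [Pi.single_eq_of_ne hij.symm] at this

theorem mat_ext {v v' : Fin 2 → ZMod q} (hv : v ≠ 0) (hv' : ∀ c : ZMod q, v' ≠ c • v)
    {A B : Matrix (Fin 2) (Fin 2) (ZMod q)} (h : A.mulVec v = B.mulVec v)
    (h' : A.mulVec v' = B.mulVec v') : A = B := by
  refine Matrix.ext_of_mulVec_single fun i => ?_
  obtain ⟨a, b, e⟩ := exists_combination hv hv' (Pi.single i 1)
  rw [e, Matrix.mulVec_add, Matrix.mulVec_add, Matrix.mulVec_smul, Matrix.mulVec_smul,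
    Matrix.mulVec_smul, Matrix.mulVec_smul, h, h']

variable (hS : SpecialFibre W L T) (hΔ : fam.Δ ≠ 0) (hqr : r.Coprime q)

omit [CharZero K] [NeZero (q * r)] [Fact (Nat.Prime q)] in
include hS in
theorem mem_fixPar (σ : L.levelFix) : (σ : F ≃ₐ[K] F) ∈ fixPar K T :=
  (hS.mem_fixPar_iff _).2 (mem_autGroup_of_levelFix L σ.2)

omit [CharZero K] [NeZero (q * r)] [Fact (Nat.Prime q)] in
include hS in
theorem finite_levelFix : Finite L.levelFix := by
  have := hS.cover.finite_fixPar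
  exact Finite.of_injective (fun σ : L.levelFix => (⟨σ, mem_fixPar hS σ⟩ : fixPar K T))
    fun a b h => Subtype.ext (congrArg (fun u : fixPar K T => (u : F ≃ₐ[K] F)) h)

omit [CharZero K] [DecidableEq F] in
theorem smul_eq_of_mem_stabV {t : F} {V : ValuationSubring F} {σ : F ≃ₐ[K] F}
    (h : σ ∈ stabV K t V) : σ • V = V := by
  ext x
  rw [ValuationSubring.mem_pointwise_smul_iff_inv_smul_mem]
  exact (mem_stabV.1 (inv_mem h)).2 x

omit [CharZero K] [DecidableEq F] [Fact (Nat.Prime q)] in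
theorem isVert_smul {t : F} {V : ValuationSubring F} (hV : IsVert W q t V) {σ : F ≃ₐ[K] F}
    (hσ : σ ∈ fixPar K t) : IsVert W q t (σ • V) := by
  convert hV.comap (inv_mem hσ) using 1
  ext x
  rw [ValuationSubring.mem_pointwise_smul_iff_inv_smul_mem]
  rfl

omit [CharZero K] [NeZero (q * r)] [Fact (Nat.Prime q)] in
theorem inKer_smul (σ : L.levelFix) (V : ValuationSubring F) (P : L.curve.toAffine.Point) :
    InKer ((σ : F ≃ₐ[K] F) • V) (gAct L σ P) ↔ InKer V P := by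
  rcases P with _ | ⟨x, y, hn⟩
  · rw [show gAct L σ WeierstrassCurve.Affine.Point.zero = .zero from map_zero (gAct L σ)]
    exact Iff.rfl
  · obtain ⟨_, e⟩ := pointAct_some (σ : F ≃ₐ[K] F).toAlgHom.toRingHom L.curve
      (L.map_curve (mem_autGroup_of_levelFix L σ.2)) hn
    rw [show gAct L σ _ = _ from e]
    exact not_congr ValuationSubring.smul_mem_pointwise_smul_iff

theorem HasLine.smul {V : ValuationSubring F} {v : Fin 2 → ZMod q} (h : HasLine L V v)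
    (σ : L.levelFix) : HasLine L ((σ : F ≃ₐ[K] F) • V) ((qMat L hΔ σ).mulVec v) := by
  refine ⟨qMat_mulVec_ne_zero L hΔ σ h.1, fun w => ?_⟩
  obtain ⟨w', rfl⟩ : ∃ w', (qMat L hΔ σ).mulVec w' = w :=
    ⟨(qMat L hΔ σ⁻¹).mulVec w, by
      rw [Matrix.mulVec_mulVec, ← qMat_mul, mul_inv_cancel, qMat_one, Matrix.one_mulVec]⟩
  rw [← gAct_qPt, inKer_smul, h.2]
  constructor
  · rintro ⟨c, rfl⟩; exact ⟨c, Matrix.mulVec_smul _ _ _⟩
  · rintro ⟨c, hc⟩
    refine ⟨c, qPt_injective L (gAct_injective L σ ?_)⟩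
    rw [gAct_qPt L hΔ, gAct_qPt L hΔ, hc, Matrix.mulVec_smul]

include hS hΔ in
theorem exists_hasLine {V : ValuationSubring F} (hV : IsVert W q T V) :
    ∃ v, HasLine L V v := by
  obtain ⟨P, hP, hqP, hker⟩ := hS.kernel V hV
  obtain ⟨v, rfl⟩ := exists_qPt_eq L hΔ hqP
  refine ⟨v, fun h => hP (by rw [h, map_zero]), fun w => ?_⟩
  rw [hker _ (nsmul_qPt L w)]
  constructor
  · rintro ⟨m, hm⟩
    refine ⟨(m : ZMod q), (qPt_injective L ?_).symm⟩
    rw [Int.cast_smul_eq_zsmul, map_zsmul]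
    exact hm
  · rintro ⟨c, rfl⟩
    refine ⟨(c.val : ℤ), ?_⟩
    show (c.val : ℤ) • qPt L v = qPt L (c • v)
    conv_rhs => rw [← ZMod.natCast_zmod_val c, Nat.cast_smul_eq_nsmul, map_nsmul]
    exact natCast_zsmul _ _

include hS hΔ in
theorem exists_inertia {V : ValuationSubring F} (hV : IsVert W q T V) {v v' : Fin 2 → ZMod q}
    (hv : HasLine L V v) (hv' : ∀ c : ZMod q, v' ≠ c • v) {a : ZMod q} (ha : a ≠ 0)
    (b : ZMod q) :
    ∃ σ : L.levelFix, (σ : F ≃ₐ[K] F) ∈ inertiaV K T V ∧ (qMat L hΔ σ).mulVec v = a • v ∧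
      (qMat L hΔ σ).mulVec v' = v' + b • v := by
  obtain ⟨σ, hσ, hI, hσ', hP, hQ⟩ := hS.inertia V hV (qPt L v) (qPt L v')
    (fun h => hv.1 (qPt_injective L (h.trans (map_zero _).symm))) (nsmul_qPt L v) (nsmul_qPt L v')
    ((hv.2 v).2 ⟨1, (one_smul _ _).symm⟩)
    (fun h => by obtain ⟨c, hc⟩ := (hv.2 v').1 h; exact hv' c hc) a.val b.val (fun hd => ha (by
      rw [← ZMod.natCast_zmod_val a, ZMod.natCast_eq_zero_iff]; exact hd))
  refine ⟨⟨σ, hσ⟩, hI, qPt_injective L ?_, qPt_injective L ?_⟩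
  · rw [← gAct_qPt, show gAct L ⟨σ, hσ⟩ (qPt L v) = _ from hP, ← map_nsmul]
    congr 1
    rw [← Nat.cast_smul_eq_nsmul (ZMod q), ZMod.natCast_zmod_val]
  · rw [← gAct_qPt, show gAct L ⟨σ, hσ⟩ (qPt L v') = _ from hQ, ← map_nsmul, ← map_add]
    congr 2
    rw [← Nat.cast_smul_eq_nsmul (ZMod q), ZMod.natCast_zmod_val]

include hS hΔ in
/-- Every line is the kernel at some component. -/
theorem exists_vert_hasLine [IsAlgClosed (IsLocalRing.ResidueField W)] {v : Fin 2 → ZMod q}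
    (hv : v ≠ 0) : ∃ V, IsVert W q T V ∧ HasLine L V v := by
  obtain ⟨V₀, hV₀⟩ := exists_isVert hS.base hS.cover
  obtain ⟨w, hw⟩ := hS.supersingular
  obtain ⟨M, hM, -, hMw⟩ := exists_point_through hS.base hS.cover hV₀ w
  obtain ⟨V, hV, -, hker⟩ := (hw M hM hMw).2 (qPt L v)
    (fun h => hv (qPt_injective L (h.trans (map_zero _).symm))) (nsmul_qPt L v)
  obtain ⟨v', hv'⟩ := exists_hasLine hS hΔ hV
  obtain ⟨c, hc⟩ := (hv'.2 v).1 hker
  refine ⟨V, hV, hv, fun u => (hv'.2 u).trans ⟨?_, ?_⟩⟩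
  · rintro ⟨d, rfl⟩
    have hc0 : c ≠ 0 := fun h0 => hv (by rw [hc, h0, zero_smul])
    exact ⟨d * c⁻¹, by rw [hc, smul_smul, mul_assoc, inv_mul_cancel₀ hc0, mul_one]⟩
  · rintro ⟨d, rfl⟩
    exact ⟨d * c, by rw [hc, smul_smul]⟩

include hS hΔ hqr in
/-- **Generation.** -/
theorem mem_of_inertia {H : Subgroup L.levelFix} {V V' : ValuationSubring F}
    (hV : IsVert W q T V) (hV' : IsVert W q T V') {v v' : Fin 2 → ZMod q}
    (hv : HasLine L V v) (hv' : HasLine L V' v') (hind : ∀ c : ZMod q, v' ≠ c • v)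
    (h : ∀ σ : L.levelFix, (σ : F ≃ₐ[K] F) ∈ inertiaV K T V → σ ∈ H)
    (h' : ∀ σ : L.levelFix, (σ : F ≃ₐ[K] F) ∈ inertiaV K T V' → σ ∈ H)
    (σ : L.levelFix) : σ ∈ H := by
  have hind' : ∀ c : ZMod q, v ≠ c • v' := fun c hc => by
    have hc0 : c ≠ 0 := fun h0 => hv.1 (by rw [hc, h0, zero_smul])
    exact hind c⁻¹ (by rw [hc, smul_smul, inv_mul_cancel₀ hc0, one_smul])
  -- elements whose first coefficient is nonzero
  have key : ∀ g : L.levelFix, (∃ α γ : ZMod q, α ≠ 0 ∧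
      (qMat L hΔ g).mulVec v = α • v + γ • v') → g ∈ H := by
    rintro g ⟨α, γ, hα, hgv⟩
    obtain ⟨β, δ, hgv'⟩ := exists_combination hv.1 hind ((qMat L hΔ g).mulVec v')
    set δ' := δ - β * γ / α with hδ'
    have hd : δ' ≠ 0 := by
      intro h0
      refine qMat_mulVec_ne_zero L hΔ g (v := v' - (β / α) • v)
        (fun h1 => hind _ (sub_eq_zero.1 h1)) ?_
      rw [Matrix.mulVec_sub, Matrix.mulVec_smul, hgv, hgv', smul_add, smul_smul, smul_smul,
        div_mul_cancel₀ _ hα, show β / α * γ = δ from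
          (by rw [hδ', sub_eq_zero] at h0; rw [h0]; ring),
        sub_self]
    obtain ⟨y, hy, hy1, hy2⟩ := exists_inertia hS hΔ hV' hv' hind' hd 0
    obtain ⟨x, hx, hx1, hx2⟩ := exists_inertia hS hΔ hV hv hind hα (β / δ')
    obtain ⟨z, hz, hz1, hz2⟩ := exists_inertia hS hΔ hV' hv' hind' one_ne_zero (γ / α)
    suffices g = z * (x * y) by
      rw [this]; exact mul_mem (h' z hz) (mul_mem (h x hx) (h' y hy))
    refine qMat_injective L hΔ hqr (mat_ext hv.1 hind ?_ ?_)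
    · rw [qMat_mul, qMat_mul, ← Matrix.mulVec_mulVec, ← Matrix.mulVec_mulVec, hy2, zero_smul,
        add_zero, hx1, Matrix.mulVec_smul, hz2, hgv, smul_add, smul_smul, mul_div_cancel₀ _ hα]
    · rw [qMat_mul, qMat_mul, ← Matrix.mulVec_mulVec, ← Matrix.mulVec_mulVec, hy1,
        Matrix.mulVec_smul, hx2, smul_add, smul_smul, mul_div_cancel₀ _ hd, Matrix.mulVec_add,
        Matrix.mulVec_smul, Matrix.mulVec_smul, hz1, hz2, hgv', one_smul, smul_add, smul_smul,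
        show δ = δ' + β * (γ / α) by rw [hδ']; ring, add_smul]
      abel
  obtain ⟨α, γ, hσv⟩ := exists_combination hv.1 hind ((qMat L hΔ σ).mulVec v)
  rcases ne_or_eq α 0 with hα | rfl
  · exact key σ ⟨α, γ, hα, hσv⟩
  obtain ⟨x, hx, hx1, hx2⟩ := exists_inertia hS hΔ hV hv hind (one_ne_zero (α := ZMod q)) 1
  have hγ : γ ≠ 0 := fun h0 => qMat_mulVec_ne_zero L hΔ σ hv.1 (by
    rw [hσv, h0, zero_smul, zero_smul, add_zero])
  have hxσ := key (x * σ) ⟨γ, γ, hγ, by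
    rw [qMat_mul, ← Matrix.mulVec_mulVec, hσv, zero_smul, zero_add, Matrix.mulVec_smul, hx2,
      one_smul, smul_add, add_comm]⟩
  have := mul_mem (inv_mem (h x hx)) hxσ
  rwa [← mul_assoc, inv_mul_cancel, one_mul] at this

/-- The stabiliser of the `i`th line. -/
def Bor (L : LevelData K F fam q r) (i : Fin 2) : Subgroup L.levelFix :=
  (L.borel i).subgroupOf L.levelFix

/-- The torus. -/
def Tor (L : LevelData K F fam q r) : Subgroup L.levelFix := Bor L 0 ⊓ Bor L 1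

include hΔ in
theorem mem_Bor_iff (σ : L.levelFix) (i : Fin 2) :
    σ ∈ Bor L i ↔ ∃ a : ZMod q, (qMat L hΔ σ).mulVec (Pi.single i 1) = a • Pi.single i 1 := by
  rw [Bor, Subgroup.mem_subgroupOf]
  constructor
  · rintro ⟨-, hσ, hmap⟩
    have h : gAct L σ (L.lineGen i) ∈ AddSubgroup.zmultiples (L.lineGen i) :=
      hmap ▸ ⟨_, AddSubgroup.mem_zmultiples _, rfl⟩
    obtain ⟨m, hm⟩ := AddSubgroup.mem_zmultiples_iff.1 h
    refine ⟨(m : ZMod q), qPt_injective L ?_⟩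
    rw [← gAct_qPt, qPt_single, ← hm, Int.cast_smul_eq_zsmul, map_zsmul, qPt_single]
  · rintro ⟨a, ha⟩
    have ha0 : a ≠ 0 := fun h0 => qMat_mulVec_ne_zero L hΔ σ (v := Pi.single i 1) (by simp) (by
      rw [ha, h0, zero_smul])
    have hP : gAct L σ (L.lineGen i) = a.val • L.lineGen i := by
      rw [← qPt_single L i, gAct_qPt L hΔ, ha, ← map_nsmul]
      congr 1
      rw [← Nat.cast_smul_eq_nsmul (ZMod q), ZMod.natCast_zmod_val]
    refine ⟨σ.2, mem_autGroup_of_levelFix L σ.2, ?_⟩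
    rw [show L.act _ = gAct L σ from rfl, AddMonoidHom.map_zmultiples, hP]
    refine le_antisymm (AddSubgroup.zmultiples_le.2
      (AddSubgroup.nsmul_mem _ (AddSubgroup.mem_zmultiples _) _))
      (AddSubgroup.zmultiples_le.2 ?_)
    have h1 : (a⁻¹).val • (a.val • L.lineGen i) = L.lineGen i := by
      rw [← qPt_single L i, ← map_nsmul, ← map_nsmul]
      congr 1
      rw [← Nat.cast_smul_eq_nsmul (ZMod q), ← Nat.cast_smul_eq_nsmul (ZMod q),
        ZMod.natCast_zmod_val, ZMod.natCast_zmod_val, smul_smul, inv_mul_cancel₀ ha0, one_smul]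
    have h2 := AddSubgroup.nsmul_mem _ (AddSubgroup.mem_zmultiples (a.val • L.lineGen i)) (a⁻¹).val
    rw [h1] at h2
    exact h2

omit [CharZero K] [NeZero (q * r)] [Fact (Nat.Prime q)] in
theorem mem_Tor_iff {σ : L.levelFix} {i j : Fin 2} (hij : i ≠ j) :
    σ ∈ Tor L ↔ σ ∈ Bor L i ∧ σ ∈ Bor L j := by
  fin_cases i <;> fin_cases j <;> simp_all [Tor, and_comm]

variable [IsAlgClosed (IsLocalRing.ResidueField W)]

include hS hΔ in
theorem exists_diag {i j : Fin 2} (hij : i ≠ j) {a b : ZMod q} (ha : a ≠ 0) (hb : b ≠ 0) :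
    ∃ σ : L.levelFix, (qMat L hΔ σ).mulVec (Pi.single i 1) = a • Pi.single i 1 ∧
      (qMat L hΔ σ).mulVec (Pi.single j 1) = b • Pi.single j 1 := by
  obtain ⟨V, hV, hv⟩ := exists_vert_hasLine hS hΔ (v := Pi.single i 1) (by simp)
  obtain ⟨V', hV', hv'⟩ := exists_vert_hasLine hS hΔ (v := Pi.single j 1) (by simp)
  obtain ⟨x, -, hx1, hx2⟩ := exists_inertia hS hΔ hV hv (single_indep hij) ha 0
  obtain ⟨y, -, hy1, hy2⟩ := exists_inertia hS hΔ hV' hv' (single_indep hij.symm) hb 0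
  refine ⟨x * y, ?_, ?_⟩
  · rw [qMat_mul, ← Matrix.mulVec_mulVec, hy2, zero_smul, add_zero, hx1]
  · rw [qMat_mul, ← Matrix.mulVec_mulVec, hy1, Matrix.mulVec_smul, hx2, zero_smul, add_zero]

theorem mem_Tor_of_diag {i j : Fin 2} (hij : i ≠ j) {t : L.levelFix} {a b : ZMod q}
    (h : (qMat L hΔ t).mulVec (Pi.single i 1) = a • Pi.single i 1)
    (h' : (qMat L hΔ t).mulVec (Pi.single j 1) = b • Pi.single j 1) : t ∈ Tor L :=
  (mem_Tor_iff hij).2 ⟨(mem_Bor_iff hΔ t i).2 ⟨a, h⟩, (mem_Bor_iff hΔ t j).2 ⟨b, h'⟩⟩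

include hS hΔ hqr in
theorem exists_inertia_mul_torus {i j : Fin 2} (hij : i ≠ j) {V : ValuationSubring F}
    (hV : IsVert W q T V) (hv : HasLine L V (Pi.single i 1)) {σ : L.levelFix}
    (hσ : σ ∈ Bor L i) :
    ∃ ι t : L.levelFix, (ι : F ≃ₐ[K] F) ∈ inertiaV K T V ∧ t ∈ Tor L ∧ σ = ι * t := by
  obtain ⟨a, ha⟩ := (mem_Bor_iff hΔ σ i).1 hσ
  obtain ⟨c, d, hcd⟩ := exists_combination (v := Pi.single i 1) (by simp) (single_indep hij)
    ((qMat L hΔ σ).mulVec (Pi.single j 1))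
  have ha0 : a ≠ 0 := fun h0 => qMat_mulVec_ne_zero L hΔ σ (v := Pi.single i 1) (by simp)
    (by rw [ha, h0, zero_smul])
  have hd0 : d ≠ 0 := fun h0 => by
    refine qMat_mulVec_ne_zero L hΔ σ (v := Pi.single j 1 - (c / a) • Pi.single i 1)
      (fun h1 => single_indep hij _ (sub_eq_zero.1 h1)) ?_
    rw [Matrix.mulVec_sub, Matrix.mulVec_smul, ha, hcd, h0, zero_smul, add_zero, smul_smul,
      div_mul_cancel₀ _ ha0, sub_self]
  obtain ⟨ι, hι, hι1, hι2⟩ := exists_inertia hS hΔ hV hv (single_indep hij) one_ne_zero (c / d)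
  obtain ⟨t, ht1, ht2⟩ := exists_diag hS hΔ hij ha0 hd0
  refine ⟨ι, t, hι, mem_Tor_of_diag hΔ hij ht1 ht2,
    qMat_injective L hΔ hqr (mat_ext (by simp) (single_indep hij) ?_ ?_)⟩
  · rw [qMat_mul, ← Matrix.mulVec_mulVec, ht1, Matrix.mulVec_smul, hι1, one_smul, ha]
  · rw [qMat_mul, ← Matrix.mulVec_mulVec, ht2, Matrix.mulVec_smul, hι2, hcd, smul_add, smul_smul,
      mul_div_cancel₀ _ hd0]
    abel

include hS hΔ hqr in
theorem exists_inertia_mul_mul_torus {i j : Fin 2} (hij : i ≠ j) {V : ValuationSubring F}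
    (hV : IsVert W q T V) (hv : HasLine L V (Pi.single i 1)) {σ σ' : L.levelFix}
    (hσ : σ ∈ Bor L j) (hσn : σ ∉ Tor L) (hσ' : σ' ∈ Bor L j) (hσn' : σ' ∉ Tor L) :
    ∃ ι t : L.levelFix, (ι : F ≃ₐ[K] F) ∈ inertiaV K T V ∧ t ∈ Tor L ∧ σ' = ι * σ * t := by
  have data : ∀ g ∈ Bor L j, g ∉ Tor L → ∃ a c d : ZMod q, a ≠ 0 ∧ c ≠ 0 ∧ d ≠ 0 ∧
      (qMat L hΔ g).mulVec (Pi.single j 1) = a • Pi.single j 1 ∧
      (qMat L hΔ g).mulVec (Pi.single i 1) = d • Pi.single i 1 + c • Pi.single j 1 := by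
    intro g hg hgn
    obtain ⟨a, ha⟩ := (mem_Bor_iff hΔ g j).1 hg
    obtain ⟨d, c, hdc⟩ := exists_combination (v := Pi.single i 1) (by simp) (single_indep hij)
      ((qMat L hΔ g).mulVec (Pi.single i 1))
    have ha0 : a ≠ 0 := fun h0 => qMat_mulVec_ne_zero L hΔ g (v := Pi.single j 1) (by simp)
      (by rw [ha, h0, zero_smul])
    refine ⟨a, c, d, ha0, fun h0 => hgn ?_, fun h0 => ?_, ha, hdc⟩
    · exact (mem_Tor_iff hij).2
        ⟨(mem_Bor_iff hΔ g i).2 ⟨d, by rw [hdc, h0, zero_smul, add_zero]⟩, hg⟩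
    · refine qMat_mulVec_ne_zero L hΔ g (v := Pi.single i 1 - (c / a) • Pi.single j 1)
        (fun h1 => single_indep hij.symm _ (sub_eq_zero.1 h1)) ?_
      rw [Matrix.mulVec_sub, Matrix.mulVec_smul, ha, hdc, h0, zero_smul, zero_add, smul_smul,
        div_mul_cancel₀ _ ha0, sub_self]
  obtain ⟨a, c, d, ha, hc, hd, h1, h2⟩ := data σ hσ hσn
  obtain ⟨a', c', d', ha', hc', hd', h1', h2'⟩ := data σ' hσ' hσn'
  obtain ⟨ι, hι, hι1, hι2⟩ := exists_inertia hS hΔ hV hv (single_indep hij)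
    (a := d' / (c' / c * d)) (div_ne_zero hd' (mul_ne_zero (div_ne_zero hc' hc) hd)) 0
  obtain ⟨t, ht1, ht2⟩ := exists_diag hS hΔ hij (div_ne_zero hc' hc) (div_ne_zero ha' ha)
  refine ⟨ι, t, hι, mem_Tor_of_diag hΔ hij ht1 ht2,
    qMat_injective L hΔ hqr (mat_ext (by simp) (single_indep hij) ?_ ?_)⟩
  · rw [qMat_mul, qMat_mul, ← Matrix.mulVec_mulVec, ← Matrix.mulVec_mulVec, ht1,
      Matrix.mulVec_smul, h2, Matrix.mulVec_smul, Matrix.mulVec_add, Matrix.mulVec_smul,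
      Matrix.mulVec_smul, hι1, hι2, zero_smul, add_zero, h2', smul_add, smul_smul, smul_smul,
      smul_smul, div_mul_cancel₀ _ hc, mul_div_cancel₀ _ (mul_ne_zero (div_ne_zero hc' hc) hd)]
  · rw [qMat_mul, qMat_mul, ← Matrix.mulVec_mulVec, ← Matrix.mulVec_mulVec, ht2,
      Matrix.mulVec_smul, h1, Matrix.mulVec_smul, Matrix.mulVec_smul, hι2, zero_smul, add_zero,
      smul_smul, div_mul_cancel₀ _ ha, h1']

include hS hΔ in
theorem exists_unip {i j : Fin 2} (hij : i ≠ j) (b : ZMod q) :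
    ∃ σ : L.levelFix, (qMat L hΔ σ).mulVec (Pi.single i 1) = Pi.single i 1 ∧
      (qMat L hΔ σ).mulVec (Pi.single j 1) = Pi.single j 1 + b • Pi.single i 1 := by
  obtain ⟨V, hV, hv⟩ := exists_vert_hasLine hS hΔ (v := Pi.single i 1) (by simp)
  obtain ⟨σ, -, h1, h2⟩ := exists_inertia hS hΔ hV hv (single_indep hij) one_ne_zero b
  exact ⟨σ, by rw [h1, one_smul], h2⟩

include hS hΔ in
theorem exists_notMem_Tor (j : Fin 2) : ∃ σ ∈ Bor L j, σ ∉ Tor L := by
  obtain ⟨i, hij⟩ : ∃ i : Fin 2, j ≠ i := ⟨j + 1, by fin_cases j <;> decide⟩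
  obtain ⟨σ, h1, h2⟩ := exists_unip hS hΔ hij 1
  refine ⟨σ, (mem_Bor_iff hΔ σ j).2 ⟨1, by rw [h1, one_smul]⟩, fun h => ?_⟩
  obtain ⟨a, ha⟩ := (mem_Bor_iff hΔ σ i).1 ((mem_Tor_iff hij).1 h).2
  have := congrFun (h2.symm.trans ha) j
  simp [Pi.single_eq_of_ne hij] at this

/-- The index used in the averaging: `#Bor - #Tor`. -/
noncomputable def borDiff (L : LevelData K F fam q r) : ℕ :=
  Nat.card (Bor L 0) - Nat.card (Tor L)

/-- The exponent of the averaging. -/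
noncomputable def avgExp (L : LevelData K F fam q r) : ℕ :=
  Nat.card (Bor L 0) * borDiff L * (Nat.card (Bor L 0) + Nat.card (Tor L))

include hS hΔ in
theorem card_Bor (i : Fin 2) : Nat.card (Bor L i) = Nat.card (Bor L 0) := by
  fin_cases i
  · rfl
  obtain ⟨x, hx0, hx1⟩ := exists_unip hS hΔ (i := 0) (j := 1) (by decide) 1
  obtain ⟨y, hy1, hy0⟩ := exists_unip hS hΔ (i := 1) (j := 0) (by decide) (-1)
  set w := x * y * x
  have hw0 : (qMat L hΔ w).mulVec (Pi.single 0 1) = -Pi.single 1 1 := by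
    rw [qMat_mul, qMat_mul, ← Matrix.mulVec_mulVec, ← Matrix.mulVec_mulVec, hx0, hy0,
      Matrix.mulVec_add, Matrix.mulVec_smul, hx0, hx1, one_smul, neg_smul, one_smul]
    abel
  have hw1 : (qMat L hΔ w).mulVec (Pi.single 1 1) = Pi.single 0 1 := by
    rw [qMat_mul, qMat_mul, ← Matrix.mulVec_mulVec, ← Matrix.mulVec_mulVec, hx1, one_smul,
      Matrix.mulVec_add, hy1, hy0, Matrix.mulVec_add, Matrix.mulVec_add, Matrix.mulVec_smul,
      hx0, hx1, one_smul, neg_smul, one_smul]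
    abel
  refine Nat.card_congr
    { toFun := fun σ => ⟨w * σ * w⁻¹, ?_⟩
      invFun := fun σ => ⟨w⁻¹ * σ * w, ?_⟩
      left_inv := fun σ => Subtype.ext (by group)
      right_inv := fun σ => Subtype.ext (by group) }
  · obtain ⟨a, ha⟩ := (mem_Bor_iff hΔ σ.1 1).1 σ.2
    refine (mem_Bor_iff hΔ _ 0).2 ⟨a, ?_⟩
    rw [← hw1, qMat_mul, qMat_mul, ← Matrix.mulVec_mulVec, ← Matrix.mulVec_mulVec]
    rw [Matrix.mulVec_mulVec (Pi.single 1 1) (qMat L hΔ w⁻¹), ← qMat_mul, inv_mul_cancel,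
      qMat_one, Matrix.one_mulVec, ha, Matrix.mulVec_smul]
  · obtain ⟨a, ha⟩ := (mem_Bor_iff hΔ σ.1 0).1 σ.2
    refine (mem_Bor_iff hΔ _ _).2 ⟨a, ?_⟩
    rw [Fin.mk_one, qMat_mul, qMat_mul, ← Matrix.mulVec_mulVec, ← Matrix.mulVec_mulVec, hw1, ha,
      Matrix.mulVec_smul]
    refine congrArg (a • ·) ?_
    rw [← hw1, Matrix.mulVec_mulVec, ← qMat_mul, inv_mul_cancel, qMat_one, Matrix.one_mulVec]

include hS hΔ in
theorem card_Tor_lt : Nat.card (Tor L) < Nat.card (Bor L 0) := by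
  have := finite_levelFix hS
  obtain ⟨σ, hσ, hσn⟩ := exists_notMem_Tor hS hΔ 0
  exact Set.ncard_lt_ncard (s := (Tor L : Set L.levelFix)) (t := (Bor L 0 : Set L.levelFix))
    (Set.ssubset_iff_of_subset (fun x hx => hx.1) |>.2 ⟨σ, hσ, hσn⟩)

include hS hΔ in
theorem avgExp_pos : 0 < avgExp L := by
  have := card_Tor_lt hS hΔ
  unfold avgExp borDiff
  exact Nat.mul_pos (Nat.mul_pos (by omega) (by omega)) (by omega)

section Sums

variable {A : Type*} [AddCommGroup A] [Fintype L.levelFix] (Ψ : L.levelFix → A)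

open scoped Classical in
include hS hΔ hqr in
theorem sum_Bor_self {i : Fin 2} {V : ValuationSubring F} (hV : IsVert W q T V)
    (hv : HasLine L V (Pi.single i 1))
    (hI : ∀ ι τ : L.levelFix, (ι : F ≃ₐ[K] F) ∈ inertiaV K T V → Ψ (ι * τ) = Ψ τ)
    (hT : ∀ τ t : L.levelFix, t ∈ Tor L → Ψ (τ * t) = Ψ τ) :
    ∑ σ ∈ Finset.univ.filter (· ∈ Bor L i), Ψ σ = Nat.card (Bor L 0) • Ψ 1 := by
  obtain ⟨j, hij⟩ : ∃ j : Fin 2, i ≠ j := ⟨i + 1, by fin_cases i <;> decide⟩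
  rw [Finset.sum_congr rfl (g := fun _ => Ψ 1), Finset.sum_const, ← card_Bor hS hΔ i,
    Nat.card_eq_fintype_card, Fintype.card_subtype]
  intro σ hσ
  obtain ⟨ι, t, hι, ht, rfl⟩ :=
    exists_inertia_mul_torus hS hΔ hqr hij hV hv (Finset.mem_filter.1 hσ).2
  rw [hT ι t ht, ← mul_one ι, hI ι 1 hι]

open scoped Classical in
include hS hΔ hqr in
theorem sum_Bor_other {i j : Fin 2} (hij : i ≠ j) {V : ValuationSubring F}
    (hV : IsVert W q T V) (hv : HasLine L V (Pi.single i 1))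
    (hI : ∀ ι τ : L.levelFix, (ι : F ≃ₐ[K] F) ∈ inertiaV K T V → Ψ (ι * τ) = Ψ τ)
    (hT : ∀ τ t : L.levelFix, t ∈ Tor L → Ψ (τ * t) = Ψ τ) {u : L.levelFix}
    (hu : u ∈ Bor L j) (hun : u ∉ Tor L) :
    ∑ σ ∈ Finset.univ.filter (· ∈ Bor L j), Ψ σ =
      Nat.card (Tor L) • Ψ 1 + borDiff L • Ψ u := by
  have hsub : ∀ x, x ∈ Tor L → x ∈ Bor L j := fun x hx => ((mem_Tor_iff hij).1 hx).2
  rw [← Finset.sum_filter_add_sum_filter_not _ (· ∈ Tor L), Finset.filter_filter,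
    Finset.filter_filter]
  congr 1
  · rw [Finset.sum_congr rfl (g := fun _ => Ψ 1), Finset.sum_const, Nat.card_eq_fintype_card,
      Fintype.card_subtype]
    · congr 2
      ext x
      simp only [Finset.mem_filter, Finset.mem_univ, true_and]
      exact ⟨fun h => h.2, fun h => ⟨hsub x h, h⟩⟩
    · intro σ hσ
      rw [← one_mul σ, hT 1 σ (Finset.mem_filter.1 hσ).2.2]
  · rw [Finset.sum_congr rfl (g := fun _ => Ψ u), Finset.sum_const]
    · congr 1
      rw [borDiff, ← card_Bor hS hΔ j, Nat.card_eq_fintype_card, Nat.card_eq_fintype_card,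
        Fintype.card_subtype, Fintype.card_subtype,
        ← Finset.card_sdiff_of_subset (Finset.monotone_filter_right _ fun x _ h => hsub x h)]
      congr 1
      ext x
      simp
    · intro σ hσ
      obtain ⟨ι, t, hι, ht, rfl⟩ := exists_inertia_mul_mul_torus hS hΔ hqr hij hV hv hu hun
        (Finset.mem_filter.1 hσ).2.1 (Finset.mem_filter.1 hσ).2.2
      rw [hT _ t ht, hI ι u hι]

end Sums

include hS hΔ in
/-- A generic line is moved to the line `1` by an element of `Bor 0` outside the torus. -/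
theorem exists_smul_line {v : Fin 2 → ZMod q} (h0 : v 0 ≠ 0) (h1 : v 1 ≠ 0)
    {V : ValuationSubring F} (hv : HasLine L V v) :
    ∃ σ ∈ Bor L 0, σ ∉ Tor L ∧ HasLine L ((σ : F ≃ₐ[K] F) • V) (Pi.single 1 1) := by
  obtain ⟨σ, hσ0, hσ1⟩ := exists_unip hS hΔ (i := 0) (j := 1) (by decide) (-(v 0 / v 1))
  refine ⟨σ, (mem_Bor_iff hΔ σ 0).2 ⟨1, by rw [hσ0, one_smul]⟩, fun h => ?_, ?_⟩
  · obtain ⟨a, ha⟩ := (mem_Bor_iff hΔ σ 1).1 h.2
    have := congrFun (hσ1.symm.trans ha) 0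
    simp [h0, h1] at this
  · have h := hv.smul hΔ σ
    have hv' : v = v 0 • Pi.single 0 1 + v 1 • Pi.single 1 1 := funext fun i => by
      fin_cases i <;> simp
    rw [hv', Matrix.mulVec_add, Matrix.mulVec_smul, Matrix.mulVec_smul, hσ0, hσ1, smul_add,
      smul_smul, mul_neg, mul_div_cancel₀ _ h1, neg_smul, ← add_assoc,
      add_neg_cancel_comm] at h
    refine ⟨by simp, fun w => (h.2 w).trans ⟨?_, ?_⟩⟩
    · rintro ⟨c, rfl⟩; exact ⟨c * v 1, by rw [smul_smul]⟩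
    · rintro ⟨c, rfl⟩
      exact ⟨c / v 1, by rw [smul_smul, div_mul_cancel₀ _ h1]⟩

include hS hΔ in
omit [IsAlgClosed (IsLocalRing.ResidueField ↥W)] in
/-- Each component has line `0`, line `1` or a generic line. -/
theorem hasLine_cases {V : ValuationSubring F} (hV : IsVert W q T V) :
    (∃ i : Fin 2, HasLine L V (Pi.single i 1)) ∨
      ∃ v, v 0 ≠ 0 ∧ v 1 ≠ 0 ∧ HasLine L V v := by
  obtain ⟨v, hv⟩ := exists_hasLine hS hΔ hV
  by_cases h : v 0 ≠ 0 ∧ v 1 ≠ 0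
  · exact Or.inr ⟨v, h.1, h.2, hv⟩
  obtain ⟨i, hi, hev⟩ : ∃ i : Fin 2, v i ≠ 0 ∧ v = v i • Pi.single i 1 := by
    by_cases h0 : v 0 = 0
    · refine ⟨1, fun h1 => hv.1 (funext fun k => by fin_cases k <;> simp [h0, h1]),
        funext fun k => ?_⟩
      fin_cases k <;> simp [h0]
    · have h1 : v 1 = 0 := by_contra fun h1 => h ⟨h0, h1⟩
      refine ⟨0, h0, funext fun k => ?_⟩
      fin_cases k <;> simp [h1]
  refine Or.inl ⟨i, by simp, fun w => (hv.2 w).trans ⟨?_, ?_⟩⟩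
  · rintro ⟨c, rfl⟩
    refine ⟨c * v i, ?_⟩
    conv_lhs => rw [hev, smul_smul]
  · rintro ⟨c, rfl⟩
    refine ⟨c / v i, ?_⟩
    calc c • Pi.single i 1 = (c / v i * v i) • Pi.single i (1 : ZMod q) := by
          rw [div_mul_cancel₀ _ hi]
      _ = (c / v i) • v := by rw [mul_smul, ← hev]

open scoped Classical in
include hS hΔ hqr in
/-- **Averaging**: a torus invariant, equivariant function with constant sums over both Borel
subgroups is constant after multiplication by `avgExp`. -/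
theorem average {A : Type*} [AddCommGroup A] [Fintype L.levelFix]
    (S : Set (ValuationSubring F)) (hSV : ∀ V ∈ S, IsVert W q T V)
    (hSG : ∀ (σ : L.levelFix), ∀ V ∈ S, (σ : F ≃ₐ[K] F) • V ∈ S)
    (Φ : ValuationSubring F → L.levelFix → A)
    (hEq : ∀ V ∈ S, ∀ σ τ : L.levelFix, Φ ((σ : F ≃ₐ[K] F) • V) (σ * τ) = Φ V τ)
    (hT : ∀ V ∈ S, ∀ τ t : L.levelFix, t ∈ Tor L → Φ V (τ * t) = Φ V τ)
    (C : Fin 2 → A)
    (hB : ∀ V ∈ S, ∀ i, ∑ σ ∈ Finset.univ.filter (· ∈ Bor L i), Φ V σ = C i) :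
    ∃ R : A, ∀ V ∈ S, avgExp L • Φ V 1 = R := by
  rcases S.eq_empty_or_nonempty with hempty | ⟨V₀, hV₀⟩
  · exact ⟨0, fun V hV => absurd hV (by rw [hempty]; exact Set.notMem_empty V)⟩
  set B := Nat.card (Bor L 0)
  set t := Nat.card (Tor L)
  set N := borDiff L with hN
  have hBN : B = t + N := by
    have := card_Tor_lt hS hΔ
    simp only [hN, borDiff]; omega
  have hI : ∀ V ∈ S, ∀ ι τ : L.levelFix, (ι : F ≃ₐ[K] F) ∈ inertiaV K T V →
      Φ V (ι * τ) = Φ V τ := fun V hV ι τ hι => by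
    conv_lhs => rw [← smul_eq_of_mem_stabV (mem_inertiaV.1 hι).1]
    exact hEq V hV ι τ
  have hline : ∀ V ∈ S, ∀ i : Fin 2, HasLine L V (Pi.single i 1) → B • Φ V 1 = C i :=
    fun V hV i hv => by
      rw [← hB V hV i, sum_Bor_self hS hΔ hqr _ (hSV V hV) hv (hI V hV) (hT V hV)]
  have hgen : ∀ V ∈ S, ∀ v, HasLine L V v → v 0 ≠ 0 → v 1 ≠ 0 →
      (B * N) • Φ V 1 = B • C 0 - t • C 1 := by
    intro V hV v hv h0 h1
    obtain ⟨σ, hσ, hσn, hline'⟩ := exists_smul_line hS hΔ h0 h1 hv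
    have hV' := hSG σ V hV
    have hsum := hB _ hV' 0
    rw [sum_Bor_other hS hΔ hqr _ (i := 1) (j := 0) (by decide) (hSV _ hV') hline' (hI _ hV')
      (hT _ hV') hσ hσn, show Φ ((σ : F ≃ₐ[K] F) • V) σ = Φ V 1 by
        simpa using hEq V hV σ 1] at hsum
    rw [← hsum, ← hline _ hV' 1 hline', smul_add, smul_smul, smul_smul, smul_smul, mul_comm t B,
      add_sub_cancel_left]
  -- a component with a generic line
  obtain ⟨V₁, hV₁, v₁, hv₁, h10, h11⟩ : ∃ V ∈ S, ∃ v, HasLine L V v ∧ v 0 ≠ 0 ∧ v 1 ≠ 0 := by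
    rcases hasLine_cases hS hΔ (hSV V₀ hV₀) with ⟨i, hi⟩ | ⟨v, h0, h1, hv⟩
    · obtain ⟨j, hij⟩ : ∃ j : Fin 2, j ≠ i := ⟨i + 1, by fin_cases i <;> decide⟩
      obtain ⟨σ, hσj, hσi⟩ := exists_unip hS hΔ hij 1
      refine ⟨_, hSG σ V₀ hV₀, _, hi.smul hΔ σ, ?_⟩
      rw [hσi]
      fin_cases i <;> fin_cases j <;> first | exact absurd rfl hij | simp
    · exact ⟨V₀, hV₀, v, hv, h0, h1⟩
  -- the symmetric equation
  have hsym : (B + t) • C 1 = (B + t) • C 0 := by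
    obtain ⟨σ, hσ0, hσ1⟩ := exists_unip hS hΔ (i := 1) (j := 0) (by decide)
      (-(v₁ 1 / v₁ 0))
    have hV' := hSG σ V₁ hV₁
    have hline' : HasLine L ((σ : F ≃ₐ[K] F) • V₁) (Pi.single 0 1) := by
      have h := hv₁.smul hΔ σ
      have hv' : v₁ = v₁ 0 • Pi.single 0 1 + v₁ 1 • Pi.single 1 1 := funext fun i => by
        fin_cases i <;> simp
      rw [hv', Matrix.mulVec_add, Matrix.mulVec_smul, Matrix.mulVec_smul, hσ0, hσ1, smul_add,
        smul_smul, mul_neg, mul_div_cancel₀ _ h10, neg_smul, neg_add_cancel_right] at h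
      refine ⟨by simp, fun w => (h.2 w).trans ⟨?_, ?_⟩⟩
      · rintro ⟨c, rfl⟩; exact ⟨c * v₁ 0, by rw [smul_smul]⟩
      · rintro ⟨c, rfl⟩
        exact ⟨c / v₁ 0, by rw [smul_smul, div_mul_cancel₀ _ h10]⟩
    have hσn : σ ∉ Tor L := fun h => by
      obtain ⟨a, ha⟩ := (mem_Bor_iff hΔ σ 0).1 h.1
      have := congrFun (hσ1.symm.trans ha) 1
      simp [h10, h11] at this
    have hsum := hB _ hV' 1
    rw [sum_Bor_other hS hΔ hqr _ (i := 0) (j := 1) (by decide) (hSV _ hV') hline' (hI _ hV')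
      (hT _ hV') ((mem_Bor_iff hΔ σ 1).2 ⟨1, by rw [hσ0, one_smul]⟩) hσn,
      show Φ ((σ : F ≃ₐ[K] F) • V₁) σ = Φ V₁ 1 by simpa using hEq V₁ hV₁ σ 1] at hsum
    have h1 : (B * N) • Φ V₁ 1 = B • C 1 - t • C 0 := by
      rw [← hsum, ← hline _ hV' 0 hline', smul_add, smul_smul, smul_smul, smul_smul, mul_comm t B,
        add_sub_cancel_left]
    rw [hgen V₁ hV₁ v₁ hv₁ h10 h11, sub_eq_sub_iff_add_eq_add] at h1
    rw [add_smul, add_smul]
    exact h1.symm.trans (by abel)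
  refine ⟨(N * (B + t)) • C 0, fun V hV => ?_⟩
  rcases hasLine_cases hS hΔ (hSV V hV) with ⟨i, hi⟩ | ⟨v, h0, h1, hv⟩
  · rw [avgExp, show B * borDiff L * (B + t) = (N * (B + t)) * B by rw [hN]; ring, mul_smul,
      hline V hV i hi]
    fin_cases i
    · rfl
    · rw [mul_smul, mul_smul, show C (⟨1, _⟩ : Fin 2) = C 1 from rfl, hsym]
  · rw [avgExp, show B * borDiff L * (B + t) = (B + t) * (B * N) by rw [hN]; ring, mul_smul,
      hgen V hV v hv h0 h1, smul_sub, smul_smul, smul_smul, mul_comm (B + t) t,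
      mul_smul t (B + t) (C 1), hsym, smul_smul, mul_comm t (B + t)]
    have e : (N * (B + t)) + (B + t) * t = (B + t) * B := by rw [hBN]; ring
    rw [← e, add_smul, add_sub_cancel_right]

end Fermat.Agent.Carayol.Kill
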