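import Fermat.Agent.Carayol.PointVert
import Mathlib.FieldTheory.AlgebraicClosure

/-!
# Orders and roots at vertical valuation rings

Orders at the vertical valuation rings, residues that are constants, and algebraic constants.

Main result: `mem_powAt`.
-/

set_option autoImplicit false

open Polynomial IntermediateField IsDedekindDomain
open scoped IntermediateField Pointwise

namespace Fermat.Agent.Carayol.Kill

variable {K F : Type*} [Field K] [Field F] [Algebra K F]

section Basic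

variable {V : ValuationSubring F} {x y : F}

theorem val_eq_one_iff : V.valuation x = 1 ↔ x ∈ V ∧ x ∉ V.nonunits := by
  rw [← V.valuation_le_one_iff, V.mem_nonunits_iff, not_lt]
  exact ⟨fun h => ⟨h.le, h.ge⟩, fun h => le_antisymm h.1 h.2⟩

theorem val_eq_one_iff_inv : V.valuation x = 1 ↔ x ≠ 0 ∧ x ∈ V ∧ x⁻¹ ∈ V := by
  rw [val_eq_one_iff, V.mem_nonunits_iff_or, not_or, not_not]
  tauto

theorem ne_zero_of_val (h : V.valuation x = 1) : x ≠ 0 := (val_eq_one_iff_inv.1 h).1

theorem mem_of_val (h : V.valuation x = 1) : x ∈ V := (val_eq_one_iff.1 h).1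

theorem add_mem_nonunits (hx : x ∈ V.nonunits) (hy : y ∈ V.nonunits) : x + y ∈ V.nonunits := by
  rw [V.mem_nonunits_iff] at *
  exact V.valuation.map_add_lt hx hy

theorem sub_mem_nonunits (hx : x ∈ V.nonunits) (hy : y ∈ V.nonunits) : x - y ∈ V.nonunits := by
  rw [V.mem_nonunits_iff] at *
  exact V.valuation.map_sub_lt hx hy

theorem zero_mem_nonunits : (0 : F) ∈ V.nonunits := V.mem_nonunits_iff_or.2 (Or.inl rfl)

theorem pow_mem_nonunits_iff {n : ℕ} (hn : n ≠ 0) : x ^ n ∈ V.nonunits ↔ x ∈ V.nonunits := by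
  rw [V.mem_nonunits_iff, V.mem_nonunits_iff, map_pow, pow_lt_one_iff hn]

theorem val_eq_one_of_congr (hy : V.valuation y = 1) (h : x - y ∈ V.nonunits) :
    V.valuation x = 1 := by
  rw [V.mem_nonunits_iff, ← hy] at h
  rw [V.valuation.map_eq_of_sub_lt h, hy]

theorem val_pow_eq_one_iff {n : ℕ} (hn : n ≠ 0) : V.valuation (x ^ n) = 1 ↔ V.valuation x = 1 := by
  rw [map_pow, pow_eq_one_iff, or_iff_left hn]

/-- Congruences multiply. -/
theorem congr_mul {a b : F} (hx : x ∈ V) (hb : b ∈ V) (h : x - y ∈ V.nonunits)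
    (h' : a - b ∈ V.nonunits) : x * a - y * b ∈ V.nonunits := by
  rw [show x * a - y * b = x * (a - b) + (x - y) * b by ring]
  exact add_mem_nonunits (nonunits_mul_left hx h') (nonunits_mul_right hb h)

theorem congr_pow (hx : x ∈ V) (hy : y ∈ V) (h : x - y ∈ V.nonunits) :
    ∀ n : ℕ, x ^ n - y ^ n ∈ V.nonunits
  | 0 => by simp
  | n + 1 => by
    rw [pow_succ, pow_succ]
    exact congr_mul (pow_mem hx n) hy (congr_pow hx hy h n) h

theorem smul_mem_nonunits_iff (σ : F ≃ₐ[K] F) :
    σ x ∈ (σ • V).nonunits ↔ x ∈ V.nonunits := by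
  rw [ValuationSubring.mem_nonunits_iff_or, ValuationSubring.mem_nonunits_iff_or, map_eq_zero,
    ← map_inv₀, ← AlgEquiv.smul_def, ValuationSubring.smul_mem_pointwise_smul_iff]

theorem apply_mem_smul_iff (σ : F ≃ₐ[K] F) : σ x ∈ σ • V ↔ x ∈ V := by
  rw [← AlgEquiv.smul_def, ValuationSubring.smul_mem_pointwise_smul_iff]

theorem val_smul_eq_one_iff (σ : F ≃ₐ[K] F) :
    (σ • V).valuation (σ x) = 1 ↔ V.valuation x = 1 := by
  rw [val_eq_one_iff, val_eq_one_iff, apply_mem_smul_iff, smul_mem_nonunits_iff]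

end Basic

/-! ### Orders -/

/-- A uniformiser of a discrete valuation ring. -/
def IsUnif (V : ValuationSubring F) (π : F) : Prop :=
  π ≠ 0 ∧ π ∈ V.nonunits ∧ ∀ x ∈ V.nonunits, x / π ∈ V

/-- The element has order `m`. -/
def HasOrd (V : ValuationSubring F) (x : F) (m : ℤ) : Prop :=
  ∃ π, IsUnif V π ∧ V.valuation (x / π ^ m) = 1

/-- The order of an element. -/
noncomputable def vord (V : ValuationSubring F) (x : F) : ℤ := Classical.epsilon (HasOrd V x)

theorem HasOrd.unique {V : ValuationSubring F} {x : F} {m m' : ℤ} (h : HasOrd V x m)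
    (h' : HasOrd V x m') : m = m' := by
  obtain ⟨π, hπ, e⟩ := h
  obtain ⟨π', hπ', e'⟩ := h'
  have hx : x ≠ 0 := fun hx => by simpa [hx] using ne_zero_of_val e
  have hle : ∀ {a b : F}, IsUnif V a → IsUnif V b → V.valuation b ≤ V.valuation a := by
    intro a b ha hb
    have h := (V.valuation_le_one_iff _).2 (ha.2.2 b hb.2.1)
    rwa [map_div₀, div_le_one₀ (zero_lt_iff.2 ((Valuation.ne_zero_iff _).2 ha.1))] at h
  have hππ : V.valuation π' = V.valuation π := le_antisymm (hle hπ hπ') (hle hπ' hπ)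
  have hne : V.valuation π ≠ 0 := (Valuation.ne_zero_iff _).2 hπ.1
  rw [map_div₀, map_zpow₀, div_eq_one_iff_eq (zpow_ne_zero _ hne)] at e
  rw [map_div₀, map_zpow₀, hππ, div_eq_one_iff_eq (zpow_ne_zero _ hne), e] at e'
  exact zpow_right_injective₀ (zero_lt_iff.2 hne) (ne_of_lt hπ.2.1) e'

theorem vord_eq {V : ValuationSubring F} {x : F} {m : ℤ} (h : HasOrd V x m) : vord V x = m :=
  (Classical.epsilon_spec (p := HasOrd V x) ⟨m, h⟩).unique h

theorem IsUnif.smul {V : ValuationSubring F} {π : F} (h : IsUnif V π) (σ : F ≃ₐ[K] F) :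
    IsUnif (σ • V) (σ π) := by
  refine ⟨(map_ne_zero σ).2 h.1, (smul_mem_nonunits_iff σ).2 h.2.1, fun x hx => ?_⟩
  obtain ⟨y, rfl⟩ := σ.surjective x
  rw [← map_div₀, apply_mem_smul_iff]
  exact h.2.2 y ((smul_mem_nonunits_iff σ).1 hx)

section Vert

variable {W : ValuationSubring K} {q : ℕ} {t : F} (hb : BaseData W q) (hc : Cover K t)
  {V V' : ValuationSubring F} {x y : F}

include hb hc in
theorem exists_isUnif (hV : IsVert W q t V) :
    ∃ π, IsUnif V π ∧ ∀ x : F, x ≠ 0 → ∃ m : ℤ, V.valuation (x / π ^ m) = 1 := by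
  obtain ⟨A, hA⟩ := exists_gauss hb hc.transcendental
  have := hc.finite
  have := hc.galois
  have := gauss_dvr hb hc.transcendental hA
  have := IsIntegralClosure.isDedekindDomain A K⟮t⟯ F (integralClosure A F)
  have := IsIntegralClosure.isFractionRing_of_finite_extension A K⟮t⟯ F (integralClosure A F)
  obtain ⟨v, -, rfl⟩ := (vert_iff hb hc hA V).mp hV
  obtain ⟨π, hπ⟩ := v.valuation_exists_uniformizer F
  have hπ0 : π ≠ 0 := fun h => by rw [h, map_zero] at hπ; exact WithZero.exp_ne_zero hπ.symm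
  refine ⟨π, ⟨hπ0, ?_, fun x hx => ?_⟩, fun x hx => ?_⟩
  · rw [mem_nonunits_valuation_iff, hπ, ← WithZero.exp_zero, WithZero.exp_lt_exp]
    norm_num
  · rw [mem_nonunits_valuation_iff] at hx
    rw [mem_valuationSubring_valuation_iff, map_div₀, hπ]
    rcases eq_or_ne (v.valuation F x) 0 with h | h
    · rw [h, zero_div]; exact zero_le_one
    · rw [← WithZero.exp_log h, ← WithZero.exp_sub, ← WithZero.exp_zero, WithZero.exp_le_exp]
      rw [← WithZero.exp_log h, ← WithZero.exp_zero, WithZero.exp_lt_exp] at hx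
      omega
  · have h : v.valuation F x ≠ 0 := (Valuation.ne_zero_iff _).2 hx
    refine ⟨-(WithZero.log (v.valuation F x)), ?_⟩
    have h1 : v.valuation F (x / π ^ (-WithZero.log (v.valuation F x))) = 1 := by
      rw [map_div₀, map_zpow₀, hπ, ← WithZero.exp_zsmul, smul_neg, neg_smul, neg_neg,
        smul_eq_mul, mul_one, WithZero.exp_log h, div_self h]
    exact val_eq_one_iff_inv.2 ⟨fun h0 => by rw [h0, map_zero] at h1; exact zero_ne_one h1,
      (mem_valuationSubring_valuation_iff v _).2 h1.le,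
      (mem_valuationSubring_valuation_iff v _).2 (by rw [map_inv₀, h1, inv_one])⟩

include hb hc in
theorem hasOrd_vord (hV : IsVert W q t V) (hx : x ≠ 0) : HasOrd V x (vord V x) := by
  obtain ⟨π, hπ, h⟩ := exists_isUnif hb hc hV
  obtain ⟨m, hm⟩ := h x hx
  rw [vord_eq ⟨π, hπ, hm⟩]
  exact ⟨π, hπ, hm⟩

include hb hc in
theorem vord_spec (hV : IsVert W q t V) {π : F} (hπ : IsUnif V π) (hx : x ≠ 0) :
    V.valuation x = V.valuation π ^ vord V x := by
  obtain ⟨π', hπ', e⟩ := hasOrd_vord hb hc hV hx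
  have hle : ∀ {a b : F}, IsUnif V a → IsUnif V b → V.valuation b ≤ V.valuation a := by
    intro a b ha hb
    have h := (V.valuation_le_one_iff _).2 (ha.2.2 b hb.2.1)
    rwa [map_div₀, div_le_one₀ (zero_lt_iff.2 ((Valuation.ne_zero_iff _).2 ha.1))] at h
  rw [map_div₀, map_zpow₀, le_antisymm (hle hπ hπ') (hle hπ' hπ),
    div_eq_one_iff_eq (zpow_ne_zero _ ((Valuation.ne_zero_iff _).2 hπ.1))] at e
  exact e

include hb hc in
theorem vord_eq_iff (hV : IsVert W q t V) {π : F} (hπ : IsUnif V π) (hx : x ≠ 0) {m : ℤ} :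
    vord V x = m ↔ V.valuation x = V.valuation π ^ m := by
  refine ⟨fun h => h ▸ vord_spec hb hc hV hπ hx, fun h => vord_eq ⟨π, hπ, ?_⟩⟩
  rw [map_div₀, map_zpow₀, h, div_self (zpow_ne_zero _ ((Valuation.ne_zero_iff _).2 hπ.1))]

include hb hc in
theorem vord_mul (hV : IsVert W q t V) (hx : x ≠ 0) (hy : y ≠ 0) :
    vord V (x * y) = vord V x + vord V y := by
  obtain ⟨π, hπ, -⟩ := exists_isUnif hb hc hV
  rw [vord_eq_iff hb hc hV hπ (mul_ne_zero hx hy), map_mul, vord_spec hb hc hV hπ hx,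
    vord_spec hb hc hV hπ hy, zpow_add₀ ((Valuation.ne_zero_iff _).2 hπ.1)]

include hb hc in
theorem vord_zpow (hV : IsVert W q t V) (hx : x ≠ 0) (i : ℤ) :
    vord V (x ^ i) = i * vord V x := by
  obtain ⟨π, hπ, -⟩ := exists_isUnif hb hc hV
  rw [vord_eq_iff hb hc hV hπ (zpow_ne_zero _ hx), map_zpow₀, vord_spec hb hc hV hπ hx,
    ← zpow_mul, mul_comm]

include hb hc in
theorem vord_pow (hV : IsVert W q t V) (hx : x ≠ 0) (i : ℕ) :
    vord V (x ^ i) = i * vord V x := by
  rw [← zpow_natCast, vord_zpow hb hc hV hx]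

include hb hc in
theorem vord_one (hV : IsVert W q t V) : vord V (1 : F) = 0 := by
  simpa using vord_zpow hb hc hV (one_ne_zero (α := F)) 0

include hb hc in
theorem vord_prod (hV : IsVert W q t V) {ι : Type*} (s : Finset ι) (g : ι → F)
    (hg : ∀ i ∈ s, g i ≠ 0) : vord V (∏ i ∈ s, g i) = ∑ i ∈ s, vord V (g i) := by
  classical
  induction s using Finset.induction_on with
  | empty => rw [Finset.prod_empty, Finset.sum_empty, vord_one hb hc hV]
  | @insert a s ha ih =>
    rw [Finset.prod_insert ha, Finset.sum_insert ha,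
      vord_mul hb hc hV (hg a (Finset.mem_insert_self a s))
        (Finset.prod_ne_zero_iff.2 fun i hi => hg i (Finset.mem_insert_of_mem hi)),
      ih fun i hi => hg i (Finset.mem_insert_of_mem hi)]

include hb hc in
theorem vord_eq_zero_iff (hV : IsVert W q t V) (hx : x ≠ 0) :
    vord V x = 0 ↔ V.valuation x = 1 := by
  obtain ⟨π, hπ, -⟩ := exists_isUnif hb hc hV
  rw [vord_eq_iff hb hc hV hπ hx, zpow_zero]

include hb hc in
theorem vord_smul (hV : IsVert W q t V) (hx : x ≠ 0) (σ : F ≃ₐ[K] F) :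
    vord (σ • V) (σ x) = vord V x := by
  obtain ⟨π, hπ, e⟩ := hasOrd_vord hb hc hV hx
  refine vord_eq ⟨σ π, hπ.smul σ, ?_⟩
  rw [← map_zpow₀, ← map_div₀, val_smul_eq_one_iff]
  exact e

include hb hc in
/-- The ramification index of `q`, the same at all components. -/
theorem exists_vord_q : ∃ e : ℕ, 0 < e ∧ ∀ V, IsVert W q t V → vord V (q : F) = e := by
  obtain ⟨V₀, hV₀⟩ := exists_isVert hb hc
  have hq := q_ne_zero (F := F) hb
  obtain ⟨π, hπ, -⟩ := exists_isUnif hb hc hV₀
  have hpos : 0 < vord V₀ (q : F) := by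
    by_contra! h
    have h1 := hV₀.q_mem
    rw [V₀.mem_nonunits_iff, vord_spec hb hc hV₀ hπ hq] at h1
    exact not_lt.2 (one_le_zpow_of_nonpos₀ (zero_lt_iff.2 ((Valuation.ne_zero_iff _).2 hπ.1))
      hπ.2.1.le h) h1
  refine ⟨(vord V₀ (q : F)).toNat, by omega, fun V hV => ?_⟩
  obtain ⟨σ, hσ, rfl⟩ := exists_comap_eq hb hc hV₀ hV
  have e : σ • V₀.comap (σ : F →+* F) = V₀ := by
    ext z
    obtain ⟨y, rfl⟩ := σ.surjective z
    rw [apply_mem_smul_iff]
    exact Iff.rfl
  rw [Int.toNat_of_nonneg hpos.le, ← vord_smul hb hc hV hq σ, e, map_natCast]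

end Vert

/-! ### Constants -/

section Const

variable {W : ValuationSubring K}

theorem algebraMap_mem {V : ValuationSubring F} (hV : V.comap (algebraMap K F) = W) (w : W) :
    algebraMap K F w ∈ V :=
  ValuationSubring.mem_comap.1 (hV.symm ▸ w.2)

theorem algebraMap_mem_nonunits_iff {V : ValuationSubring F} (hV : V.comap (algebraMap K F) = W)
    (w : W) : algebraMap K F w ∈ V.nonunits ↔ w ∈ IsLocalRing.maximalIdeal W := by
  have e : algebraMap K F w ∈ V.nonunits ↔ ((w : K)) ∈ W.nonunits := by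
    rw [ValuationSubring.mem_nonunits_iff_or, ValuationSubring.mem_nonunits_iff_or,
      map_eq_zero, ← map_inv₀, ← ValuationSubring.mem_comap, hV]
  rw [e, ValuationSubring.mem_nonunits_iff_exists_mem_maximalIdeal]
  exact ⟨fun ⟨_, h⟩ => h, fun h => ⟨w.2, h⟩⟩

theorem residue_eq_of_congr {V : ValuationSubring F} (hV : V.comap (algebraMap K F) = W) {x : F}
    {w w' : W} (h : x - algebraMap K F w ∈ V.nonunits) (h' : x - algebraMap K F w' ∈ V.nonunits) :
    IsLocalRing.residue W w = IsLocalRing.residue W w' := by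
  rw [← sub_eq_zero, ← map_sub, IsLocalRing.residue_eq_zero_iff,
    ← algebraMap_mem_nonunits_iff hV, AddSubgroupClass.coe_sub, map_sub]
  simpa using sub_mem_nonunits h' h

variable [IsAlgClosed (IsLocalRing.ResidueField W)]

/-- A root of a polynomial over `W` which does not vanish modulo the maximal ideal reduces to a
constant. -/
theorem exists_const_of_root {V : ValuationSubring F} (hV : V.comap (algebraMap K F) = W)
    {p : W[X]} (hp : p.map (IsLocalRing.residue W) ≠ 0) {x : F} (hx : x ∈ V)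
    (h : eval₂ ((algebraMap K F).comp W.subtype) x p ∈ V.nonunits) :
    ∃ w : W, x - algebraMap K F w ∈ V.nonunits := by
  let ι₀ : W →+* V := ((algebraMap K F).comp W.subtype).codRestrict V (algebraMap_mem hV)
  have : IsLocalHom ι₀ := ⟨fun w hw => by
    by_contra hnu
    exact (ValuationSubring.mem_nonunits_iff_exists_mem_maximalIdeal.1
      ((algebraMap_mem_nonunits_iff hV w).2 hnu)).2 hw⟩
  let ι : IsLocalRing.ResidueField W →+* IsLocalRing.ResidueField V :=
    IsLocalRing.ResidueField.map ι₀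
  have hres : ∀ (z : F) (hz : z ∈ V), IsLocalRing.residue V ⟨z, hz⟩ = 0 ↔ z ∈ V.nonunits := by
    intro z hz
    rw [IsLocalRing.residue_eq_zero_iff, ValuationSubring.mem_nonunits_iff_exists_mem_maximalIdeal]
    exact ⟨fun h => ⟨hz, h⟩, fun ⟨_, h⟩ => h⟩
  set Q := p.map (IsLocalRing.residue W)
  have hroot : eval₂ ι (IsLocalRing.residue V ⟨x, hx⟩) Q = 0 := by
    rw [eval₂_map, show ι.comp (IsLocalRing.residue W) = (IsLocalRing.residue V).comp ι₀ from
      RingHom.ext fun w => IsLocalRing.ResidueField.map_residue ι₀ w, ← hom_eval₂]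
    refine (hres _ (eval₂ ι₀ (⟨x, hx⟩ : V) p).2).2 ?_
    have e : ((eval₂ ι₀ (⟨x, hx⟩ : V) p : V) : F) =
        eval₂ ((algebraMap K F).comp W.subtype) x p := hom_eval₂ p ι₀ V.subtype ⟨x, hx⟩
    rwa [e]
  rw [(IsAlgClosed.splits Q).eq_prod_roots, eval₂_mul, eval₂_C, eval₂_multiset_prod,
    mul_eq_zero, map_eq_zero, leadingCoeff_eq_zero, or_iff_right hp, Multiset.prod_eq_zero_iff,
    Multiset.map_map, Multiset.mem_map] at hroot
  obtain ⟨c, -, hc⟩ := hroot
  obtain ⟨w, rfl⟩ := IsLocalRing.residue_surjective c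
  refine ⟨w, (hres _ (sub_mem hx (algebraMap_mem hV w))).1 ?_⟩
  simp only [Function.comp_apply, eval₂_sub, eval₂_X, eval₂_C] at hc
  rw [← hc]
  exact map_sub (IsLocalRing.residue V) ⟨x, hx⟩ (ι₀ w)

/-- An element whose power is congruent to a constant is congruent to a constant. -/
theorem exists_const_of_pow {V : ValuationSubring F} (hV : V.comap (algebraMap K F) = W) {n : ℕ}
    (hn : 0 < n) {x : F} {w : W} (h : x ^ n - algebraMap K F w ∈ V.nonunits) :
    ∃ w' : W, x - algebraMap K F w' ∈ V.nonunits := by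
  have hx : x ∈ V := by
    rw [← V.valuation_le_one_iff]
    refine (pow_le_one_iff hn.ne').1 ?_
    rw [← map_pow, V.valuation_le_one_iff, ← sub_add_cancel (x ^ n) (algebraMap K F w)]
    exact add_mem (ValuationSubring.nonunits_subset h) (algebraMap_mem hV w)
  refine exists_const_of_root hV (p := X ^ n - C w) ?_ hx (by simpa using h)
  rw [Polynomial.map_sub, Polynomial.map_pow, map_X, map_C]
  exact (monic_X_pow_sub_C _ hn.ne').ne_zero

end Const

section Algebraic

variable {W : ValuationSubring K} {q : ℕ} {t : F} (hb : BaseData W q)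

theorem val_eq_one_of_isAlgebraic (hu : UniqueExt W) {V V' : ValuationSubring F}
    (hV : V.comap (algebraMap K F) = W) (hV' : V'.comap (algebraMap K F) = W) {c : F}
    (hc : IsAlgebraic K c) (h : V.valuation c = 1) : V'.valuation c = 1 := by
  rw [val_eq_one_iff_inv] at h ⊢
  exact ⟨h.1, (mem_iff_of_isAlgebraic hu hV hV' hc).1 h.2.1,
    (mem_iff_of_isAlgebraic hu hV hV' hc.inv).1 h.2.2⟩

theorem mem_nonunits_of_isAlgebraic (hu : UniqueExt W) {V V' : ValuationSubring F}
    (hV : V.comap (algebraMap K F) = W) (hV' : V'.comap (algebraMap K F) = W) {c : F}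
    (hc : IsAlgebraic K c) (h : c ∈ V.nonunits) : c ∈ V'.nonunits := by
  rw [ValuationSubring.mem_nonunits_iff_or] at h ⊢
  exact h.imp_right fun h hn => h ((mem_iff_of_isAlgebraic hu hV hV' hc.inv).2 hn)

theorem isAlgebraic_pow_div {c : F} (hc : IsAlgebraic K c) (i : ℕ) (j : ℤ) :
    IsAlgebraic K (c ^ i / (q : F) ^ j) := by
  have hc' : c ∈ algebraicClosure K F := mem_algebraicClosure_iff.2 hc
  exact mem_algebraicClosure_iff.1 (div_mem (pow_mem hc' i) (zpow_mem (_root_.natCast_mem _ q) j))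

include hb in
theorem vord_eq_of_isAlgebraic (hcov : Cover K t) (hu : UniqueExt W) {c : F}
    (hc : IsAlgebraic K c) (hc0 : c ≠ 0) {V V' : ValuationSubring F} (hV : IsVert W q t V)
    (hV' : IsVert W q t V') : vord V c = vord V' c := by
  obtain ⟨e, he, hq⟩ := exists_vord_q hb hcov
  have hq0 := q_ne_zero (F := F) hb
  have hne : c ^ e / (q : F) ^ vord V c ≠ 0 := div_ne_zero (pow_ne_zero _ hc0) (zpow_ne_zero _ hq0)
  have hord : ∀ U, IsVert W q t U →
      vord U (c ^ e / (q : F) ^ vord V c) = e * vord U c - vord V c * e := by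
    intro U hU
    rw [div_eq_mul_inv, ← zpow_neg, vord_mul hb hcov hU (pow_ne_zero _ hc0)
      (zpow_ne_zero _ hq0), vord_pow hb hcov hU hc0, vord_zpow hb hcov hU hq0, hq U hU]
    ring
  have h1 : V.valuation (c ^ e / (q : F) ^ vord V c) = 1 :=
    (vord_eq_zero_iff hb hcov hV hne).1 (by rw [hord V hV]; ring)
  have h2 := (vord_eq_zero_iff hb hcov hV' hne).2 (val_eq_one_of_isAlgebraic hu
    (hV.comap_algebraMap hb) (hV'.comap_algebraMap hb) (isAlgebraic_pow_div hc _ _) h1)
  rw [hord V' hV', sub_eq_zero, mul_comm (vord V c)] at h2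
  exact (mul_left_cancel₀ (by exact_mod_cast he.ne') h2).symm

include hb in
/-- An algebraic element integral at one valuation ring over `W` is congruent to the same
constant at all of them. -/
theorem exists_const_of_isAlgebraic [IsAlgClosed (IsLocalRing.ResidueField W)] (hu : UniqueExt W)
    {V : ValuationSubring F} (hV : V.comap (algebraMap K F) = W) {u : F} (hu' : IsAlgebraic K u)
    (huV : u ∈ V) :
    ∃ w : W, ∀ V' : ValuationSubring F, V'.comap (algebraMap K F) = W →
      u - algebraMap K F w ∈ V'.nonunits := by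
  obtain ⟨p, hp, hpu⟩ := hu'
  obtain ⟨j, p₀, hp₀, rfl⟩ := exists_primitive hb p hp
  have hq : (q : K) ≠ 0 := by
    have := hb.charZero
    exact Nat.cast_ne_zero.2 hb.prime.ne_zero
  rw [map_mul, aeval_C, mul_eq_zero, map_eq_zero, or_iff_right (zpow_ne_zero _ hq), aeval_def,
    eval₂_map] at hpu
  obtain ⟨w, hw⟩ := exists_const_of_root hV hp₀ huV (hpu ▸ zero_mem_nonunits)
  refine ⟨w, fun V' hV' => mem_nonunits_of_isAlgebraic hu hV hV' ?_ hw⟩
  have hu'' : u ∈ algebraicClosure K F := mem_algebraicClosure_iff.2 ⟨_, hp, by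
    rw [map_mul, aeval_def (x := u), aeval_def (x := u), eval₂_map, hpu, mul_zero]⟩
  exact mem_algebraicClosure_iff.1 (sub_mem hu'' (IntermediateField.algebraMap_mem _ (w : K)))

end Algebraic

section Roots

variable {W : ValuationSubring K} {q : ℕ} {T : F}

/-- An algebraic element which is a unit at every component. -/
def IsConstUnit (W : ValuationSubring K) (q : ℕ) (T u : F) : Prop :=
  IsAlgebraic K u ∧ ∀ V, IsVert W q T V → V.valuation u = 1

theorem IsConstUnit.pow {u : F} (h : IsConstUnit W q T u) (k : ℕ) :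
    IsConstUnit W q T (u ^ k) :=
  ⟨h.1.pow k, fun V hV => by rw [map_pow, h.2 V hV, one_pow]⟩

/-- `r` is an `n`th root of `f` along `V`. -/
def IsRootAt (n : ℕ) (V : ValuationSubring F) (f r : F) : Prop :=
  r ^ n / f - 1 ∈ V.nonunits

theorem IsRootAt.val {n : ℕ} {V : ValuationSubring F} {f r : F} (h : IsRootAt n V f r) :
    V.valuation (r ^ n / f) = 1 :=
  val_eq_one_of_congr (map_one _) h

theorem IsRootAt.ne_zero {n : ℕ} {V : ValuationSubring F} {f r : F} (hn : 0 < n)
    (h : IsRootAt n V f r) : r ≠ 0 := fun h0 => by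
  have := ne_zero_of_val h.val
  simp [h0, zero_pow hn.ne'] at this

theorem IsRootAt.mul {n : ℕ} {V : ValuationSubring F} {f f' r r' : F} (h : IsRootAt n V f r)
    (h' : IsRootAt n V f' r') : IsRootAt n V (f * f') (r * r') := by
  unfold IsRootAt
  rw [mul_pow, ← div_mul_div_comm, ← one_mul (1 : F)]
  exact congr_mul (mem_of_val h.val) V.one_mem h h'

theorem IsRootAt.inv {n : ℕ} {V : ValuationSubring F} {f r : F} (h : IsRootAt n V f r) :
    IsRootAt n V f⁻¹ r⁻¹ := by
  unfold IsRootAt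
  have hne := ne_zero_of_val h.val
  rw [inv_pow, inv_div_inv, ← inv_div, show (r ^ n / f)⁻¹ - 1 =
    -((r ^ n / f)⁻¹) * (r ^ n / f - 1) by rw [mul_sub, neg_mul, inv_mul_cancel₀ hne]; ring]
  exact nonunits_mul_left (neg_mem ((val_eq_one_iff_inv.1 h.val).2.2)) h

theorem isRootAt_pow_self {n : ℕ} {V : ValuationSubring F} {g : F} (hg : g ≠ 0) :
    IsRootAt n V (g ^ n) g := by
  simp [IsRootAt, div_self (pow_ne_zero n hg)]

theorem IsRootAt.smul {n : ℕ} {V : ValuationSubring F} {f r : F} (h : IsRootAt n V f r)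
    (σ : F ≃ₐ[K] F) : IsRootAt n (σ • V) (σ f) (σ r) := by
  unfold IsRootAt
  rw [← map_pow, ← map_div₀, ← map_one σ, ← map_sub, smul_mem_nonunits_iff]
  exact h

/-- The functions with an `n`th root along `V`. -/
def powAt (n : ℕ) (V : ValuationSubring F) : Subgroup Fˣ where
  carrier := {x | ∃ r : F, IsRootAt n V x r}
  one_mem' := ⟨1, by simpa using isRootAt_pow_self (n := n) (V := V) (one_ne_zero (α := F))⟩
  mul_mem' := fun {x y} ⟨r, hr⟩ ⟨s, hs⟩ => ⟨r * s, by simpa using hr.mul hs⟩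
  inv_mem' := fun {x} ⟨r, hr⟩ => ⟨r⁻¹, by simpa using hr.inv⟩

/-- Membership in the group of elements with a root at `V`. -/
theorem mem_powAt {n : ℕ} {V : ValuationSubring F} {x : Fˣ} :
    x ∈ powAt n V ↔ ∃ r : F, IsRootAt n V (x : F) r := Iff.rfl

end Roots

end Fermat.Agent.Carayol.Kill
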