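import Fermat.Agent.Carayol.Kill.Average
import Fermat.Agent.Carayol.Kill.Valuation

/-!
# Orders and residual roots along the components

First two steps of the averaging argument: after a power independent of `n` and division by a
power of `q`, the function has order divisible by `n` and an `n`th root in the residue field
along every component.

Main result: `exists_rDatum`.
-/

set_option autoImplicit false

open Polynomial
open scoped Pointwise

namespace Fermat.Agent.Carayol.Kill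

variable {K F : Type*} [Field K] [CharZero K] [Field F] [DecidableEq F] [Algebra K F]
  {W : ValuationSubring K} {fam : WeierstrassCurve ℤ[X]} {q r : ℕ} [NeZero (q * r)]
  [Fact q.Prime] {L : LevelData K F fam q r} {T : F} [Fintype L.levelFix]

section Defs

open scoped Classical in
/-- The product of the conjugates over a Borel subgroup. -/
noncomputable def bProd (L : LevelData K F fam q r) [Fintype L.levelFix] (i : Fin 2) (f : F) : F :=
  ∏ σ ∈ Finset.univ.filter (· ∈ Bor L i), (σ : F ≃ₐ[K] F) f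

omit [CharZero K] [NeZero (q * r)] [Fact (Nat.Prime q)] in
theorem bProd_pow (i : Fin 2) (f : F) (k : ℕ) : bProd L i (f ^ k) = bProd L i f ^ k := by
  simp [bProd, Finset.prod_pow]

omit [CharZero K] [NeZero (q * r)] [Fact (Nat.Prime q)] in
theorem bProd_ne_zero (i : Fin 2) {f : F} (hf : f ≠ 0) : bProd L i f ≠ 0 :=
  Finset.prod_ne_zero_iff.2 fun _ _ => (_root_.map_ne_zero _).2 hf

omit [CharZero K] [NeZero (q * r)] [Fact (Nat.Prime q)] in
theorem exists_bProd_div (i : Fin 2) (f : F) (j : ℤ) :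
    ∃ m : ℤ, bProd L i (f / (q : F) ^ j) = bProd L i f / (q : F) ^ m := by
  classical
  refine ⟨j * (Finset.univ.filter (· ∈ Bor L i)).card, ?_⟩
  simp only [bProd, map_div₀, map_zpow₀, map_natCast]
  rw [Finset.prod_div_distrib, Finset.prod_const, zpow_mul, zpow_natCast]

/-- The hypotheses on a function. -/
structure Datum (L : LevelData K F fam q r) [Fintype L.levelFix] (n : ℕ) (f : F) : Prop where
  ne_zero : f ≠ 0
  torus : ∀ t ∈ Tor L, (t : F ≃ₐ[K] F) f = f
  loc : IsNthPowerLocally K n f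
  borel : ∀ i : Fin 2, ∃ c g : F, IsAlgebraic K c ∧ bProd L i f = c * g ^ n

omit [CharZero K] [DecidableEq F] in
theorem isNthPowerLocally_pow {n : ℕ} {f : F} (h : IsNthPowerLocally K n f) (k : ℕ) :
    IsNthPowerLocally K n (f ^ k) := fun V hV => by
  obtain ⟨g, hg, h1, h2⟩ := h V hV
  refine ⟨g ^ k, pow_ne_zero _ hg, ?_, ?_⟩
  · rw [← pow_mul, mul_comm, pow_mul, ← div_pow]; exact pow_mem h1 k
  · rw [← pow_mul, mul_comm, pow_mul, ← div_pow]; exact pow_mem h2 k

omit [CharZero K] [DecidableEq F] [Fact (Nat.Prime q)] in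
theorem isNthPowerLocally_div_zpow {n : ℕ} {f : F} (h : IsNthPowerLocally K n f) (j : ℤ) :
    IsNthPowerLocally K n (f / (q : F) ^ j) := fun V hV => by
  obtain ⟨g, hg, h1, h2⟩ := h V hV
  have hq : ∀ i : ℤ, (q : F) ^ i ∈ V := fun i => by
    simpa only [map_zpow₀, map_natCast] using hV ((q : K) ^ i)
  refine ⟨g, hg, ?_, ?_⟩
  · rw [div_right_comm, div_eq_mul_inv, ← zpow_neg]
    exact V.mul_mem _ _ h1 (hq _)
  · rw [div_div_eq_mul_div, mul_div_right_comm]
    exact V.mul_mem _ _ h2 (hq _)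

omit [CharZero K] [NeZero (q * r)] [Fact (Nat.Prime q)] in
theorem Datum.pow {n : ℕ} {f : F} (h : Datum L n f) (k : ℕ) : Datum L n (f ^ k) where
  ne_zero := pow_ne_zero _ h.ne_zero
  torus t ht := by rw [map_pow, h.torus t ht]
  loc := isNthPowerLocally_pow h.loc k
  borel i := by
    obtain ⟨c, g, hc, e⟩ := h.borel i
    exact ⟨c ^ k, g ^ k, hc.pow k, by rw [bProd_pow, e, mul_pow, ← pow_mul, mul_comm n, pow_mul]⟩

omit [NeZero (q * r)] in
theorem Datum.div_zpow {n : ℕ} {f : F} (h : Datum L n f) (j : ℤ) :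
    Datum L n (f / (q : F) ^ j) where
  ne_zero := div_ne_zero h.ne_zero (zpow_ne_zero _ (by
    have : CharZero F := charZero_of_injective_algebraMap (algebraMap K F).injective
    exact_mod_cast (Fact.out : q.Prime).ne_zero))
  torus t ht := by rw [map_div₀, map_zpow₀, map_natCast, h.torus t ht]
  loc := isNthPowerLocally_div_zpow h.loc j
  borel i := by
    obtain ⟨c, g, hc, e⟩ := h.borel i
    obtain ⟨m, hm⟩ := exists_bProd_div (L := L) i f j
    refine ⟨c / (q : F) ^ m, g, by simpa using isAlgebraic_pow_div (q := q) hc 1 m, ?_⟩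
    rw [hm, e, mul_div_right_comm]

/-- Orders divisible by `n`. -/
structure UDatum (W : ValuationSubring K) (L : LevelData K F fam q r) [Fintype L.levelFix]
    (T : F) (n : ℕ) (f : F) : Prop where
  ne_zero : f ≠ 0
  torus : ∀ t ∈ Tor L, (t : F ≃ₐ[K] F) f = f
  loc : IsNthPowerLocally K n f
  borel : ∀ i : Fin 2, ∃ u g : F, IsConstUnit W q T u ∧ bProd L i f = u * g ^ n
  ord : ∀ V, IsVert W q T V → (n : ℤ) ∣ vord V f

/-- The data after the first two steps. -/
structure RDatum (W : ValuationSubring K) (L : LevelData K F fam q r) [Fintype L.levelFix]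
    (T : F) (n : ℕ) (f : F) : Prop where
  ne_zero : f ≠ 0
  torus : ∀ t ∈ Tor L, (t : F ≃ₐ[K] F) f = f
  loc : IsNthPowerLocally K n f
  borel : ∀ i : Fin 2, ∃ u g : F, IsConstUnit W q T u ∧ bProd L i f = u * g ^ n
  root : ∀ V, IsVert W q T V → ∃ x : F, IsRootAt n V f x

end Defs

/-! ### Residues -/

omit [CharZero K] [Fact (Nat.Prime q)] in
theorem residue_natCast_ne_zero (hb : BaseData W q) {n : ℕ} (hn : n.Coprime q) :
    (n : IsLocalRing.ResidueField W) ≠ 0 := by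
  have hq : (q : IsLocalRing.ResidueField W) = 0 := by
    rw [← map_natCast (IsLocalRing.residue W), IsLocalRing.residue_eq_zero_iff, hb.uniformizer]
    exact Ideal.mem_span_singleton_self _
  have : CharP (IsLocalRing.ResidueField W) q :=
    (CharP.charP_iff_prime_eq_zero hb.prime).mpr hq
  rw [Ne, CharP.cast_eq_zero_iff (IsLocalRing.ResidueField W) q]
  exact (Nat.Prime.coprime_iff_not_dvd hb.prime).1 hn.symm

omit [CharZero K] [Fact (Nat.Prime q)] in
theorem isUnit_natCast (hb : BaseData W q) {n : ℕ} (hn : n.Coprime q) : IsUnit (n : W) := by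
  refine (IsLocalRing.residue_ne_zero_iff_isUnit _).1 ?_
  rw [map_natCast]
  exact residue_natCast_ne_zero hb hn

variable [IsAlgClosed (IsLocalRing.ResidueField W)]

omit [CharZero K] [DecidableEq F] [Fact (Nat.Prime q)] in
/-- A constant unit has a constant root. -/
theorem exists_root_const (hb : BaseData W q) (hu : UniqueExt W) (hc : Cover K T) {n : ℕ}
    (hn : 0 < n) {u : F} (h : IsConstUnit W q T u) :
    ∃ w : W, ∀ V : ValuationSubring F, V.comap (algebraMap K F) = W →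
      IsRootAt n V u (algebraMap K F w) := by
  obtain ⟨V₀, hV₀⟩ := exists_isVert hb hc
  have hV₀W := hV₀.comap_algebraMap hb
  obtain ⟨w, hw⟩ := exists_const_of_isAlgebraic hb hu hV₀W h.1 (mem_of_val (h.2 V₀ hV₀))
  obtain ⟨c, hc⟩ := IsAlgClosed.exists_pow_nat_eq (IsLocalRing.residue W w) hn
  obtain ⟨w', rfl⟩ := IsLocalRing.residue_surjective c
  refine ⟨w', fun V hV => ?_⟩
  have h1 : V.valuation u = 1 := val_eq_one_of_isAlgebraic hu hV₀W hV h.1 (h.2 V₀ hV₀)
  have h2 : algebraMap K F w' ^ n - algebraMap K F w ∈ V.nonunits := by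
    rw [show algebraMap K F w' ^ n - algebraMap K F w = algebraMap K F ((w' ^ n - w : W) : K) by
      simp [map_sub, map_pow], algebraMap_mem_nonunits_iff hV, ← IsLocalRing.residue_eq_zero_iff,
      map_sub, map_pow, hc, sub_self]
  unfold IsRootAt
  rw [show algebraMap K F w' ^ n / u - 1 = u⁻¹ * ((algebraMap K F w' ^ n - algebraMap K F w) -
      (u - algebraMap K F w)) by field_simp [ne_zero_of_val h1]; ring]
  exact nonunits_mul_left (val_eq_one_iff_inv.1 h1).2.2 (sub_mem_nonunits h2 (hw V hV))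

variable (hS : SpecialFibre W L T) (hΔ : fam.Δ ≠ 0) (hqr : r.Coprime q)

open scoped Classical in
include hS hΔ hqr in
/-- **First step.** -/
theorem exists_uDatum :
    ∃ D : ℕ, 0 < D ∧ ∀ n : ℕ, 0 < n → ∀ f : F, Datum L n f →
      ∃ m : ℤ, UDatum W L T n (f ^ D / (q : F) ^ m) := by
  obtain ⟨e, he, hqe⟩ := exists_vord_q hS.base hS.cover
  refine ⟨avgExp L * e * e, Nat.mul_pos (Nat.mul_pos (avgExp_pos hS hΔ) he) he,
    fun n hn f hf => ?_⟩
  have hne : ∀ (σ : L.levelFix), (σ : F ≃ₐ[K] F) f ≠ 0 := fun _ =>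
    (_root_.map_ne_zero _).2 hf.ne_zero
  choose c g hc hcg using hf.borel
  have hcg0 : ∀ i, c i ≠ 0 ∧ g i ^ n ≠ 0 := fun i =>
    mul_ne_zero_iff.1 (hcg i ▸ bProd_ne_zero i hf.ne_zero)
  obtain ⟨V₀, hV₀⟩ := exists_isVert hS.base hS.cover
  obtain ⟨R, hR⟩ := average hS hΔ hqr {V | IsVert W q T V} (fun V hV => hV)
    (fun σ V hV => isVert_smul hV (mem_fixPar hS σ))
    (fun V σ => ((vord V ((σ : F ≃ₐ[K] F) f) : ℤ) : ZMod n))
    (fun V hV σ τ => by
      rw [Subgroup.coe_mul, AlgEquiv.mul_apply, vord_smul hS.base hS.cover hV (hne τ)])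
    (fun V hV τ t ht => by rw [Subgroup.coe_mul, AlgEquiv.mul_apply, hf.torus t ht])
    (fun i => ((vord V₀ (c i) : ℤ) : ZMod n))
    (fun V hV i => by
      rw [← Int.cast_sum, ← vord_prod hS.base hS.cover hV _ _ (fun σ _ => hne σ)]
      show ((vord V (bProd L i f) : ℤ) : ZMod n) = _
      rw [hcg i, vord_mul hS.base hS.cover hV (hcg0 i).1 (hcg0 i).2,
        vord_pow hS.base hS.cover hV (ne_zero_pow hn.ne' (hcg0 i).2),
        vord_eq_of_isAlgebraic hS.base hS.cover hS.unique_ext (hc i) (hcg0 i).1 hV hV₀]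
      simp)
  obtain ⟨R, rfl⟩ := ZMod.intCast_surjective R
  set f₀ := f ^ (avgExp L * e) / (q : F) ^ R with hf₀
  have hd : Datum L n f₀ := (hf.pow _).div_zpow R
  have hq0 := q_ne_zero (F := F) hS.base
  have hord : ∀ V, IsVert W q T V → (n : ℤ) ∣ vord V f₀ := fun V hV => by
    rw [← ZMod.intCast_zmod_eq_zero_iff_dvd, hf₀, div_eq_mul_inv, ← zpow_neg,
      vord_mul hS.base hS.cover hV (pow_ne_zero _ hf.ne_zero) (zpow_ne_zero _ hq0),
      vord_pow hS.base hS.cover hV hf.ne_zero, vord_zpow hS.base hS.cover hV hq0, hqe V hV]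
    have h := hR V hV
    simp only [OneMemClass.coe_one, AlgEquiv.one_apply, nsmul_eq_mul] at h
    push_cast
    rw [← h]
    ring
  refine ⟨R * e, ?_⟩
  have hpow : f ^ (avgExp L * e * e) / (q : F) ^ (R * e) = f₀ ^ e := by
    rw [hf₀, div_pow, ← pow_mul, zpow_mul, zpow_natCast]
  rw [hpow]
  refine ⟨(hd.pow e).ne_zero, (hd.pow e).torus, (hd.pow e).loc, fun i => ?_, fun V hV => ?_⟩
  · obtain ⟨c', g', hc', e'⟩ := hd.borel i
    have h0 : c' ≠ 0 ∧ g' ^ n ≠ 0 := mul_ne_zero_iff.1 (e' ▸ bProd_ne_zero i hd.ne_zero)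
    obtain ⟨k, hk⟩ : (n : ℤ) ∣ vord V₀ c' := by
      have h1 : (n : ℤ) ∣ vord V₀ (bProd L i f₀) := by
        rw [bProd, vord_prod hS.base hS.cover hV₀ _ _ fun σ _ =>
          (_root_.map_ne_zero _).2 hd.ne_zero]
        refine Finset.dvd_sum fun σ _ => ?_
        have hV' := isVert_smul hV₀ (inv_mem (mem_fixPar hS σ))
        rw [← vord_smul hS.base hS.cover hV₀ ((_root_.map_ne_zero _).2 hd.ne_zero)
          (σ : F ≃ₐ[K] F)⁻¹]
        simpa using hord _ hV'
      rw [e', vord_mul hS.base hS.cover hV₀ h0.1 h0.2,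
        vord_pow hS.base hS.cover hV₀ (ne_zero_pow hn.ne' h0.2)] at h1
      exact (dvd_add_left (dvd_mul_right _ _)).1 h1
    refine ⟨c' ^ e / (q : F) ^ vord V₀ c', (q : F) ^ k * g' ^ e,
      ⟨isAlgebraic_pow_div hc' _ _, fun V hV => ?_⟩, ?_⟩
    · rw [← vord_eq_zero_iff hS.base hS.cover hV (div_ne_zero (pow_ne_zero _ h0.1)
        (zpow_ne_zero _ hq0)), div_eq_mul_inv, ← zpow_neg, vord_mul hS.base hS.cover hV
        (pow_ne_zero _ h0.1) (zpow_ne_zero _ hq0), vord_pow hS.base hS.cover hV h0.1,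
        vord_zpow hS.base hS.cover hV hq0, hqe V hV,
        vord_eq_of_isAlgebraic hS.base hS.cover hS.unique_ext hc' h0.1 hV hV₀]
      ring
    · rw [bProd_pow, e', hk, mul_pow ((q : F) ^ k), ← zpow_natCast ((q : F) ^ k), ← zpow_mul,
        mul_comm k, ← mul_assoc, div_mul_cancel₀ _ (zpow_ne_zero _ hq0), mul_pow, pow_right_comm]
  · rw [vord_pow hS.base hS.cover hV hd.ne_zero]
    exact Dvd.dvd.mul_left (hord V hV) _

theorem nsmul_eq_zero_of_add {A : Type*} [AddCommGroup A] {a b : A} {B t N : ℕ}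
    (h : t • a + N • b = 0) (ha : B • a = 0) : (B * N) • b = 0 := by
  rw [mul_nsmul', eq_neg_of_add_eq_zero_right h, smul_neg, ← mul_nsmul', mul_comm, mul_nsmul', ha,
    smul_zero, neg_zero]

theorem nsmul_eq_zero_of_left {A : Type*} [AddCommGroup A] {a : A} {B N : ℕ} (ha : B • a = 0) :
    (B * N) • a = 0 := by
  rw [mul_comm, mul_nsmul', ha, smul_zero]

open scoped Classical in
include hS hΔ hqr in
/-- **Second step.** -/
theorem exists_root_of_uDatum {n : ℕ} (hn : 0 < n) {f : F} (hf : UDatum W L T n f) :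
    RDatum W L T n (f ^ (Nat.card (Bor L 0) * borDiff L)) := by
  set N := Nat.card (Bor L 0) * borDiff L
  refine ⟨pow_ne_zero _ hf.ne_zero, fun t ht => by rw [map_pow, hf.torus t ht],
    isNthPowerLocally_pow hf.loc N, fun i => ?_, fun V hV => ?_⟩
  · obtain ⟨u, g, hu, e⟩ := hf.borel i
    exact ⟨u ^ N, g ^ N, hu.pow N,
      by rw [bProd_pow, e, mul_pow, ← pow_mul g, mul_comm n, pow_mul g]⟩
  let fu : L.levelFix → Fˣ := fun σ =>
    Units.mk0 ((σ : F ≃ₐ[K] F) f) ((_root_.map_ne_zero _).2 hf.ne_zero)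
  let Ψ : (U : ValuationSubring F) → L.levelFix → Additive (Fˣ ⧸ powAt n U) :=
    fun U σ => Additive.ofMul (QuotientGroup.mk (fu σ))
  have hI : ∀ U, IsVert W q T U → ∀ ι τ : L.levelFix, (ι : F ≃ₐ[K] F) ∈ inertiaV K T U →
      Ψ U (ι * τ) = Ψ U τ := by
    intro U hU ι τ hι
    set x := (τ : F ≃ₐ[K] F) f
    have hx : x ≠ 0 := (_root_.map_ne_zero _).2 hf.ne_zero
    obtain ⟨k, hk⟩ : (n : ℤ) ∣ vord U x := by
      have h := hf.ord _ (isVert_smul hU (inv_mem (mem_fixPar hS τ)))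
      rwa [← vord_smul hS.base hS.cover hU hx (τ : F ≃ₐ[K] F)⁻¹,
        show (τ : F ≃ₐ[K] F)⁻¹ x = f by simp [x]]
    obtain ⟨π, hπ, hu⟩ := hasOrd_vord hS.base hS.cover hU hx
    rw [hk] at hu
    set u := x / π ^ ((n : ℤ) * k) with hu'
    refine congrArg Additive.ofMul (QuotientGroup.eq.2 ?_)
    refine ⟨(π / (ι : F ≃ₐ[K] F) π) ^ k, ?_⟩
    have hιu : (ι : F ≃ₐ[K] F) u - u ∈ U.nonunits := (mem_inertiaV.1 hι).2 u (mem_of_val hu)
    have h1 := val_eq_one_of_congr hu hιu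
    have hπι : (ι : F ≃ₐ[K] F) π ≠ 0 := (_root_.map_ne_zero _).2 hπ.1
    show ((π / (ι : F ≃ₐ[K] F) π) ^ k) ^ n /
      ((((ι * τ : L.levelFix) : F ≃ₐ[K] F) f)⁻¹ * x) - 1 ∈ U.nonunits
    rw [Subgroup.coe_mul, AlgEquiv.mul_apply]
    change _ / (((ι : F ≃ₐ[K] F) x)⁻¹ * x) - 1 ∈ U.nonunits
    rw [show x = u * π ^ ((n : ℤ) * k) by
      rw [hu', div_mul_cancel₀ _ (zpow_ne_zero _ hπ.1)], map_mul, map_zpow₀,
      ← zpow_natCast (_ ^ k), ← zpow_mul, mul_comm k, div_zpow]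
    rw [show π ^ ((n : ℤ) * k) / (ι : F ≃ₐ[K] F) π ^ ((n : ℤ) * k) /
        (((ι : F ≃ₐ[K] F) u * (ι : F ≃ₐ[K] F) π ^ ((n : ℤ) * k))⁻¹ *
          (u * π ^ ((n : ℤ) * k))) - 1 = u⁻¹ * ((ι : F ≃ₐ[K] F) u - u) by
      field_simp [zpow_ne_zero ((n : ℤ) * k) hπ.1, zpow_ne_zero ((n : ℤ) * k) hπι,
        ne_zero_of_val hu, ne_zero_of_val h1]]
    exact nonunits_mul_left (val_eq_one_iff_inv.1 hu).2.2 hιu
  have hT : ∀ U, ∀ τ t : L.levelFix, t ∈ Tor L → Ψ U (τ * t) = Ψ U τ := fun U τ t ht =>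
    congrArg (fun a => Additive.ofMul (QuotientGroup.mk a)) (Units.ext (by
      simp [fu, hf.torus t ht]))
  have hsum : ∀ U, IsVert W q T U → ∀ i,
      ∑ σ ∈ Finset.univ.filter (· ∈ Bor L i), Ψ U σ = 0 := by
    intro U hU i
    rw [← ofMul_prod, ← ofMul_one]
    refine congrArg Additive.ofMul ((QuotientGroup.mk_prod _ _).symm.trans
      ((QuotientGroup.eq_one_iff _).2 ?_))
    obtain ⟨u, g, hu, e⟩ := hf.borel i
    obtain ⟨w, hw⟩ := exists_root_const hS.base hS.unique_ext hS.cover hn hu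
    have hg : g ≠ 0 := ne_zero_pow hn.ne'
      (right_ne_zero_of_mul (e ▸ bProd_ne_zero i hf.ne_zero))
    refine ⟨algebraMap K F w * g, ?_⟩
    rw [Units.coe_prod]
    show IsRootAt n U (bProd L i f) _
    rw [e]
    exact (hw U (hU.comap_algebraMap hS.base)).mul (isRootAt_pow_self hg)
  have hend : ∀ U, ∀ σ : L.levelFix, N • Ψ U σ = 0 →
      ∃ x, IsRootAt n U ((σ : F ≃ₐ[K] F) (f ^ N)) x := fun U σ h => by
    rw [← ofMul_pow, ← ofMul_one] at h
    have h' := (QuotientGroup.eq_one_iff (fu σ ^ N)).1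
      ((QuotientGroup.mk_pow _ _ _).trans (Additive.ofMul.injective h))
    simpa [mem_powAt, fu] using h'
  have hline : ∀ U, IsVert W q T U → ∀ i : Fin 2, HasLine L U (Pi.single i 1) →
      Nat.card (Bor L 0) • Ψ U 1 = 0 := fun U hU i hv => by
    rw [← hsum U hU i, sum_Bor_self hS hΔ hqr (Ψ U) hU hv (hI U hU) (hT U)]
  rcases hasLine_cases hS hΔ hV with ⟨i, hi⟩ | ⟨v, h0, h1, hv⟩
  · have h := hend V 1
      (nsmul_eq_zero_of_left (A := Additive (Fˣ ⧸ powAt n V)) (hline V hV i hi))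
    simpa using h
  · obtain ⟨σ, hσ, hσn, hl⟩ := exists_smul_line hS hΔ h0 h1 hv
    have hV' := isVert_smul hV (mem_fixPar hS σ)
    have h := hsum _ hV' 0
    rw [sum_Bor_other hS hΔ hqr (Ψ _) (i := 1) (j := 0) (by decide) hV' hl (hI _ hV') (hT _)
      hσ hσn] at h
    obtain ⟨x, hx⟩ := hend ((σ : F ≃ₐ[K] F) • V) σ (nsmul_eq_zero_of_add
      (A := Additive (Fˣ ⧸ powAt n ((σ : F ≃ₐ[K] F) • V))) h (hline _ hV' 1 hl))
    refine ⟨(σ : F ≃ₐ[K] F)⁻¹ x, ?_⟩
    simpa [smul_smul] using hx.smul (σ : F ≃ₐ[K] F)⁻¹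

include hS hΔ hqr in
/-- **The first two steps**: a power of the function divided by a power of `q` has residual
roots along every component. -/
theorem exists_rDatum :
    ∃ D : ℕ, 0 < D ∧ ∀ n : ℕ, 0 < n → ∀ f : F, Datum L n f →
      ∃ m : ℤ, RDatum W L T n (f ^ D / (q : F) ^ m) := by
  obtain ⟨D, hD, h⟩ := exists_uDatum hS hΔ hqr
  have hpos : 0 < Nat.card (Bor L 0) * borDiff L := by
    have := avgExp_pos hS hΔ
    exact Nat.pos_of_mul_pos_right this
  refine ⟨D * (Nat.card (Bor L 0) * borDiff L), Nat.mul_pos hD hpos, fun n hn f hf => ?_⟩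
  obtain ⟨m, hm⟩ := h n hn f hf
  refine ⟨m * (Nat.card (Bor L 0) * borDiff L : ℕ), ?_⟩
  rw [pow_mul, zpow_mul, zpow_natCast, ← div_pow]
  exact exists_root_of_uDatum hS hΔ hqr hn hm

end Fermat.Agent.Carayol.Kill
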