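import Fermat.Agent.Carayol.Kill.Jump

/-!
# Coherent roots

Roots along all components which agree at every point of the special fibre, once the jumps are
trivial.

Main result: `exists_coherent_roots`.
-/

set_option autoImplicit false

open Polynomial IsLocalRing
open scoped Pointwise

namespace Fermat.Agent.Carayol.Kill

section Single

variable {K F : Type*} [Field K] [Field F] [Algebra K F] {W : ValuationSubring K} {q : ℕ} {t : F}
  {n : ℕ} {M V V' : ValuationSubring F} [IsAlgClosed (ResidueField W)]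

omit [IsAlgClosed (ResidueField ↥W)] in
theorem IsDelta.self_eq_one (hb : BaseData W q) (hV : OnBranch W q t M V) {f x : F}
    {z : ResidueField W} (h : IsDelta W t M n f V V x x z) : z = 1 := by
  obtain ⟨g, c, c', -, hc, hc', hc0, -, rfl⟩ := h
  rw [← hc.unique hb hV.point hV.vert.evW_mem hV.through hc', div_self hc0]

omit [IsAlgClosed (ResidueField ↥W)] in
theorem BVal.pow (hV : OnBranch W q t M V) {y : F} {c : ResidueField W}
    (h : BVal W t M V y c) : ∀ i : ℕ, BVal W t M V (y ^ i) (c ^ i)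
  | 0 => by
    rw [pow_zero, pow_zero, ← map_one (residue W)]
    exact bVal_of_mem (one_mem _) (by simp)
  | i + 1 => by
    rw [pow_succ, pow_succ]
    exact (BVal.pow hV h i).mul hV.point hV.vert.evW_mem hV.through h

theorem IsDelta.pow_eq_one (hb : BaseData W q) (hV : OnBranch W q t M V)
    (hV' : OnBranch W q t M V') {f x x' : F} {z : ResidueField W} (hf : f ≠ 0)
    (hx : IsRootAt n V f x) (hx' : IsRootAt n V' f x') (h : IsDelta W t M n f V V' x x' z) :
    z ^ n = 1 := by
  obtain ⟨g, c, c', hp, hc, hc', hc0, hc0', rfl⟩ := h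
  obtain ⟨w, hw⟩ := exists_residue_const hb hV.point hp.2.1
  have key : ∀ {U : ValuationSubring F}, OnBranch W q t M U → ∀ {y : F} {d : ResidueField W},
      IsRootAt n U f y → BVal W t M U (y / g) d → d ^ n = residue W w := by
    intro U hU y d hy hd
    refine (hd.pow hU n).unique hb hU.point hU.vert.evW_mem hU.through
      ((bVal_of_mem hp.2.1 hw).congr ?_)
    have hu := hp.val hU hf
    rw [show (y / g) ^ n - f / g ^ n = (y ^ n / f - 1) * (f / g ^ n) by
      rw [sub_mul, one_mul, div_mul_div_cancel₀ hf, div_pow]]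
    exact nonunits_mul_right (mem_of_val hu) hy
  rw [div_pow, key hV hx hc, key hV' hx' hc', div_self]
  rw [← key hV hx hc]
  exact pow_ne_zero _ hc0

end Single

variable {K F : Type*} [Field K] [CharZero K] [Field F] [DecidableEq F] [Algebra K F]
  {W : ValuationSubring K} {fam : WeierstrassCurve ℤ[X]} {q r : ℕ} [NeZero (q * r)]
  [Fact q.Prime] {L : LevelData K F fam q r} {T : F} [IsAlgClosed (ResidueField W)] {n : ℕ}

variable (hS : SpecialFibre W L T) (hΔ : fam.Δ ≠ 0) (hqr : r.Coprime q)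

/-- The orbit of a component. -/
def orb (L : LevelData K F fam q r) (V : ValuationSubring F) : Set (ValuationSubring F) :=
  {U | ∃ σ : L.levelFix, U = (σ : F ≃ₐ[K] F) • V}

/-- The chosen component of an orbit. -/
noncomputable def rep (L : LevelData K F fam q r) (V : ValuationSubring F) : ValuationSubring F :=
  Classical.epsilon (· ∈ orb L V)

omit [CharZero K] [NeZero (q * r)] [Fact (Nat.Prime q)] in
theorem orb_smul (σ : L.levelFix) (V : ValuationSubring F) :
    orb L ((σ : F ≃ₐ[K] F) • V) = orb L V := by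
  ext U
  constructor
  · rintro ⟨τ, rfl⟩
    exact ⟨τ * σ, by rw [smul_smul, Subgroup.coe_mul]⟩
  · rintro ⟨τ, rfl⟩
    exact ⟨τ * σ⁻¹, by rw [smul_smul, Subgroup.coe_mul, InvMemClass.coe_inv,
      inv_mul_cancel_right]⟩

omit [CharZero K] [NeZero (q * r)] [Fact (Nat.Prime q)] in
theorem rep_smul (σ : L.levelFix) (V : ValuationSubring F) :
    rep L ((σ : F ≃ₐ[K] F) • V) = rep L V := by
  rw [rep, rep, orb_smul]

omit [CharZero K] [NeZero (q * r)] [Fact (Nat.Prime q)] in
theorem exists_rep_smul (V : ValuationSubring F) :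
    ∃ σ : L.levelFix, rep L V = (σ : F ≃ₐ[K] F) • V :=
  Classical.epsilon_spec (p := (· ∈ orb L V)) ⟨V, 1, (one_smul _ V).symm⟩

open scoped Classical in
include hS hΔ hqr in
/-- **Coherent roots.** -/
theorem exists_coherent_roots (hn : 0 < n) {f : F} (hf : RootFun W q T n f)
    (hJ : ∀ t, IsChart W L T t → ∀ M M₀ V V', IsCross W q t M → IsCross W q T M₀ →
      Both W q T t M M₀ V → Both W q T t M M₀ V' → jmp W T t M M₀ n f V V' = 1) :
    ∃ rt : ValuationSubring F → F, (∀ V, IsVert W q T V → IsRootAt n V f (rt V)) ∧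
      ∀ t, IsChart W L T t → ∀ M V V', OnBranch W q t M V → OnBranch W q t M V' →
        IsDelta W t M n f V V' (rt V) (rt V') 1 := by
  have hb := hS.base
  have hT := isChart_self hS
  choose! base hbase₁ hbase₂ using fun V (hV : IsVert W q T V) => exists_cross_through hS hΔ hV
  choose! r₀ hr₀ using hf.root
  have hrep : ∀ V, IsVert W q T V → IsVert W q T (rep L V) := fun V hV => by
    obtain ⟨σ, hσ⟩ := exists_rep_smul (L := L) V
    exact hσ ▸ isVert_smul hV (mem_fixPar hS σ)
  have hon : ∀ V, IsVert W q T V → OnBranch W q T (base (rep L V)) V := fun V hV => by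
    obtain ⟨σ, hσ⟩ := exists_rep_smul (L := L) V
    have h := (hbase₁ _ (hrep V hV)).smul hS hΔ hqr hT (hbase₂ _ (hrep V hV)) σ⁻¹
    convert h
    rw [hσ, smul_smul, InvMemClass.coe_inv, inv_mul_cancel, one_smul]
  have hex : ∀ V, IsVert W q T V → ∃ x, IsRootAt n V f x ∧
      IsDelta W T (base (rep L V)) n f V (rep L V) x (r₀ (rep L V)) 1 := by
    intro V hV
    obtain ⟨x, hx⟩ := hf.root V hV
    have hR := hbase₂ _ (hrep V hV)
    obtain ⟨z, hz0, hz⟩ := exists_isDelta hb hS.cover (hS.good₀ _ hR.point) (hon V hV) hR hn hf hx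
      (hr₀ _ (hrep V hV))
    obtain ⟨w, hw⟩ := residue_surjective z⁻¹
    have hVW := hV.comap_algebraMap hb
    have hwn : algebraMap K F w ^ n - 1 ∈ V.nonunits := by
      rw [show algebraMap K F w ^ n - 1 = algebraMap K F ((w ^ n - 1 : W) : K) by simp,
        algebraMap_mem_nonunits_iff hVW, ← residue_eq_zero_iff, map_sub, map_pow, map_one, hw,
        inv_pow, hz.pow_eq_one hb (hon V hV) hR hf.ne_zero hx (hr₀ _ (hrep V hV)), inv_one,
        sub_self]
    refine ⟨algebraMap K F w * x, ?_, ?_⟩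
    · unfold IsRootAt
      rw [mul_pow, mul_div_assoc, ← one_mul (1 : F)]
      exact congr_mul (pow_mem (algebraMap_mem hVW w) n) V.one_mem hwn hx
    · have h := IsDelta.smul_left (r₁ := algebraMap K F w * x) (hon V hV)
        (by rw [hw]; exact inv_ne_zero hz0)
        (by
          rw [mul_div_assoc, div_self (hx.ne_zero hn), mul_one, sub_self]; exact zero_mem_nonunits)
        (hx.ne_zero hn) hz
      rwa [hw, inv_mul_cancel₀ hz0] at h
  choose! rt hrt hrtd using hex
  refine ⟨rt, hrt, fun t hCh M V V' hA hA' => ?_⟩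
  have hfv := hf.of_iff hCh.vert_iff
  have hV := (hCh.vert_iff V).1 hA.vert
  have hV' := (hCh.vert_iff V').1 hA'.vert
  obtain ⟨z, hz0, hz⟩ := exists_isDelta hb hCh.cover (hCh.good M hA.point) hA hA' hn hfv
    (hrt V hV) (hrt V' hV')
  suffices z = 1 by rwa [← this]
  by_cases hne : V = V'
  · subst hne; exact hz.self_eq_one hb hA
  have hX : IsCross W q t M := ⟨V, V', hne, hA, hA'⟩
  obtain ⟨σ, hσ⟩ := hX.exists_smul_eq hS hΔ hqr hCh hA hA'
  have hrepeq : rep L V' = rep L V := by rw [hσ, rep_smul]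
  have h₀ := hon V hV
  have h₀' := hon V' hV'
  rw [hrepeq] at h₀'
  obtain ⟨z₀, hz₀0, hz₀⟩ := exists_isDelta hb hS.cover (hS.good₀ _ h₀.point) h₀ h₀' hn hf
    (hrt V hV) (hrt V' hV')
  have hR := hbase₂ _ (hrep V hV)
  have h2 := hrtd V' hV'
  rw [hrepeq] at h2
  have hz₀1 : z₀ = 1 := by
    have h3 := (hz₀.trans hb h₀ h₀' hR hn hf.ne_zero h2).unique hb h₀ hR hn hf.ne_zero (hrtd V hV)
    rwa [mul_one] at h3
  have hj := jmp_eq hS hCh hn (M₀ := base (rep L V)) ⟨hA, h₀⟩ ⟨hA', h₀'⟩ hf
    ⟨rt V, rt V', z, z₀, hrt V hV, hrt V' hV', hz, hz₀, hz₀0, rfl⟩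
  rw [hJ t hCh M _ V V' hX (hbase₁ _ (hrep V hV)) ⟨hA, h₀⟩ ⟨hA', h₀'⟩, hz₀1, div_one,
    Units.val_one] at hj
  exact hj.symm

end Fermat.Agent.Carayol.Kill
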