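import Fermat.Agent.Carayol.Kill.Delta
import Fermat.Agent.Carayol.Kill.Average

/-!
# Crossing points

Crossing points of the special fibre: the level-fixing automorphisms fix them and permute
transitively the components through them.

Main results: `IsCross.exists_smul_eq`, `exists_cross_through`.
-/

set_option autoImplicit false

open Polynomial IsLocalRing
open scoped Pointwise

namespace Fermat.Agent.Carayol.Kill

section Chart

variable {K F : Type*} [Field K] [Field F] [Algebra K F] {W : ValuationSubring K} {q : ℕ} {t : F}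

theorem apply_mem_chart {σ : F ≃ₐ[K] F} (hσ : σ t = t) {x : F} (hx : x ∈ chart W t) :
    σ x ∈ chart W t := by
  obtain ⟨P, hP, h⟩ := mem_chart.1 hx
  refine mem_chart.2 ⟨P, hP, ?_⟩
  have e : (σ : F →+* F).comp (evW W t) = evW W t := by
    refine Polynomial.ringHom_ext (fun w => ?_) ?_
    · simp [evW_C]
    · simpa [evW_X] using hσ
  have h2 := congrArg (σ : F →+* F) h
  rw [hom_eval₂, e, map_zero] at h2
  exact h2

theorem fixesCentre_of_inertia {M V : ValuationSubring F} (hA : OnBranch W q t M V)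
    {σ : F ≃ₐ[K] F} (hσt : σ t = t) (hσ : ∀ x ∈ V, σ x - x ∈ V.nonunits) :
    FixesCentre W t M σ := by
  have hchart : ∀ a ∈ chart W t, σ a - a ∈ M.nonunits := fun a ha =>
    hA.through _ (sub_mem (apply_mem_chart hσt ha) ha)
      (hσ a (mem_valuationSubring_of_mem_chart ha hA.vert.evW_mem))
  intro x hx
  have hxM := locRing_le hA.point.evW_mem hx
  obtain ⟨a, ha, b, hb, hbn, e⟩ := hx
  have hσb : σ b ∉ M.nonunits := fun h => hbn (by
    simpa using sub_mem_nonunits h (hchart b hb))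
  have e' : σ x * σ b = σ a := by rw [← map_mul, e]
  refine ⟨⟨σ a, apply_mem_chart hσt ha, σ b, apply_mem_chart hσt hb, hσb, e'⟩, ?_⟩
  have h1 : (σ x - x) * σ b ∈ M.nonunits := by
    rw [show (σ x - x) * σ b = (σ a - a) - x * (σ b - b) by linear_combination e' - e]
    exact sub_mem_nonunits (hchart a ha) (nonunits_mul_left hxM (hchart b hb))
  by_contra h2
  exact mul_notMem_nonunits h2 hσb h1

end Chart

variable {K F : Type*} [Field K] [CharZero K] [Field F] [DecidableEq F] [Algebra K F]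
  {W : ValuationSubring K} {fam : WeierstrassCurve ℤ[X]} {q r : ℕ} [NeZero (q * r)]
  [Fact q.Prime] {L : LevelData K F fam q r} {T t : F}

/-- One of the two charts. -/
structure IsChart (W : ValuationSubring K) (L : LevelData K F fam q r) (T t : F) : Prop where
  cover : Cover K t
  fix : ∀ σ : L.levelFix, (σ : F ≃ₐ[K] F) t = t
  vert_iff : ∀ V, IsVert W q t V ↔ IsVert W q T V
  good : ∀ M, IsPoint W q t M → GoodPoint W q t M
  separated : ∀ M V V', IsPoint W q t M → IsVert W q t V → Through W t M V → IsVert W q t V' →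
    Through W t M V' →
    (∀ Q : L.curve.toAffine.Point, q • Q = 0 → (InKer V Q ↔ InKer V' Q)) → V = V'

/-- A crossing point. -/
structure IsCross (W : ValuationSubring K) (q : ℕ) (t : F) (M : ValuationSubring F) : Prop where
  exists_two : ∃ V V', V ≠ V' ∧ OnBranch W q t M V ∧ OnBranch W q t M V'

variable (hS : SpecialFibre W L T) (hΔ : fam.Δ ≠ 0) (hqr : r.Coprime q)

omit [CharZero K] [NeZero (q * r)] [Fact (Nat.Prime q)] in
include hS in
theorem isChart_self : IsChart W L T T :=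
  ⟨hS.cover, fun σ => mem_fixPar hS σ, fun _ => Iff.rfl, hS.good₀, hS.separated₀⟩

omit [CharZero K] [NeZero (q * r)] [Fact (Nat.Prime q)] in
include hS in
theorem isChart_inv : IsChart W L T T⁻¹ :=
  ⟨hS.cover.inv, fun σ => by
    rw [map_inv₀, show (σ : F ≃ₐ[K] F) T = T from mem_fixPar hS σ],
    hS.isVert_inv, hS.good₁, hS.separated₁⟩

/-- The automorphisms fixing the centre of a point. -/
def centreStab (L : LevelData K F fam q r) (W : ValuationSubring K) (t : F)
    (M : ValuationSubring F) : Subgroup L.levelFix where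
  carrier := {σ | FixesCentre W t M (σ : F ≃ₐ[K] F) ∧ FixesCentre W t M (σ⁻¹ : L.levelFix)}
  one_mem' := ⟨fun x hx => ⟨hx, by simp⟩,
    fun x hx => ⟨by simpa using hx, by simp⟩⟩
  mul_mem' := fun {σ τ} ⟨hσ, hσ'⟩ ⟨hτ, hτ'⟩ => by
    have key : ∀ {α β : F ≃ₐ[K] F}, FixesCentre W t M α → FixesCentre W t M β →
        FixesCentre W t M (α * β) := fun {α β} hα hβ x hx => by
      refine ⟨(hα _ (hβ x hx).1).1, ?_⟩
      rw [AlgEquiv.mul_apply, show α (β x) - x = (α (β x) - β x) + (β x - x) by ring]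
      exact add_mem_nonunits (hα _ (hβ x hx).1).2 (hβ x hx).2
    exact ⟨key hσ hτ, by rw [mul_inv_rev]; exact key hτ' hσ'⟩
  inv_mem' := fun {σ} ⟨hσ, hσ'⟩ => ⟨hσ', by rwa [inv_inv]⟩

omit [CharZero K] [NeZero (q * r)] [Fact (Nat.Prime q)] in
theorem mem_centreStab_of_inertia {M V : ValuationSubring F} (hCh : IsChart W L T t)
    (hA : OnBranch W q t M V) {σ : L.levelFix} (hσ : (σ : F ≃ₐ[K] F) ∈ inertiaV K T V) :
    σ ∈ centreStab L W t M :=
  ⟨fixesCentre_of_inertia hA (hCh.fix σ) (mem_inertiaV.1 hσ).2,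
    fixesCentre_of_inertia hA (hCh.fix σ⁻¹) (mem_inertiaV.1 (inv_mem hσ)).2⟩

include hΔ in
theorem IsChart.eq_of_line (hCh : IsChart W L T t) {M V V' : ValuationSubring F}
    (hA : OnBranch W q t M V) (hA' : OnBranch W q t M V') {v v' : Fin 2 → ZMod q} {c : ZMod q}
    (hc : c ≠ 0) (hv : HasLine L V v) (hv' : HasLine L V' v') (h : v' = c • v) : V = V' := by
  refine hCh.separated M V V' hA.point hA.vert hA.through hA'.vert hA'.through fun Q hQ => ?_
  obtain ⟨u, rfl⟩ := exists_qPt_eq L hΔ hQ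
  rw [hv.2, hv'.2, h]
  constructor
  · rintro ⟨d, rfl⟩
    exact ⟨d / c, by rw [smul_smul, div_mul_cancel₀ _ hc]⟩
  · rintro ⟨d, rfl⟩
    exact ⟨d * c, by rw [smul_smul]⟩

variable [IsAlgClosed (ResidueField W)]

include hS hΔ hqr in
omit [IsAlgClosed (ResidueField ↥W)] in
/-- **Crossing points are fixed.** -/
theorem IsCross.fixes (hCh : IsChart W L T t) {M : ValuationSubring F} (hX : IsCross W q t M)
    (σ : L.levelFix) : FixesCentre W t M (σ : F ≃ₐ[K] F) := by
  obtain ⟨V, V', hne, hA, hA'⟩ := hX.exists_two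
  obtain ⟨v, hv⟩ := exists_hasLine hS hΔ ((hCh.vert_iff V).1 hA.vert)
  obtain ⟨v', hv'⟩ := exists_hasLine hS hΔ ((hCh.vert_iff V').1 hA'.vert)
  have hind : ∀ c : ZMod q, v' ≠ c • v := fun c h => hne
    (hCh.eq_of_line hΔ hA hA' (fun h0 => hv'.1 (by rw [h, h0, zero_smul])) hv hv' h)
  exact (mem_of_inertia hS hΔ hqr (H := centreStab L W t M) ((hCh.vert_iff V).1 hA.vert)
    ((hCh.vert_iff V').1 hA'.vert) hv hv' hind (fun _ => mem_centreStab_of_inertia hCh hA)
    (fun _ => mem_centreStab_of_inertia hCh hA') σ).1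

omit [IsAlgClosed (ResidueField ↥W)] in
include hS hΔ hqr in
theorem IsCross.smul (hCh : IsChart W L T t) {M V : ValuationSubring F} (hX : IsCross W q t M)
    (hA : OnBranch W q t M V) (σ : L.levelFix) :
    OnBranch W q t M ((σ : F ≃ₐ[K] F) • V) := by
  refine ⟨hA.point, isVert_smul hA.vert (hCh.fix σ), fun x hx hxV => ?_⟩
  have hx' : ((σ⁻¹ : L.levelFix) : F ≃ₐ[K] F) x ∈ chart W t := apply_mem_chart (hCh.fix σ⁻¹) hx
  have h1 : ((σ⁻¹ : L.levelFix) : F ≃ₐ[K] F) x ∈ V.nonunits := by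
    rw [← smul_mem_nonunits_iff (σ : F ≃ₐ[K] F), ← AlgEquiv.mul_apply, InvMemClass.coe_inv,
      mul_inv_cancel]
    exact hxV
  have h2 := (hX.fixes hS hΔ hqr hCh σ⁻¹ x (chart_le_locRing hx)).2
  simpa using sub_mem_nonunits (hA.through _ hx' h1) h2

include hS hΔ hqr in
/-- **The components through a crossing point form one orbit.** -/
theorem IsCross.exists_smul_eq (hCh : IsChart W L T t) {M V V' : ValuationSubring F}
    (hX : IsCross W q t M) (hA : OnBranch W q t M V) (hA' : OnBranch W q t M V') :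
    ∃ σ : L.levelFix, V' = (σ : F ≃ₐ[K] F) • V := by
  obtain ⟨v, hv⟩ := exists_hasLine hS hΔ ((hCh.vert_iff V).1 hA.vert)
  obtain ⟨v', hv'⟩ := exists_hasLine hS hΔ ((hCh.vert_iff V').1 hA'.vert)
  by_cases hdep : ∃ c : ZMod q, v' = c • v
  · obtain ⟨c, hc⟩ := hdep
    exact ⟨1, by
      rw [OneMemClass.coe_one, one_smul]
      exact (hCh.eq_of_line hΔ hA hA' (fun h0 => hv'.1 (by rw [hc, h0, zero_smul])) hv hv' hc).symm⟩
  · push Not at hdep
    have hu : v + v' ≠ 0 := fun h => hdep (-1) (by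
      rw [neg_one_smul]; exact eq_neg_of_add_eq_zero_right h)
    obtain ⟨U, hU, hUu⟩ := exists_vert_hasLine hS hΔ hu
    have hind : ∀ c : ZMod q, v ≠ c • (v + v') := fun c h => by
      rcases eq_or_ne c 0 with h0 | h0
      · exact hv.1 (by rw [h, h0, zero_smul])
      · refine hdep (c⁻¹ * (1 - c)) ?_
        have h1 : c • v' = (1 - c) • v := by
          rw [sub_smul, one_smul]
          conv_rhs => enter [1]; rw [h, smul_add]
          abel
        rw [mul_smul, ← h1, smul_smul, inv_mul_cancel₀ h0, one_smul]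
    obtain ⟨σ, -, -, hσ⟩ := exists_inertia hS hΔ hU hUu hind one_ne_zero (-1 : ZMod q)
    refine ⟨σ, (hCh.eq_of_line hΔ (hX.smul hS hΔ hqr hCh hA σ) hA' (c := -1)
      (neg_ne_zero.2 one_ne_zero) (hv.smul hΔ σ) hv' ?_).symm⟩
    rw [hσ, neg_one_smul, neg_one_smul]
    abel

include hS hΔ in
/-- Every component passes through a crossing point of the first chart. -/
theorem exists_cross_through {V : ValuationSubring F} (hV : IsVert W q T V) :
    ∃ M, IsCross W q T M ∧ OnBranch W q T M V := by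
  obtain ⟨w, hw⟩ := hS.supersingular
  obtain ⟨M, hM, hMV, hMw⟩ := exists_point_through hS.base hS.cover hV w
  obtain ⟨v, hv⟩ := exists_hasLine hS hΔ hV
  obtain ⟨i, hi⟩ : ∃ i : Fin 2, ∀ c : ZMod q, (Pi.single i 1 : Fin 2 → ZMod q) ≠ c • v := by
    by_contra h
    push Not at h
    obtain ⟨c, hc⟩ := h 0
    obtain ⟨d, hd⟩ := h 1
    have hc0 : c ≠ 0 := fun h0 => by simpa [h0] using congrFun hc 0
    refine single_indep (i := 0) (j := 1) (by decide) (d * c⁻¹) ?_
    rw [hc, smul_smul, mul_assoc, inv_mul_cancel₀ hc0, mul_one, hd]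
  obtain ⟨V', hV', hMV', hker⟩ := (hw M hM hMw).2 (qPt L (Pi.single i 1))
    (fun h => by simpa using qPt_injective L (h.trans (map_zero _).symm)) (nsmul_qPt L _)
  refine ⟨M, ⟨V, V', fun h => ?_, ⟨hM, hV, hMV⟩, hM, hV', hMV'⟩, hM, hV, hMV⟩
  obtain ⟨c, hc⟩ := (hv.2 _).1 (h ▸ hker)
  exact hi c hc

end Fermat.Agent.Carayol.Kill
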