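import Fermat.Agent.Carayol.Kill.Local

/-!
# Ratios of roots along two branches

The ratio at a point of the values of two roots along two branches.

Main result: `isDelta_const`.
-/

set_option autoImplicit false

open Polynomial IsLocalRing
open scoped Pointwise

namespace Fermat.Agent.Carayol.Kill

variable {K F : Type*} [Field K] [Field F] [Algebra K F]

section BVal

variable {W : ValuationSubring K} {q : ℕ} {t : F} {M V : ValuationSubring F}

/-- The value at the point of an element along the branch `V`. -/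
def BVal (W : ValuationSubring K) (t : F) (M V : ValuationSubring F) (y : F)
    (c : ResidueField W) : Prop :=
  ∃ e ∈ locRing W t M, e - y ∈ V.nonunits ∧
    ∃ w : W, residue W w = c ∧ e - algebraMap K F w ∈ M.nonunits

/-- Elements of the local ring are congruent to themselves along every branch. -/
theorem bVal_of_mem {x : F} (hx : x ∈ locRing W t M) {w : W}
    (h : x - algebraMap K F w ∈ M.nonunits) : BVal W t M V x (residue W w) :=
  ⟨x, hx, by simp, w, rfl, h⟩

theorem BVal.mem (hV : ∀ p : W[X], evW W t p ∈ V) (hT : Through W t M V) {y : F}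
    {c : ResidueField W} (h : BVal W t M V y c) : y ∈ V := by
  obtain ⟨e, he, hey, -⟩ := h
  simpa using sub_mem (hT.locRing_le hV he) (ValuationSubring.nonunits_subset hey)

theorem BVal.mul (hM : IsPoint W q t M) (hV : ∀ p : W[X], evW W t p ∈ V) (hT : Through W t M V)
    {y y' : F} {c c' : ResidueField W} (h : BVal W t M V y c) (h' : BVal W t M V y' c') :
    BVal W t M V (y * y') (c * c') := by
  have hy' := h'.mem hV hT
  obtain ⟨e, he, hey, w, rfl, hw⟩ := h
  obtain ⟨e', he', hey', w', rfl, hw'⟩ := h'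
  refine ⟨e * e', mul_mem he he', congr_mul (hT.locRing_le hV he) hy' hey hey', w * w',
    map_mul _ _ _, ?_⟩
  rw [MulMemClass.coe_mul, map_mul]
  exact congr_mul (locRing_le hM.evW_mem he)
    (by simpa [evW_C] using hM.evW_mem (C w')) hw hw'

theorem BVal.congr {y y' : F} {c : ResidueField W} (h : BVal W t M V y c)
    (he : y' - y ∈ V.nonunits) : BVal W t M V y' c := by
  obtain ⟨e, he', hey, hw⟩ := h
  exact ⟨e, he', by rw [show e - y' = (e - y) - (y' - y) by ring]; exact sub_mem_nonunits hey he,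
    hw⟩

theorem BVal.unique (hb : BaseData W q) (hM : IsPoint W q t M) (hV : ∀ p : W[X], evW W t p ∈ V)
    (hT : Through W t M V) {y : F} {c c' : ResidueField W} (h : BVal W t M V y c)
    (h' : BVal W t M V y c') : c = c' := by
  obtain ⟨e, he, hey, w, rfl, hw⟩ := h
  obtain ⟨e', he', hey', w', rfl, hw'⟩ := h'
  have he2 : e - e' ∈ M.nonunits := hT.nonunits hM.evW_mem (sub_mem he he')
    (by rw [show e - e' = (e - y) - (e' - y) by ring]; exact sub_mem_nonunits hey hey') hV
  refine residue_eq_of_congr (hM.comap_algebraMap hb) hw ?_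
  rw [show e - algebraMap K F w' = (e - e') + (e' - algebraMap K F w') by ring]
  exact add_mem_nonunits he2 hw'

theorem residue_ne_zero_of_congr (hb : BaseData W q) (hM : IsPoint W q t M) {x : F}
    (hx : x ∉ M.nonunits) {w : W} (hw : x - algebraMap K F w ∈ M.nonunits) :
    residue W w ≠ 0 := fun h0 => hx (by
  rw [residue_eq_zero_iff, ← algebraMap_mem_nonunits_iff (hM.comap_algebraMap hb)] at h0
  simpa using add_mem_nonunits hw h0)

end BVal

variable {W : ValuationSubring K} {q : ℕ} {t : F} {n : ℕ}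

/-- A function with local roots at all components and everywhere on the generic fibre. -/
structure RootFun (W : ValuationSubring K) (q : ℕ) (t : F) (n : ℕ) (f : F) : Prop where
  ne_zero : f ≠ 0
  loc : IsNthPowerLocally K n f
  root : ∀ V, IsVert W q t V → ∃ x : F, IsRootAt n V f x

theorem RootFun.mul {f f' : F} (h : RootFun W q t n f) (h' : RootFun W q t n f') :
    RootFun W q t n (f * f') where
  ne_zero := mul_ne_zero h.ne_zero h'.ne_zero
  loc V hV := by
    obtain ⟨g, hg, h1, h2⟩ := h.loc V hV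
    obtain ⟨g', hg', h1', h2'⟩ := h'.loc V hV
    refine ⟨g * g', mul_ne_zero hg hg', ?_, ?_⟩
    · rw [mul_pow, ← div_mul_div_comm]; exact V.mul_mem _ _ h1 h1'
    · rw [mul_pow, ← div_mul_div_comm]; exact V.mul_mem _ _ h2 h2'
  root V hV := by
    obtain ⟨x, hx⟩ := h.root V hV
    obtain ⟨x', hx'⟩ := h'.root V hV
    exact ⟨x * x', hx.mul hx'⟩

theorem RootFun.one : RootFun W q t n (1 : F) where
  ne_zero := one_ne_zero
  loc V _ := ⟨1, one_ne_zero, by simp, by simp⟩
  root V _ := ⟨1, by simpa using isRootAt_pow_self (n := n) (V := V) (one_ne_zero (α := F))⟩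

theorem RootFun.prod {ι : Type*} (s : Finset ι) {g : ι → F} (h : ∀ i, RootFun W q t n (g i)) :
    RootFun W q t n (∏ i ∈ s, g i) := by
  classical
  induction s using Finset.induction_on with
  | empty => simpa using RootFun.one
  | @insert a s ha ih => rw [Finset.prod_insert ha]; exact (h a).mul ih

theorem RootFun.pow {f : F} (h : RootFun W q t n f) (k : ℕ) : RootFun W q t n (f ^ k) := by
  simpa using RootFun.prod (Finset.range k) fun _ => h

theorem RootFun.conj {f : F} (h : RootFun W q t n f) {σ : F ≃ₐ[K] F} (hσ : σ t = t) :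
    RootFun W q t n (σ f) where
  ne_zero := (_root_.map_ne_zero _).2 h.ne_zero
  loc V hV := by
    obtain ⟨g, hg, h1, h2⟩ := h.loc (σ⁻¹ • V) fun c => by
      rw [← apply_mem_smul_iff σ, smul_inv_smul, AlgEquiv.commutes]
      exact hV c
    rw [← apply_mem_smul_iff σ, smul_inv_smul, map_div₀, map_pow] at h1 h2
    exact ⟨σ g, (_root_.map_ne_zero _).2 hg, h1, h2⟩
  root V hV := by
    have hV' : IsVert W q t (σ⁻¹ • V) := by
      convert hV.comap (σ := σ) hσ using 1
      ext x
      rw [ValuationSubring.mem_pointwise_smul_iff_inv_smul_mem, inv_inv]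
      rfl
    obtain ⟨x, hx⟩ := h.root _ hV'
    exact ⟨σ x, by simpa using hx.smul σ⟩

/-- A decomposition at the point as an `n`th power times a unit. -/
def IsPowPart (W : ValuationSubring K) (t : F) (M : ValuationSubring F) (n : ℕ) (f g : F) :
    Prop :=
  g ≠ 0 ∧ f / g ^ n ∈ locRing W t M ∧ g ^ n / f ∈ locRing W t M

/-- The ratio at the point of the values along two branches of two roots. -/
def IsDelta (W : ValuationSubring K) (t : F) (M : ValuationSubring F) (n : ℕ) (f : F)
    (V V' : ValuationSubring F) (r r' : F) (z : ResidueField W) : Prop :=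
  ∃ g c c', IsPowPart W t M n f g ∧ BVal W t M V (r / g) c ∧ BVal W t M V' (r' / g) c' ∧
    c ≠ 0 ∧ c' ≠ 0 ∧ z = c / c'

/-- A point with a component through it. -/
structure OnBranch (W : ValuationSubring K) (q : ℕ) (t : F) (M V : ValuationSubring F) : Prop where
  point : IsPoint W q t M
  vert : IsVert W q t V
  through : Through W t M V

variable {M V V' V'' : ValuationSubring F} (hb : BaseData W q) (hc : Cover K t)
  (hg : GoodPoint W q t M)

theorem IsPowPart.unit {f g : F} (hp : IsPowPart W t M n f g) (hM : IsPoint W q t M)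
    (hf : f ≠ 0) : f / g ^ n ∉ M.nonunits := by
  intro h
  have := nonunits_mul_right (locRing_le hM.evW_mem hp.2.2) h
  rw [div_mul_div_cancel₀ (pow_ne_zero _ hp.1), div_self hf] at this
  exact one_notMem_nonunits M this

theorem IsPowPart.val {f g : F} (hp : IsPowPart W t M n f g) (hA : OnBranch W q t M V)
    (hf : f ≠ 0) : V.valuation (f / g ^ n) = 1 :=
  val_eq_one_iff_inv.2 ⟨div_ne_zero hf (pow_ne_zero _ hp.1),
    hA.through.locRing_le hA.vert.evW_mem hp.2.1,
    by rw [inv_div]; exact hA.through.locRing_le hA.vert.evW_mem hp.2.2⟩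

section Exist

variable [IsAlgClosed (ResidueField W)]

include hb hc hg in
theorem exists_bVal (hA : OnBranch W q t M V) (hn : 0 < n) {f g r : F} (hf : f ≠ 0)
    (hp : IsPowPart W t M n f g) (hr : IsRootAt n V f r) :
    ∃ c, c ≠ 0 ∧ BVal W t M V (r / g) c := by
  obtain ⟨z, w, hB, hufd⟩ := exists_branch hb hc hA.point hg hA.vert hA.through
  have hu := hp.val hA hf
  have hpow : (r / g) ^ n = (r ^ n / f) * (f / g ^ n) := by
    rw [div_pow, div_mul_div_cancel₀ hf]
  have hy : V.valuation (r / g) = 1 := (val_pow_eq_one_iff hn.ne').1 (by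
    rw [hpow, map_mul, hr.val, hu, one_mul])
  have hcong : (r / g) ^ n - f / g ^ n ∈ V.nonunits := by
    rw [hpow, show r ^ n / f * (f / g ^ n) - f / g ^ n = (r ^ n / f - 1) * (f / g ^ n) by ring]
    exact nonunits_mul_right (mem_of_val hu) hr
  obtain ⟨e, he, hen, hey⟩ := exists_branch_value hb hc hA.point hA.vert hA.through hB hn hy
    hp.2.1 (hp.unit hA.point hf) hcong
  obtain ⟨x, hx⟩ := exists_residue_const hb hA.point he
  exact ⟨residue W x, residue_ne_zero_of_congr hb hA.point hen hx, e, he, hey, x, rfl, hx⟩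

omit [IsAlgClosed (ResidueField ↥W)] in
include hb hc hg in
theorem exists_isPowPart (hM : IsPoint W q t M) (hn : 0 < n) {f : F} (hf : RootFun W q t n f) :
    ∃ g, IsPowPart W t M n f g :=
  exists_local_power hb hc hM hg hn hf.ne_zero hf.loc fun U hU _ => by
    obtain ⟨x, hx⟩ := hf.root U hU
    exact ⟨x, hx.val⟩

include hb hc hg in
theorem exists_isDelta (hA : OnBranch W q t M V) (hA' : OnBranch W q t M V') (hn : 0 < n)
    {f r r' : F}
    (hf : RootFun W q t n f) (hr : IsRootAt n V f r) (hr' : IsRootAt n V' f r') :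
    ∃ z, z ≠ 0 ∧ IsDelta W t M n f V V' r r' z := by
  obtain ⟨g, hp⟩ := exists_isPowPart hb hc hg hA.point hn hf
  obtain ⟨c, hc0, hbv⟩ := exists_bVal hb hc hg hA hn hf.ne_zero hp hr
  obtain ⟨c', hc0', hbv'⟩ := exists_bVal hb hc hg hA' hn hf.ne_zero hp hr'
  exact ⟨c / c', div_ne_zero hc0 hc0', g, c, c', hp, hbv, hbv', hc0, hc0', rfl⟩

include hb in
/-- The decomposition does not matter. -/
theorem IsDelta.change (hM : IsPoint W q t M) (hV : OnBranch W q t M V) (hV' : OnBranch W q t M V')
    (hn : 0 < n) {f r r' g : F} {z : ResidueField W} (hf : f ≠ 0)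
    (h : IsDelta W t M n f V V' r r' z)
    (hp : IsPowPart W t M n f g) :
    ∃ c c', BVal W t M V (r / g) c ∧ BVal W t M V' (r' / g) c' ∧ c ≠ 0 ∧ c' ≠ 0 ∧ z = c / c' := by
  obtain ⟨g₀, c, c', hp₀, hc, hc', hc0, hc0', rfl⟩ := h
  have := isIntegrallyClosedIn_locRing (t := t) (W := W) hM.evW_mem
  have hw : g₀ / g ∈ locRing W t M := by
    have h : (g₀ / g) ^ n ∈ locRing W t M := by
      rw [div_pow, show g₀ ^ n / g ^ n = (g₀ ^ n / f) * (f / g ^ n) by
        rw [div_mul_div_cancel₀ hf]]
      exact mul_mem hp₀.2.2 hp.2.1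
    obtain ⟨y, hy⟩ := (IsIntegrallyClosedIn.isIntegral_iff (R := locRing W t M) (A := F)
      (x := g₀ / g)).1 (IsIntegral.of_pow hn
        (isIntegral_algebraMap (R := locRing W t M) (A := F) (x := ⟨_, h⟩)))
    exact hy ▸ y.2
  have hwn : g₀ / g ∉ M.nonunits := fun hh => by
    have := (pow_mem_nonunits_iff hn.ne').2 hh
    rw [div_pow, show g₀ ^ n / g ^ n = (g₀ ^ n / f) * (f / g ^ n) by
      rw [div_mul_div_cancel₀ hf]] at this
    refine mul_notMem_nonunits ?_ (hp.unit hM hf) this
    intro h2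
    have := nonunits_mul_right (locRing_le hM.evW_mem hp₀.2.1) h2
    rw [div_mul_div_cancel₀ hf, div_self (pow_ne_zero _ hp₀.1)] at this
    exact one_notMem_nonunits M this
  obtain ⟨w, hw'⟩ := exists_residue_const hb hM hw
  have hw0 := residue_ne_zero_of_congr hb hM hwn hw'
  refine ⟨c * residue W w, c' * residue W w, ?_, ?_, mul_ne_zero hc0 hw0, mul_ne_zero hc0' hw0,
    (mul_div_mul_right _ _ hw0).symm⟩
  · rw [← div_mul_div_cancel₀ hp₀.1]
    exact hc.mul hM hV.vert.evW_mem hV.through (bVal_of_mem hw hw')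
  · rw [← div_mul_div_cancel₀ hp₀.1]
    exact hc'.mul hM hV'.vert.evW_mem hV'.through (bVal_of_mem hw hw')

include hb in
theorem IsDelta.unique (hV : OnBranch W q t M V) (hV' : OnBranch W q t M V') (hn : 0 < n)
    {f r r' : F}
    {z z' : ResidueField W} (hf : f ≠ 0) (h : IsDelta W t M n f V V' r r' z)
    (h' : IsDelta W t M n f V V' r r' z') : z = z' := by
  obtain ⟨g, c, c', hp, hc, hc', -, -, rfl⟩ := h
  obtain ⟨d, d', hd, hd', -, -, rfl⟩ := h'.change hb hV.point hV hV' hn hf hp
  rw [hc.unique hb hV.point hV.vert.evW_mem hV.through hd,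
    hc'.unique hb hV.point hV'.vert.evW_mem hV'.through hd']

include hb in
theorem IsDelta.trans (hV : OnBranch W q t M V) (hV' : OnBranch W q t M V')
    (hV'' : OnBranch W q t M V'') (hn : 0 < n) {f r r' r'' : F} {z z' : ResidueField W} (hf : f ≠ 0)
    (h : IsDelta W t M n f V V' r r' z) (h' : IsDelta W t M n f V' V'' r' r'' z') :
    IsDelta W t M n f V V'' r r'' (z * z') := by
  obtain ⟨g, c, c', hp, hc, hc', hc0, hc0', rfl⟩ := h
  obtain ⟨d, d', hd, hd', -, hd0', rfl⟩ := h'.change hb hV.point hV' hV'' hn hf hp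
  have e := hc'.unique hb hV.point hV'.vert.evW_mem hV'.through hd
  subst e
  exact ⟨g, c, d', hp, hc, hd', hc0, hd0', (div_mul_div_cancel₀ hc0').symm ▸ rfl⟩

end Exist

theorem IsDelta.mul (hV : OnBranch W q t M V) (hV' : OnBranch W q t M V') {f f' r r' s s' : F}
    {z z' : ResidueField W} (h : IsDelta W t M n f V V' r r' z)
    (h' : IsDelta W t M n f' V V' s s' z') :
    IsDelta W t M n (f * f') V V' (r * s) (r' * s') (z * z') := by
  obtain ⟨g, c, c', hp, hc, hc', hc0, hc0', rfl⟩ := h
  obtain ⟨g', d, d', hp', hd, hd', hd0, hd0', rfl⟩ := h'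
  refine ⟨g * g', c * d, c' * d', ⟨mul_ne_zero hp.1 hp'.1, ?_, ?_⟩, ?_, ?_,
    mul_ne_zero hc0 hd0, mul_ne_zero hc0' hd0', (mul_div_mul_comm c d c' d').symm⟩
  · rw [mul_pow, ← div_mul_div_comm]; exact mul_mem hp.2.1 hp'.2.1
  · rw [mul_pow, ← div_mul_div_comm]; exact mul_mem hp.2.2 hp'.2.2
  · rw [← div_mul_div_comm]; exact hc.mul hV.point hV.vert.evW_mem hV.through hd
  · rw [← div_mul_div_comm]; exact hc'.mul hV.point hV'.vert.evW_mem hV'.through hd'

/-- Congruent roots along the first branch up to a constant. -/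
theorem IsDelta.smul_left (hV : OnBranch W q t M V) {f r r₁ r' : F} {z : ResidueField W} {w : W}
    (hw : residue W w ≠ 0) (hr : r₁ / r - algebraMap K F w ∈ V.nonunits) (hr0 : r ≠ 0)
    (h : IsDelta W t M n f V V' r r' z) :
    IsDelta W t M n f V V' r₁ r' (residue W w * z) := by
  obtain ⟨g, c, c', hp, hc, hc', hc0, hc0', rfl⟩ := h
  refine ⟨g, residue W w * c, c', hp, ?_, hc', mul_ne_zero hw hc0, hc0', (mul_div_assoc _ _ _).symm⟩
  refine ((bVal_of_mem (V := V) (chart_le_locRing (algebraMap_mem_chart w))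
    (by simp)).mul hV.point hV.vert.evW_mem hV.through hc).congr ?_
  rw [show r₁ / g - algebraMap K F w * (r / g) = (r / g) * (r₁ / r - algebraMap K F w) by
    field_simp]
  exact nonunits_mul_left (hc.mem hV.vert.evW_mem hV.through) hr

theorem IsDelta.swap {f r r' : F} {z : ResidueField W} (h : IsDelta W t M n f V V' r r' z) :
    IsDelta W t M n f V' V r' r z⁻¹ := by
  obtain ⟨g, c, c', hp, hc, hc', hc0, hc0', rfl⟩ := h
  exact ⟨g, c', c, hp, hc', hc, hc0', hc0, inv_div c c'⟩

/-- Automorphisms fixing the parameter and the centre of the point. -/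
def FixesCentre (W : ValuationSubring K) (t : F) (M : ValuationSubring F) (σ : F ≃ₐ[K] F) :
    Prop :=
  ∀ x ∈ locRing W t M, σ x ∈ locRing W t M ∧ σ x - x ∈ M.nonunits

theorem BVal.apply {σ : F ≃ₐ[K] F} (hσ : FixesCentre W t M σ) {y : F} {c : ResidueField W}
    (h : BVal W t M V y c) : BVal W t M (σ • V) (σ y) c := by
  obtain ⟨e, he, hey, w, hwc, hw⟩ := h
  refine ⟨σ e, (hσ e he).1, by rw [← map_sub, smul_mem_nonunits_iff]; exact hey, w, hwc, ?_⟩
  rw [show σ e - algebraMap K F w = (σ e - e) + (e - algebraMap K F w) by ring]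
  exact add_mem_nonunits (hσ e he).2 hw

theorem IsDelta.apply {σ : F ≃ₐ[K] F} (hσ : FixesCentre W t M σ) {f r r' : F} {z : ResidueField W}
    (h : IsDelta W t M n f V V' r r' z) :
    IsDelta W t M n (σ f) (σ • V) (σ • V') (σ r) (σ r') z := by
  obtain ⟨g, c, c', hp, hc, hc', hc0, hc0', rfl⟩ := h
  refine ⟨σ g, c, c', ⟨(_root_.map_ne_zero _).2 hp.1, ?_, ?_⟩, ?_, ?_, hc0, hc0', rfl⟩
  · rw [← map_pow, ← map_div₀]; exact (hσ _ hp.2.1).1
  · rw [← map_pow, ← map_div₀]; exact (hσ _ hp.2.2).1
  · rw [← map_div₀]; exact hc.apply hσ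
  · rw [← map_div₀]; exact hc'.apply hσ

include hb hc in
/-- An algebraic element which is a unit at the components is a unit of the chart. -/
theorem mem_chart_of_constUnit {T u : F} (hT : ∀ V, IsVert W q t V → IsVert W q T V)
    (h : IsConstUnit W q T u) : u ∈ chart W t ∧ u⁻¹ ∈ chart W t := by
  have hgen : ∀ x : F, IsAlgebraic K x → (∀ U, IsVert W q t U → x ∈ U) → x ∈ chart W t := by
    intro x hx hv
    refine mem_chart_of_forall hb hc (exists_isVert hb hc) (fun U hU => ?_) hv
    have hK : ∀ a : K, algebraMap K F a ∈ U := fun a => by simpa using hU (C a)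
    obtain ⟨p, hp0, hp⟩ := hx.isIntegral
    obtain ⟨y, hy⟩ := (IsIntegrallyClosedIn.isIntegral_iff (R := U) (A := F) (x := x)).1
      ⟨p.map ((algebraMap K F).codRestrict U hK), hp0.map _, by rw [eval₂_map]; exact hp⟩
    exact hy ▸ y.2
  exact ⟨hgen u h.1 fun U hU => mem_of_val (h.2 U (hT U hU)),
    hgen u⁻¹ h.1.inv fun U hU => (val_eq_one_iff_inv.1 (h.2 U (hT U hU))).2.2⟩

include hb hc in
/-- A constant times a power has trivial ratio. -/
theorem isDelta_const (hn : 0 < n) {T u h : F}
    (hT : ∀ V, IsVert W q t V → IsVert W q T V) (huc : IsConstUnit W q T u) (hh : h ≠ 0)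
    {w : W} (hw : ∀ U : ValuationSubring F, U.comap (algebraMap K F) = W →
      IsRootAt n U u (algebraMap K F w)) (hV : OnBranch W q t M V) :
    IsDelta W t M n (u * h ^ n) V V' (algebraMap K F w * h) (algebraMap K F w * h) 1 := by
  obtain ⟨h1, h2⟩ := mem_chart_of_constUnit hb hc hT huc
  have hw0 : residue W w ≠ 0 := by
    intro h0
    have hMW := hV.point.comap_algebraMap hb
    rw [residue_eq_zero_iff, ← algebraMap_mem_nonunits_iff hMW] at h0
    have := nonunits_mul_right (locRing_le hV.point.evW_mem (chart_le_locRing h2))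
      ((pow_mem_nonunits_iff hn.ne').2 h0)
    rw [← div_eq_mul_inv] at this
    have h3 := (hw M hMW).val
    exact (val_eq_one_iff.1 h3).2 this
  refine ⟨h, residue W w, residue W w, ⟨hh, ?_, ?_⟩, ?_, ?_, hw0, hw0, (div_self hw0).symm⟩
  · rw [mul_div_assoc, div_self (pow_ne_zero _ hh), mul_one]; exact chart_le_locRing h1
  · rw [mul_comm, ← div_div, div_self (pow_ne_zero _ hh), one_div]; exact chart_le_locRing h2
  all_goals
    rw [mul_div_assoc, div_self hh, mul_one]
    exact bVal_of_mem (chart_le_locRing (algebraMap_mem_chart w)) (by simp)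

end Fermat.Agent.Carayol.Kill
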