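import Fermat.Agent.Carayol.Kill.Crossing
import Fermat.Agent.Carayol.Kill.Classes

/-!
# Jumps at crossing points

The jumps of a function around pairs of crossing points: multiplicative, equivariant, trivial
on constants times powers, hence trivial after averaging.

Main result: `jmp_pow_eq_one`.
-/

set_option autoImplicit false

open Polynomial IsLocalRing
open scoped Pointwise

namespace Fermat.Agent.Carayol.Kill

variable {K F : Type*} [Field K] [CharZero K] [Field F] [DecidableEq F] [Algebra K F]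
  {W : ValuationSubring K} {fam : WeierstrassCurve ℤ[X]} {q r : ℕ} [NeZero (q * r)]
  [Fact q.Prime] {L : LevelData K F fam q r} {T t : F} [IsAlgClosed (ResidueField W)]
  {M M₀ : ValuationSubring F} {n : ℕ}

omit [CharZero K] [DecidableEq F] [Fact (Nat.Prime q)] [IsAlgClosed (ResidueField ↥W)] in
theorem RootFun.of_iff {f : F} (h : RootFun W q T n f)
    (hv : ∀ V, IsVert W q t V ↔ IsVert W q T V) : RootFun W q t n f :=
  ⟨h.ne_zero, h.loc, fun V hV => h.root V ((hv V).1 hV)⟩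

omit [CharZero K] [NeZero (q * r)] [Fact (Nat.Prime q)] [IsAlgClosed (ResidueField ↥W)] in
theorem RDatum.rootFun [Fintype L.levelFix] {f : F} (h : RDatum W L T n f) :
    RootFun W q T n f :=
  ⟨h.ne_zero, h.loc, h.root⟩

omit [CharZero K] [DecidableEq F] in
/-- Two roots along a component differ by a constant. -/
theorem exists_const_root_div {V : ValuationSubring F}
    (hV : V.comap (algebraMap K F) = W) (hn : 0 < n) {f x x' : F} (hx : IsRootAt n V f x)
    (hx' : IsRootAt n V f x') :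
    ∃ w : W, residue W w ≠ 0 ∧ x' / x - algebraMap K F w ∈ V.nonunits := by
  have hpow : (x' / x) ^ n = (x' ^ n / f) / (x ^ n / f) := by
    have hf : f ≠ 0 := fun h => by simpa [IsRootAt, h] using ne_zero_of_val hx.val
    rw [div_pow, div_div_div_cancel_right₀ hf]
  have h1 : (x' / x) ^ n - 1 ∈ V.nonunits := by
    rw [hpow, div_sub_one (ne_zero_of_val hx.val), div_eq_inv_mul]
    refine nonunits_mul_left (val_eq_one_iff_inv.1 hx.val).2.2 ?_
    rw [show x' ^ n / f - x ^ n / f = (x' ^ n / f - 1) - (x ^ n / f - 1) by ring]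
    exact sub_mem_nonunits hx' hx
  obtain ⟨w, hw⟩ := exists_const_of_pow hV hn (w := 1) (by simpa using h1)
  refine ⟨w, fun h0 => ?_, hw⟩
  rw [residue_eq_zero_iff, ← algebraMap_mem_nonunits_iff hV] at h0
  have h2 : (x' / x) ^ n ∈ V.nonunits :=
    (pow_mem_nonunits_iff hn.ne').2 (by simpa using add_mem_nonunits hw h0)
  exact one_notMem_nonunits V (by simpa using sub_mem_nonunits h2 h1)

/-- Two components through both points of a pair. -/
def Both (W : ValuationSubring K) (q : ℕ) (T t : F) (M M₀ V : ValuationSubring F) : Prop :=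
  OnBranch W q t M V ∧ OnBranch W q T M₀ V

/-- The jump of `f` between two components through a pair of points. -/
def IsJump (W : ValuationSubring K) (T t : F) (M M₀ : ValuationSubring F) (n : ℕ) (f : F)
    (V V' : ValuationSubring F) (z : ResidueField W) : Prop :=
  ∃ x x' z₁ z₂, IsRootAt n V f x ∧ IsRootAt n V' f x' ∧ IsDelta W t M n f V V' x x' z₁ ∧
    IsDelta W T M₀ n f V V' x x' z₂ ∧ z₂ ≠ 0 ∧ z = z₁ / z₂

/-- The jump as a unit of the residue field. -/
noncomputable def jmp (W : ValuationSubring K) (T t : F) (M M₀ : ValuationSubring F) (n : ℕ)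
    (f : F) (V V' : ValuationSubring F) : (ResidueField W)ˣ :=
  Classical.epsilon fun u : (ResidueField W)ˣ => IsJump W T t M M₀ n f V V' (u : ResidueField W)

variable (hS : SpecialFibre W L T) (hΔ : fam.Δ ≠ 0) (hqr : r.Coprime q)
  (hCh : IsChart W L T t) (hn : 0 < n) {f f' : F} {V V' V'' : ValuationSubring F}

omit [CharZero K] in
include hS hn in
omit [NeZero (q * r)] [Fact (Nat.Prime q)] in
theorem IsJump.unique (hB : Both W q T t M M₀ V) (hB' : Both W q T t M M₀ V') (hf : f ≠ 0)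
    {z z' : ResidueField W} (h : IsJump W T t M M₀ n f V V' z)
    (h' : IsJump W T t M M₀ n f V V' z') : z = z' := by
  obtain ⟨x, x', z₁, z₂, hx, hx', h₁, h₂, hz₂, rfl⟩ := h
  obtain ⟨y, y', u₁, u₂, hy, hy', g₁, g₂, hu₂, rfl⟩ := h'
  have hb := hS.base
  obtain ⟨w, hw0, hw⟩ := exists_const_root_div (hB.2.vert.comap_algebraMap hb) hn hy hx
  obtain ⟨w', hw0', hw'⟩ := exists_const_root_div (hB'.2.vert.comap_algebraMap hb) hn hy' hx'
  have key : ∀ {s : F} {N : ValuationSubring F}, OnBranch W q s N V → OnBranch W q s N V' →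
      ∀ {a b : ResidueField W}, IsDelta W s N n f V V' x x' a → IsDelta W s N n f V V' y y' b →
        a = residue W w * (residue W w' * b⁻¹)⁻¹ := by
    intro s N hN hN' a b ha hb'
    refine ha.unique hb hN hN' hn hf ?_
    exact IsDelta.smul_left hN hw0 hw (hy.ne_zero hn)
      (IsDelta.smul_left hN' hw0' hw' (hy'.ne_zero hn) hb'.swap).swap
  have hz₂' := key hB.2 hB'.2 h₂ g₂
  rw [key hB.1 hB'.1 h₁ g₁, hz₂']
  field_simp [hw0, hw0', hu₂]

omit [CharZero K] [Fact (Nat.Prime q)] in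
omit [NeZero (q * r)] in
include hS hCh hn in
theorem exists_isJump (hB : Both W q T t M M₀ V) (hB' : Both W q T t M M₀ V')
    (hf : RootFun W q T n f) :
    ∃ u : (ResidueField W)ˣ, IsJump W T t M M₀ n f V V' (u : ResidueField W) := by
  obtain ⟨x, hx⟩ := hf.root V hB.2.vert
  obtain ⟨x', hx'⟩ := hf.root V' hB'.2.vert
  obtain ⟨z₁, hz₁, h₁⟩ := exists_isDelta hS.base hCh.cover (hCh.good M hB.1.point) hB.1 hB'.1 hn
    (hf.of_iff hCh.vert_iff) hx hx'
  obtain ⟨z₂, hz₂, h₂⟩ := exists_isDelta hS.base hS.cover (hS.good₀ M₀ hB.2.point) hB.2 hB'.2 hn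
    hf hx hx'
  exact ⟨Units.mk0 (z₁ / z₂) (div_ne_zero hz₁ hz₂), x, x', z₁, z₂, hx, hx', h₁, h₂, hz₂, rfl⟩

omit [CharZero K] [Fact (Nat.Prime q)] in
omit [NeZero (q * r)] in
include hS hCh hn in
theorem jmp_spec (hB : Both W q T t M M₀ V) (hB' : Both W q T t M M₀ V')
    (hf : RootFun W q T n f) :
    IsJump W T t M M₀ n f V V' (jmp W T t M M₀ n f V V' : ResidueField W) :=
  Classical.epsilon_spec (p := fun u : (ResidueField W)ˣ =>
    IsJump W T t M M₀ n f V V' (u : ResidueField W)) (exists_isJump hS hCh hn hB hB' hf)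

omit [CharZero K] [Fact (Nat.Prime q)] in
omit [NeZero (q * r)] in
include hS hCh hn in
theorem jmp_eq (hB : Both W q T t M M₀ V) (hB' : Both W q T t M M₀ V')
    (hf : RootFun W q T n f) {z : ResidueField W} (h : IsJump W T t M M₀ n f V V' z) :
    (jmp W T t M M₀ n f V V' : ResidueField W) = z :=
  (jmp_spec hS hCh hn hB hB' hf).unique hS hn hB hB' hf.ne_zero h

omit [CharZero K] [Fact (Nat.Prime q)] in
omit [NeZero (q * r)] in
include hS hCh hn in
theorem jmp_mul (hB : Both W q T t M M₀ V) (hB' : Both W q T t M M₀ V')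
    (hf : RootFun W q T n f) (hf' : RootFun W q T n f') :
    jmp W T t M M₀ n (f * f') V V' =
      jmp W T t M M₀ n f V V' * jmp W T t M M₀ n f' V V' := by
  obtain ⟨x, x', z₁, z₂, hx, hx', h₁, h₂, hz₂, e⟩ := jmp_spec hS hCh hn hB hB' hf
  obtain ⟨y, y', u₁, u₂, hy, hy', g₁, g₂, hu₂, e'⟩ := jmp_spec hS hCh hn hB hB' hf'
  refine Units.ext (jmp_eq hS hCh hn hB hB' (hf.mul hf') ⟨x * y, x' * y', z₁ * u₁, z₂ * u₂,
    hx.mul hy, hx'.mul hy', h₁.mul hB.1 hB'.1 g₁, h₂.mul hB.2 hB'.2 g₂, mul_ne_zero hz₂ hu₂, ?_⟩)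
  rw [Units.val_mul, e, e', div_mul_div_comm]

omit [CharZero K] [Fact (Nat.Prime q)] in
omit [NeZero (q * r)] in
include hS hCh hn in
theorem jmp_prod (hB : Both W q T t M M₀ V) (hB' : Both W q T t M M₀ V') {ι : Type*}
    (s : Finset ι) {g : ι → F} (hg : ∀ i, RootFun W q T n (g i)) :
    jmp W T t M M₀ n (∏ i ∈ s, g i) V V' = ∏ i ∈ s, jmp W T t M M₀ n (g i) V V' := by
  classical
  induction s using Finset.induction_on with
  | empty =>
    rw [Finset.prod_empty, Finset.prod_empty]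
    have h := jmp_mul (f := (1 : F)) (f' := 1) hS hCh hn hB hB' RootFun.one RootFun.one
    rwa [mul_one, left_eq_mul] at h
  | @insert a s ha ih =>
    rw [Finset.prod_insert ha, Finset.prod_insert ha,
      jmp_mul hS hCh hn hB hB' (hg a) (RootFun.prod s hg), ih]

omit [CharZero K] [Fact (Nat.Prime q)] in
omit [NeZero (q * r)] in
include hS hCh hn in
theorem jmp_pow (hB : Both W q T t M M₀ V) (hB' : Both W q T t M M₀ V')
    (hf : RootFun W q T n f) (k : ℕ) :
    jmp W T t M M₀ n (f ^ k) V V' = jmp W T t M M₀ n f V V' ^ k := by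
  simpa using jmp_prod hS hCh hn hB hB' (Finset.range k) fun _ => hf

omit [CharZero K] [Fact (Nat.Prime q)] in
omit [NeZero (q * r)] in
include hS hCh hn in
theorem jmp_trans (hB : Both W q T t M M₀ V) (hB' : Both W q T t M M₀ V')
    (hB'' : Both W q T t M M₀ V'') (hf : RootFun W q T n f) :
    jmp W T t M M₀ n f V V'' =
      jmp W T t M M₀ n f V V' * jmp W T t M M₀ n f V' V'' := by
  obtain ⟨x, hx⟩ := hf.root V hB.2.vert
  obtain ⟨x', hx'⟩ := hf.root V' hB'.2.vert
  obtain ⟨x'', hx''⟩ := hf.root V'' hB''.2.vert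
  have hb := hS.base
  obtain ⟨a, -, ha⟩ := exists_isDelta hb hCh.cover (hCh.good M hB.1.point) hB.1 hB'.1 hn
    (hf.of_iff hCh.vert_iff) hx hx'
  obtain ⟨a', ha0, ha'⟩ := exists_isDelta hb hS.cover (hS.good₀ M₀ hB.2.point) hB.2 hB'.2 hn
    hf hx hx'
  obtain ⟨b, -, hb₁⟩ := exists_isDelta hb hCh.cover (hCh.good M hB.1.point) hB'.1 hB''.1 hn
    (hf.of_iff hCh.vert_iff) hx' hx''
  obtain ⟨b', hb0, hb₂⟩ := exists_isDelta hb hS.cover (hS.good₀ M₀ hB.2.point) hB'.2 hB''.2 hn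
    hf hx' hx''
  refine Units.ext ?_
  rw [Units.val_mul, jmp_eq hS hCh hn hB hB' hf ⟨x, x', a, a', hx, hx', ha, ha', ha0, rfl⟩,
    jmp_eq hS hCh hn hB' hB'' hf ⟨x', x'', b, b', hx', hx'', hb₁, hb₂, hb0, rfl⟩,
    jmp_eq hS hCh hn hB hB'' hf ⟨x, x'', a * b, a' * b', hx, hx'',
      ha.trans hb hB.1 hB'.1 hB''.1 hn hf.ne_zero hb₁,
      ha'.trans hb hB.2 hB'.2 hB''.2 hn hf.ne_zero hb₂, mul_ne_zero ha0 hb0, rfl⟩,
    div_mul_div_comm]

variable (hX : IsCross W q t M) (hX₀ : IsCross W q T M₀)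

omit [IsAlgClosed (ResidueField ↥W)] in
include hS hΔ hqr hCh hX hX₀ in
theorem Both.smul (hB : Both W q T t M M₀ V) (σ : L.levelFix) :
    Both W q T t M M₀ ((σ : F ≃ₐ[K] F) • V) :=
  ⟨hX.smul hS hΔ hqr hCh hB.1 σ, hX₀.smul hS hΔ hqr (isChart_self hS) hB.2 σ⟩

include hS hΔ hqr hCh hn hX hX₀ in
theorem jmp_smul (hB : Both W q T t M M₀ V) (hB' : Both W q T t M M₀ V')
    (hf : RootFun W q T n f) (σ : L.levelFix) :
    jmp W T t M M₀ n ((σ : F ≃ₐ[K] F) f) ((σ : F ≃ₐ[K] F) • V) ((σ : F ≃ₐ[K] F) • V') =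
      jmp W T t M M₀ n f V V' := by
  obtain ⟨x, x', z₁, z₂, hx, hx', h₁, h₂, hz₂, e⟩ := jmp_spec hS hCh hn hB hB' hf
  refine Units.ext ((jmp_eq hS hCh hn (hB.smul hS hΔ hqr hCh hX hX₀ σ)
    (hB'.smul hS hΔ hqr hCh hX hX₀ σ) (hf.conj ((isChart_self hS).fix σ))
    ⟨_, _, z₁, z₂, hx.smul _, hx'.smul _, h₁.apply (hX.fixes hS hΔ hqr hCh σ),
      h₂.apply (hX₀.fixes hS hΔ hqr (isChart_self hS) σ), hz₂, e⟩))

omit [CharZero K] [Fact (Nat.Prime q)] in
omit [NeZero (q * r)] in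
include hS hCh hn in
theorem jmp_const (hB : Both W q T t M M₀ V) (hB' : Both W q T t M M₀ V') {u g : F}
    (hu : IsConstUnit W q T u) (hg : g ≠ 0) (hf : RootFun W q T n (u * g ^ n)) :
    jmp W T t M M₀ n (u * g ^ n) V V' = 1 := by
  obtain ⟨w, hw⟩ := exists_root_const hS.base hS.unique_ext hS.cover hn hu
  have hroot : ∀ U, OnBranch W q T M₀ U → IsRootAt n U (u * g ^ n) (algebraMap K F w * g) :=
    fun U hU => (hw U (hU.vert.comap_algebraMap hS.base)).mul (isRootAt_pow_self hg)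
  exact Units.ext (jmp_eq hS hCh hn hB hB' hf ⟨_, _, 1, 1, hroot V hB.2, hroot V' hB'.2,
    isDelta_const hS.base hCh.cover hn (fun U hU => (hCh.vert_iff U).1 hU) hu hg hw hB.1,
    isDelta_const hS.base hS.cover hn (fun _ hU => hU) hu hg hw hB.2, one_ne_zero,
    by rw [Units.val_one, div_one]⟩)

open scoped Classical in
include hS hΔ hqr hCh hn hX hX₀ in
/-- **Averaging of jumps.** -/
theorem jmp_pow_eq_one [Fintype L.levelFix] (hf : RDatum W L T n f)
    (hB : Both W q T t M M₀ V) (hB' : Both W q T t M M₀ V') :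
    jmp W T t M M₀ n (f ^ (avgExp L * Fintype.card L.levelFix)) V V' = 1 := by
  set J := fun (g : F) (U U' : ValuationSubring F) => jmp W T t M M₀ n g U U'
  let S : Set (ValuationSubring F) := {U | Both W q T t M M₀ U}
  have hrf := hf.rootFun
  have hconj : ∀ τ : L.levelFix, RootFun W q T n ((τ : F ≃ₐ[K] F) f) := fun τ =>
    hrf.conj ((isChart_self hS).fix τ)
  have hsm : ∀ (τ : L.levelFix) {U}, Both W q T t M M₀ U →
      Both W q T t M M₀ ((τ : F ≃ₐ[K] F) • U) := fun τ U hU =>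
    hU.smul hS hΔ hqr hCh hX hX₀ τ
  let Φ : ValuationSubring F → L.levelFix → Additive (ResidueField W)ˣ := fun U τ =>
    Additive.ofMul (∏ ρ : L.levelFix, J ((τ : F ≃ₐ[K] F) f) U ((ρ : F ≃ₐ[K] F) • U))
  obtain ⟨R, hR⟩ := average hS hΔ hqr S (fun U hU => hU.2.vert) (fun σ U hU => hsm σ hU) Φ
    (fun U hU σ τ => by
      refine congrArg Additive.ofMul (Fintype.prod_equiv
        ((Equiv.mulLeft σ⁻¹).trans (Equiv.mulRight σ)) _ _ fun ρ => ?_)
      have h := jmp_smul hS hΔ hqr hCh hn hX hX₀ hU (hsm (σ⁻¹ * ρ * σ) hU) (hconj τ) σ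
      simp only [J, Equiv.trans_apply, Equiv.coe_mulLeft, Equiv.coe_mulRight]
      rw [← h, smul_smul, smul_smul]
      simp [mul_assoc])
    (fun U hU τ s hs => by
      refine congrArg Additive.ofMul (Finset.prod_congr rfl fun ρ _ => ?_)
      rw [Subgroup.coe_mul, AlgEquiv.mul_apply, hf.torus s hs])
    (fun _ => 0) (fun U hU i => by
      rw [← ofMul_prod, Finset.prod_comm, ← ofMul_one]
      refine congrArg Additive.ofMul (Finset.prod_eq_one fun ρ _ => ?_)
      rw [← jmp_prod hS hCh hn hU (hsm ρ hU) _ hconj]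
      obtain ⟨u, g, hu, e⟩ := hf.borel i
      have hrb : RootFun W q T n (bProd L i f) := RootFun.prod _ hconj
      show jmp W T t M M₀ n (bProd L i f) U _ = 1
      rw [e] at hrb ⊢
      exact jmp_const hS hCh hn hU (hsm ρ hU) hu
        (ne_zero_pow hn.ne' (right_ne_zero_of_mul hrb.ne_zero)) hrb)
  obtain ⟨ρ, rfl⟩ := hX₀.exists_smul_eq hS hΔ hqr (isChart_self hS) hB.2 hB'.2
  -- the normalised jumps at the two components differ by a power of the jump
  have hrel : ∏ σ : L.levelFix, J f ((ρ : F ≃ₐ[K] F) • V)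
        ((σ : F ≃ₐ[K] F) • (ρ : F ≃ₐ[K] F) • V) =
      J f ((ρ : F ≃ₐ[K] F) • V) V ^ Fintype.card L.levelFix *
        ∏ σ : L.levelFix, J f V ((σ : F ≃ₐ[K] F) • V) := by
    rw [← Finset.card_univ, ← Finset.prod_const, ← Finset.prod_mul_distrib]
    refine Fintype.prod_equiv (Equiv.mulRight ρ) _ _ fun σ => ?_
    simp only [J, Equiv.coe_mulRight, Subgroup.coe_mul, smul_smul]
    exact jmp_trans hS hCh hn hB' hB (hsm (σ * ρ) hB) hrf
  have h1 := hR _ hB
  have h2 := hR _ (hsm ρ hB)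
  simp only [Φ, ← ofMul_pow, OneMemClass.coe_one, AlgEquiv.one_apply] at h1 h2
  have h3 := Additive.ofMul.injective (h2.trans h1.symm)
  rw [hrel, mul_pow, mul_eq_right, ← pow_mul] at h3
  have hinv : J f V ((ρ : F ≃ₐ[K] F) • V) * J f ((ρ : F ≃ₐ[K] F) • V) V = 1 := by
    rw [← jmp_trans hS hCh hn hB hB' hB hrf]
    have h := jmp_trans hS hCh hn hB hB hB hrf
    rwa [left_eq_mul] at h
  rw [mul_comm] at h3
  rw [jmp_pow hS hCh hn hB (hsm ρ hB) hrf]
  have h4 := congrArg (· ^ (avgExp L * Fintype.card L.levelFix)) hinv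
  simp only [mul_pow, one_pow] at h4
  rwa [h3, mul_one] at h4

end Fermat.Agent.Carayol.Kill
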