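import Fermat.Agent.Carayol.Fiber

/-!
# The action on the lines of `q`-torsion

The automorphisms fixing the level-`r` structure act faithfully on the `q`-torsion; the inertia
groups of components with two different kernel lines generate all of them.

Main result: `qMat_injective`.
-/

set_option autoImplicit false

open Polynomial
open scoped Pointwise

namespace Fermat.Agent.Carayol.Kill

variable {K F : Type*} [Field K] [Field F] [DecidableEq F] [Algebra K F]
  {fam : WeierstrassCurve ℤ[X]} {q r : ℕ} (L : LevelData K F fam q r)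

theorem mem_autGroup_of_levelFix {σ : F ≃ₐ[K] F} (h : σ ∈ L.levelFix) : σ ∈ L.autGroup := h.1

/-- The action of the level-fixing automorphisms on the points. -/
noncomputable def gAct (σ : L.levelFix) : L.curve.toAffine.Point →+ L.curve.toAffine.Point :=
  L.act (mem_autGroup_of_levelFix L σ.2)

theorem gAct_mul (σ τ : L.levelFix) (P : L.curve.toAffine.Point) :
    gAct L (σ * τ) P = gAct L σ (gAct L τ P) :=
  L.act_mul _ _ _ P

theorem gAct_one (P : L.curve.toAffine.Point) : gAct L 1 P = P := L.act_one _ P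

theorem gAct_injective (σ : L.levelFix) : Function.Injective (gAct L σ) :=
  pointAct_injective _ _ _

theorem nsmul_lineGen (i : Fin 2) : q • L.lineGen i = 0 := by
  have h : q • (r : ZMod (q * r)) = 0 := by
    rw [nsmul_eq_mul, ← Nat.cast_mul, ZMod.natCast_self]
  rw [LevelData.lineGen, ← map_nsmul]
  split_ifs <;> simp [Prod.smul_mk, h, Prod.mk_zero_zero, map_zero]

/-- The coordinates of the `q`-torsion. -/
noncomputable def qPt : (Fin 2 → ZMod q) →+ L.curve.toAffine.Point :=
  AddMonoidHom.mk'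
    (fun v => ZMod.lift q ⟨zmultiplesHom _ (L.lineGen 0), by simpa using nsmul_lineGen L 0⟩ (v 0) +
      ZMod.lift q ⟨zmultiplesHom _ (L.lineGen 1), by simpa using nsmul_lineGen L 1⟩ (v 1))
    fun v w => by simp only [Pi.add_apply, map_add]; abel

theorem qPt_apply [NeZero q] (v : Fin 2 → ZMod q) :
    qPt L v = (v 0).val • L.lineGen 0 + (v 1).val • L.lineGen 1 := by
  simp only [qPt, AddMonoidHom.mk'_apply]
  congr 1
  · rw [show ZMod.lift q ⟨zmultiplesHom _ (L.lineGen 0), by simpa using nsmul_lineGen L 0⟩ (v 0) =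
        ZMod.lift q ⟨zmultiplesHom _ (L.lineGen 0), by simpa using nsmul_lineGen L 0⟩
          (((v 0).val : ℤ) : ZMod q) by rw [Int.cast_natCast, ZMod.natCast_zmod_val], ZMod.lift_coe]
    exact natCast_zsmul _ _
  · rw [show ZMod.lift q ⟨zmultiplesHom _ (L.lineGen 1), by simpa using nsmul_lineGen L 1⟩ (v 1) =
        ZMod.lift q ⟨zmultiplesHom _ (L.lineGen 1), by simpa using nsmul_lineGen L 1⟩
          (((v 1).val : ℤ) : ZMod q) by rw [Int.cast_natCast, ZMod.natCast_zmod_val], ZMod.lift_coe]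
    exact natCast_zsmul _ _

theorem nsmul_qPt [NeZero q] (v : Fin 2 → ZMod q) : q • qPt L v = 0 := by
  rw [← map_nsmul, show q • v = 0 from funext fun i => by simp, map_zero]

theorem qPt_single [Fact q.Prime] (i : Fin 2) : qPt L (Pi.single i 1) = L.lineGen i := by
  rw [qPt_apply]
  fin_cases i <;> simp [ZMod.val_one]

theorem qPt_injective [Fact q.Prime] [NeZero (q * r)] : Function.Injective (qPt L) := by
  rw [injective_iff_map_eq_zero]
  intro v hv
  have h : L.basis ((((v 0).val * r : ℕ) : ZMod (q * r)), (((v 1).val * r : ℕ) : ZMod (q * r))) =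
      0 := by
    rw [← hv, qPt_apply, LevelData.lineGen, LevelData.lineGen, if_pos rfl,
      if_neg (by decide), ← map_nsmul, ← map_nsmul, ← map_add]
    simp [nsmul_eq_mul]
  have h' := L.injective_basis (h.trans (map_zero _).symm)
  simp only [Prod.mk_eq_zero, ZMod.natCast_eq_zero_iff] at h'
  have hr : 0 < r := Nat.pos_of_ne_zero (right_ne_zero_of_mul (NeZero.ne (q * r)))
  funext i
  have key : ∀ a : ZMod q, q * r ∣ a.val * r → a = 0 := fun a ha => by
    rw [← ZMod.natCast_zmod_val a, ZMod.natCast_eq_zero_iff]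
    exact Nat.dvd_of_mul_dvd_mul_right hr ha
  fin_cases i
  · exact key _ h'.1
  · exact key _ h'.2

variable [CharZero K] [NeZero (q * r)] [Fact q.Prime]

theorem exists_qPt_eq (hΔ : fam.Δ ≠ 0) {P : L.curve.toAffine.Point} (hP : q • P = 0) :
    ∃ v, qPt L v = P := by
  have hqr : (q * r) • P = 0 := by rw [mul_comm, mul_nsmul', hP, nsmul_zero]
  obtain ⟨v, rfl⟩ := L.exists_basis_eq hΔ P hqr
  have hv : q • v = 0 := L.injective_basis (by rw [map_nsmul, hP, map_zero])
  have hq : 0 < q := (Fact.out : q.Prime).pos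
  have key : ∀ x : ZMod (q * r), q • x = 0 → ∃ a : ℕ, ((a * r : ℕ) : ZMod (q * r)) = x := by
    intro x hx
    rw [nsmul_eq_mul, ← ZMod.natCast_zmod_val x, ← Nat.cast_mul, ZMod.natCast_eq_zero_iff] at hx
    obtain ⟨a, ha⟩ := Nat.dvd_of_mul_dvd_mul_left hq hx
    exact ⟨a, by rw [mul_comm a, ← ha, ZMod.natCast_zmod_val]⟩
  obtain ⟨a, ha⟩ := key v.1 (congrArg Prod.fst hv)
  obtain ⟨b, hb⟩ := key v.2 (congrArg Prod.snd hv)
  refine ⟨a • Pi.single 0 1 + b • Pi.single 1 1, ?_⟩
  rw [map_add, map_nsmul, map_nsmul, qPt_single, qPt_single, LevelData.lineGen, LevelData.lineGen,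
    if_pos rfl, if_neg (by decide), ← map_nsmul, ← map_nsmul, ← map_add]
  congr 1
  refine Prod.ext ?_ ?_
  · simp [← ha]
  · simp [← hb]

variable (hΔ : fam.Δ ≠ 0)

include hΔ in
theorem exists_mat (σ : L.levelFix) :
    ∃ M : Matrix (Fin 2) (Fin 2) (ZMod q), ∀ v, gAct L σ (qPt L v) = qPt L (M.mulVec v) := by
  choose c hc using fun j => exists_qPt_eq L hΔ (P := gAct L σ (L.lineGen j))
    (by rw [← map_nsmul, nsmul_lineGen, map_zero])
  refine ⟨Matrix.of fun i j => c j i, fun v => ?_⟩
  have hv : (Matrix.of fun i j => c j i).mulVec v = (v 0).val • c 0 + (v 1).val • c 1 := by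
    funext i
    simp only [Matrix.mulVec, dotProduct, Fin.sum_univ_two, Matrix.of_apply, Pi.add_apply,
      Pi.mul_apply, Pi.natCast_apply, nsmul_eq_mul, ZMod.natCast_zmod_val]
    ring
  rw [hv, qPt_apply, map_add, map_add, map_nsmul, map_nsmul, map_nsmul, map_nsmul, hc, hc]

/-- The matrix of an automorphism on the `q`-torsion. -/
noncomputable def qMat (σ : L.levelFix) : Matrix (Fin 2) (Fin 2) (ZMod q) :=
  (exists_mat L hΔ σ).choose

theorem gAct_qPt (σ : L.levelFix) (v : Fin 2 → ZMod q) :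
    gAct L σ (qPt L v) = qPt L ((qMat L hΔ σ).mulVec v) :=
  (exists_mat L hΔ σ).choose_spec v

theorem qMat_mul (σ τ : L.levelFix) : qMat L hΔ (σ * τ) = qMat L hΔ σ * qMat L hΔ τ := by
  refine Matrix.ext_of_mulVec_single fun i => qPt_injective L ?_
  rw [← gAct_qPt, gAct_mul, gAct_qPt L hΔ τ, gAct_qPt L hΔ σ, Matrix.mulVec_mulVec]

theorem qMat_one : qMat L hΔ 1 = 1 := by
  refine Matrix.ext_of_mulVec_single fun i => qPt_injective L ?_
  rw [← gAct_qPt, gAct_one, Matrix.one_mulVec]

theorem qMat_mulVec_ne_zero (σ : L.levelFix) {v : Fin 2 → ZMod q} (hv : v ≠ 0) :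
    (qMat L hΔ σ).mulVec v ≠ 0 := fun h => hv (qPt_injective L (gAct_injective L σ (by
  rw [gAct_qPt L hΔ, h, map_zero, map_zero])))

variable (hqr : r.Coprime q)

include hqr in
/-- **Faithfulness.** -/
theorem qMat_injective : Function.Injective (qMat L hΔ) := by
  suffices h : ∀ σ, qMat L hΔ σ = 1 → σ = 1 by
    intro σ τ e
    refine eq_of_inv_mul_eq_one (h _ ?_)
    rw [qMat_mul, ← e, ← qMat_mul, inv_mul_cancel, qMat_one]
  intro σ hσ
  have hfix : ∀ v, gAct L σ (L.basis v) = L.basis v := by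
    intro v
    obtain ⟨a, b, hab⟩ : ∃ a b : ℤ, a * (r : ℤ) + b * (q : ℤ) = 1 :=
      Nat.isCoprime_iff_coprime.mpr hqr
    have hsplit : L.basis v = a • (r • L.basis v) + L.basis (q • (b • v)) := by
      rw [map_nsmul, map_zsmul, ← natCast_zsmul (L.basis v) r,
        ← natCast_zsmul (b • L.basis v) q, smul_smul, smul_smul, ← add_smul, mul_comm (q : ℤ) b,
        hab, one_smul]
    have h1 : gAct L σ (r • L.basis v) = r • L.basis v := by
      obtain ⟨w, hw⟩ := exists_qPt_eq L hΔ (P := r • L.basis v) (by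
        rw [smul_smul]; exact L.nsmul_basis v)
      rw [← hw, gAct_qPt L hΔ, hσ, Matrix.one_mulVec]
    obtain ⟨_, h2⟩ := σ.2
    conv_lhs => rw [hsplit]
    conv_rhs => rw [hsplit]
    rw [map_add, map_zsmul, h1, show gAct L σ (L.basis (q • (b • v))) = _ from h2 (b • v)]
  refine Subtype.ext (AlgEquiv.ext fun x => ?_)
  have key : ∀ z ∈ insert L.par (⋃ v, pointCoords (L.basis v)), (σ : F ≃ₐ[K] F) z = z := by
    rintro z (rfl | hz)
    · exact mem_autGroup_of_levelFix L σ.2
    · obtain ⟨v, hv⟩ := Set.mem_iUnion.mp hz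
      have e := hfix v
      rcases hb : L.basis v with _ | ⟨x, y, hn⟩
      · rw [hb] at hv; exact hv.elim
      · rw [hb] at hv e
        obtain ⟨_, e'⟩ := pointAct_some (σ : F ≃ₐ[K] F).toAlgHom.toRingHom L.curve
          (L.map_curve (mem_autGroup_of_levelFix L σ.2)) hn
        have e'' := e'.symm.trans e
        rw [WeierstrassCurve.Affine.Point.some.injEq] at e''
        rcases hv with rfl | rfl
        exacts [e''.1, e''.2]
  have hle : IntermediateField.adjoin K (insert L.par (⋃ v, pointCoords (L.basis v))) ≤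
      IntermediateField.fixedField (Subgroup.zpowers (σ : F ≃ₐ[K] F)) := by
    rw [IntermediateField.adjoin_le_iff]
    rintro z hz ⟨g, hg⟩
    exact MulAction.mem_stabilizer_iff.1
      ((Subgroup.zpowers_le (H := MulAction.stabilizer (F ≃ₐ[K] F) z)).2
        (MulAction.mem_stabilizer_iff.2 (key z hz)) hg)
  have hx : x ∈ IntermediateField.fixedField (Subgroup.zpowers (σ : F ≃ₐ[K] F)) :=
    hle (by rw [L.adjoin_eq_top]; exact IntermediateField.mem_top)
  exact hx ⟨σ, Subgroup.mem_zpowers _⟩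

end Fermat.Agent.Carayol.Kill
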