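import Fermat.Agent.Carayol.Kill.Valuation
import Fermat.Agent.Carayol.LocalGen
import Fermat.Agent.Carayol.Setup
import Mathlib.RingTheory.UniqueFactorizationDomain.Multiplicity
import Mathlib.RingTheory.LocalRing.LocalSubring

/-!
# The local ring at a good point

The local ring at a good point of the special fibre: branches, values of roots along branches,
and the `n`th power decomposition.

Main result: `exists_local_power`.
-/

set_option autoImplicit false

open Polynomial

namespace Fermat.Agent.Carayol.Kill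

variable {K F : Type*} [Field K] [Field F] [Algebra K F]
  {W : ValuationSubring K} {q : ℕ} {t : F} {M V : ValuationSubring F}

theorem chart_le_of_point (hM : IsPoint W q t M) : chart W t ≤ M.toSubring := fun _ hx =>
  mem_valuationSubring_of_mem_chart hx hM.evW_mem

theorem isLocalRing_locRing (hM : IsPoint W q t M) : IsLocalRing (locRing W t M) :=
  isLocalRing_locAt (chart_le_of_point hM)

theorem isUnit_locRing_iff (hM : IsPoint W q t M) (x : locRing W t M) :
    IsUnit x ↔ (x : F) ∉ M.nonunits :=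
  isUnit_locAt_iff (chart_le_of_point hM) x

theorem isNoetherianRing_locRing (hb : BaseData W q) (hc : Cover K t) (hM : IsPoint W q t M) :
    IsNoetherianRing (locRing W t M) := by
  have := isNoetherianRing_chart hb hc
  exact isNoetherianRing_locAt (chart_le_of_point hM)

/-- The branch of a component at a point: `z` generates its prime and `z`, `w` the maximal
ideal. -/
structure Branch (W : ValuationSubring K) (t : F) (M V : ValuationSubring F)
    (z w : locRing W t M) : Prop where
  mem_iff : ∀ x : locRing W t M, (x : F) ∈ V.nonunits ↔ z ∣ x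
  prime : Prime z
  z_mem : (z : F) ∈ M.nonunits
  w_mem : (w : F) ∈ M.nonunits
  w_notMem : (w : F) ∉ V.nonunits
  gen : ∀ x : locRing W t M, (x : F) ∈ M.nonunits → x ∈ Ideal.span {z, w}

variable (hb : BaseData W q) (hc : Cover K t)
  (hM : IsPoint W q t M) (hg : GoodPoint W q t M)

include hb hc hM hg in
theorem exists_branch (hV : IsVert W q t V) (hT : Through W t M V) :
    ∃ z w : locRing W t M, Branch W t M V z w ∧ UniqueFactorizationMonoid (locRing W t M) := by
  have := isLocalRing_locRing hM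
  have := isNoetherianRing_locRing hb hc hM
  obtain ⟨z, w, hzV, hzR, hzM, hwR, hwM, hgen⟩ := hg.exists_gen V hV hT
  have hle := hT.locRing_le hV.evW_mem
  let ι : locRing W t M →+* V := Subring.inclusion hle
  let P := (IsLocalRing.maximalIdeal V).comap ι
  have hP : P.IsPrime := Ideal.IsPrime.comap ι
  have hPi : ∀ x : locRing W t M, x ∈ P ↔ (x : F) ∈ V.nonunits := fun x => by
    rw [Ideal.mem_comap, ValuationSubring.mem_nonunits_iff_exists_mem_maximalIdeal]
    exact ⟨fun h => ⟨hle x.2, h⟩, fun ⟨_, h⟩ => h⟩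
  have hmax : ∀ x : locRing W t M,
      x ∈ IsLocalRing.maximalIdeal (locRing W t M) ↔ (x : F) ∈ M.nonunits :=
    mem_maximalIdeal_locAt (chart_le_of_point hM)
  have hm : IsLocalRing.maximalIdeal (locRing W t M) = Ideal.span {⟨z, hzR⟩, ⟨w, hwR⟩} := by
    refine le_antisymm (fun x hx => ?_) ?_
    · obtain ⟨a, ha, b, hb', e⟩ := hgen x x.2 ((hmax x).1 hx)
      exact Ideal.mem_span_pair.2 ⟨⟨a, ha⟩, ⟨b, hb'⟩, Subtype.ext e.symm⟩
    · rw [Ideal.span_le]
      rintro x (rfl | rfl)
      exacts [(hmax _).2 hzM, (hmax _).2 hwM]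
  obtain ⟨c, hc'⟩ := hM.exists_par
  have hPm : P ≠ IsLocalRing.maximalIdeal (locRing W t M) := fun h => by
    refine hV.par_sub_notMem hc.transcendental c ?_
    have hx : t - algebraMap K F c ∈ locRing W t M :=
      chart_le_locRing (sub_mem par_mem_chart (algebraMap_mem_chart c))
    exact (hPi ⟨_, hx⟩).1 (h ▸ (hmax ⟨_, hx⟩).2 hc')
  have hzP : (⟨z, hzR⟩ : locRing W t M) ∈ P := (hPi _).2 hzV
  have hspan := eq_span_of_two_generated hm hP hzP hPm
  have hz0 : (⟨z, hzR⟩ : locRing W t M) ≠ 0 := fun h => by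
    rw [h, Ideal.span_singleton_eq_bot.2 rfl] at hspan
    have hq : (q : locRing W t M) ∈ P := (hPi _).2 (by simpa using hV.q_mem)
    rw [hspan, Ideal.mem_bot] at hq
    exact q_ne_zero (F := F) hb (by simpa using congrArg Subtype.val hq)
  refine ⟨⟨z, hzR⟩, ⟨w, hwR⟩, ⟨fun x => ?_, prime_of_two_generated hm hP hzP hPm hz0, hzM, hwM,
    fun h => notMem_of_two_generated hm hP hzP hPm ((hPi _).2 h), fun x hx => ?_⟩,
    uniqueFactorizationMonoid_of_two_generated hm hP hzP hPm hz0⟩
  · rw [← hPi, hspan, Ideal.mem_span_singleton]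
  · rw [← hm]; exact (hmax x).2 hx

include hb hc in
/-- Every element is a fraction of the local ring. -/
theorem exists_locRing_div (x : F) :
    ∃ a b : locRing W t M, (b : F) ≠ 0 ∧ x = (a : F) / b := by
  obtain ⟨a, ha, b, hb0, e⟩ := exists_chart_div hb hc x
  exact ⟨⟨a, chart_le_locRing ha⟩, ⟨_, chart_le_locRing (evW_mem_chart b)⟩, hb0, by
    show x = a / evW W t b
    rw [← e, mul_div_cancel_right₀ _ hb0]⟩

/-- A fraction which is a unit at the prime `p` is a fraction of elements prime to `p`. -/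
theorem exists_frac_notMem {R : Subring F} [UniqueFactorizationMonoid R]
    {U : ValuationSubring F} {p : R} (hp : Prime p) (hle : R ≤ U.toSubring)
    (hP : ∀ x : R, (x : F) ∈ U.nonunits ↔ p ∣ x) {a b : R} (hb0 : (b : F) ≠ 0) {y : F}
    (hy : U.valuation y = 1) (e : y = (a : F) / b) :
    ∃ a' b' : R, ¬p ∣ a' ∧ ¬p ∣ b' ∧ y = (a' : F) / b' := by
  have ha0 : (a : F) ≠ 0 := fun h => ne_zero_of_val hy (by rw [e, h, zero_div])
  obtain ⟨i, a', ha', rfl⟩ := WfDvdMonoid.max_power_factor
    (show a ≠ 0 from fun h => ha0 (by simp [h])) hp.irreducible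
  obtain ⟨j, b', hb', rfl⟩ := WfDvdMonoid.max_power_factor
    (show b ≠ 0 from fun h => hb0 (by simp [h])) hp.irreducible
  have hval : ∀ x : R, ¬p ∣ x → U.valuation (x : F) = 1 := fun x hx =>
    val_eq_one_iff.2 ⟨hle x.2, fun h => hx ((hP x).1 h)⟩
  have hp0 : (p : F) ≠ 0 := fun h => hp.ne_zero (Subtype.ext h)
  have hpow := hy
  simp only [e, Subring.coe_mul, SubmonoidClass.coe_pow, map_div₀, map_mul, map_pow,
    hval a' ha', hval b' hb', mul_one] at hpow
  have hij : i = j := by
    rw [div_eq_one_iff_eq (pow_ne_zero _ ((Valuation.ne_zero_iff _).2 hp0))] at hpow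
    refine pow_right_injective₀ (zero_lt_iff.2 ((Valuation.ne_zero_iff _).2 hp0))
      (ne_of_lt ?_) hpow
    exact (U.mem_nonunits_iff).1 ((hP p).2 dvd_rfl)
  subst hij
  refine ⟨a', b', ha', hb', ?_⟩
  rw [e, Subring.coe_mul, Subring.coe_mul, mul_div_mul_left _ _ (by simp [hp0])]

include hb hc hM in
/-- **Values along a branch.** An `n`th root, along a component, of a unit of the local ring is
congruent along it to a unit of the local ring. -/
theorem exists_branch_value [UniqueFactorizationMonoid (locRing W t M)] (hV : IsVert W q t V)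
    (hT : Through W t M V) {z w : locRing W t M} (hB : Branch W t M V z w) {n : ℕ} (hn : 0 < n)
    {y : F} (hy : V.valuation y = 1) {u : F} (hu : u ∈ locRing W t M) (huM : u ∉ M.nonunits)
    (h : y ^ n - u ∈ V.nonunits) :
    ∃ e ∈ locRing W t M, e ∉ M.nonunits ∧ e - y ∈ V.nonunits := by
  have := isLocalRing_locRing hM
  have := isNoetherianRing_locRing hb hc hM
  have hle := hT.locRing_le hV.evW_mem
  obtain ⟨a, b, hb0, eab⟩ := exists_locRing_div (M := M) hb hc y
  obtain ⟨a, b, ha, hb', rfl⟩ := exists_frac_notMem hB.prime hle hB.mem_iff hb0 hy eab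
  have hm : IsLocalRing.maximalIdeal (locRing W t M) = Ideal.span {z, w} := by
    refine le_antisymm (fun x hx => hB.gen x ?_) ?_
    · exact (mem_maximalIdeal_locAt (chart_le_of_point hM) x).1 hx
    · rw [Ideal.span_le]
      rintro x (rfl | rfl)
      exacts [(mem_maximalIdeal_locAt (chart_le_of_point hM) _).2 hB.z_mem,
        (mem_maximalIdeal_locAt (chart_le_of_point hM) _).2 hB.w_mem]
  obtain ⟨k, u₁, hu₁, h₁⟩ := exists_unit_mul_pow_add hm (x := a)
    (by rwa [Ideal.mem_span_singleton])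
  obtain ⟨l, u₂, hu₂, h₂⟩ := exists_unit_mul_pow_add hm (x := b)
    (by rwa [Ideal.mem_span_singleton])
  rw [Ideal.mem_span_singleton, ← hB.mem_iff] at h₁ h₂
  simp only [AddSubgroupClass.coe_sub, Subring.coe_mul, SubmonoidClass.coe_pow] at h₁ h₂
  rw [isUnit_locRing_iff hM] at hu₁ hu₂
  have hunit : ∀ x : F, x ∈ locRing W t M → x ∉ M.nonunits → V.valuation x = 1 := fun x hx hxn =>
    val_eq_one_iff.2 ⟨hle hx, fun hh => hxn (hT.nonunits hM.evW_mem hx hh hV.evW_mem)⟩
  have hu₁V := hunit _ u₁.2 hu₁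
  have hu₂V := hunit _ u₂.2 hu₂
  have hwV : V.valuation (w : F) = 1 := val_eq_one_iff.2 ⟨hle w.2, hB.w_notMem⟩
  have hbV : V.valuation (b : F) = 1 :=
    val_eq_one_iff.2 ⟨hle b.2, fun hh => hb' ((hB.mem_iff b).1 hh)⟩
  have hb2 : V.valuation ((w : F) ^ l * u₂) = 1 := by
    rw [map_mul, map_pow, hwV, hu₂V, one_pow, mul_one]
  -- the value along the branch
  have hcong : (a : F) / b - (w : F) ^ k * u₁ / ((w : F) ^ l * u₂) ∈ V.nonunits := by
    have key : ∀ A B C D : F, B ≠ 0 → D ≠ 0 →
        A / B - C / D = B⁻¹ * D⁻¹ * ((A - C) * D - (B - D) * C) := fun A B C D hB hD => by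
      rw [div_sub_div _ _ hB hD, div_eq_inv_mul, mul_inv]
      ring
    rw [key _ _ _ _ (ne_zero_of_val hbV) (ne_zero_of_val hb2)]
    refine nonunits_mul_left (mul_mem (val_eq_one_iff_inv.1 hbV).2.2
      (val_eq_one_iff_inv.1 hb2).2.2) (sub_mem_nonunits (nonunits_mul_right (mem_of_val hb2) h₁)
        (nonunits_mul_right (hle (mul_mem (pow_mem w.2 _) u₁.2)) h₂))
  have hpow : ((w : F) ^ k * u₁) ^ n - u * ((w : F) ^ l * u₂) ^ n ∈ V.nonunits := by
    have h' := congr_pow (mem_of_val hy) (y := (w : F) ^ k * u₁ / ((w : F) ^ l * u₂))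
      (by
        rw [div_eq_mul_inv]
        exact V.mul_mem _ _ (hle (mul_mem (pow_mem w.2 _) u₁.2)) (val_eq_one_iff_inv.1 hb2).2.2)
          hcong n
    rw [show ((w : F) ^ k * u₁) ^ n - u * ((w : F) ^ l * u₂) ^ n =
        (((a : F) / b) ^ n - u - (((a : F) / b) ^ n -
          ((w : F) ^ k * u₁ / ((w : F) ^ l * u₂)) ^ n)) * ((w : F) ^ l * u₂) ^ n by
      rw [sub_sub_sub_cancel_left, sub_mul, div_pow _ ((w : F) ^ l * u₂),
        div_mul_cancel₀ _ (pow_ne_zero n (ne_zero_of_val hb2))]]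
    exact nonunits_mul_right (pow_mem (mem_of_val hb2) _) (sub_mem_nonunits h h')
  have hwpow : ∀ i : ℕ, 0 < i → (w : F) ^ i ∈ M.nonunits := fun i hi =>
    (pow_mem_nonunits_iff hi.ne').2 hB.w_mem
  have hMm : ∀ x ∈ locRing W t M, x ∈ M := fun x hx => locRing_le hM.evW_mem hx
  have hkl : k = l := by
    by_contra hne
    rcases Nat.lt_or_gt_of_ne hne with hlt | hlt
    · obtain ⟨i, rfl⟩ := Nat.exists_eq_add_of_lt hlt
      have hs : (u₁ : F) ^ n - u * ((w : F) ^ ((i + 1) * n) * (u₂ : F) ^ n) ∈ locRing W t M :=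
        sub_mem (pow_mem u₁.2 _) (mul_mem hu (mul_mem (pow_mem w.2 _) (pow_mem u₂.2 _)))
      have hsV : (u₁ : F) ^ n - u * ((w : F) ^ ((i + 1) * n) * (u₂ : F) ^ n) ∈ V.nonunits := by
        have hwk : V.valuation ((w : F) ^ (k * n)) = 1 := by rw [map_pow, hwV, one_pow]
        rw [show (u₁ : F) ^ n - u * ((w : F) ^ ((i + 1) * n) * (u₂ : F) ^ n) =
          ((w : F) ^ (k * n))⁻¹ * (((w : F) ^ k * u₁) ^ n - u * ((w : F) ^ (k + i + 1) * u₂) ^ n) by
          rw [eq_inv_mul_iff_mul_eq₀ (ne_zero_of_val hwk)]; ring]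
        exact nonunits_mul_left (val_eq_one_iff_inv.1 hwk).2.2 hpow
      refine pow_notMem_nonunits hu₁ n ?_
      rw [← sub_add_cancel ((u₁ : F) ^ n) (u * ((w : F) ^ ((i + 1) * n) * (u₂ : F) ^ n))]
      exact add_mem_nonunits (hT.nonunits hM.evW_mem hs hsV hV.evW_mem) (nonunits_mul_left
        (hMm u hu) (nonunits_mul_right (hMm _ (pow_mem u₂.2 _)) (hwpow _ (by positivity))))
    · obtain ⟨i, rfl⟩ := Nat.exists_eq_add_of_lt hlt
      have hs : (w : F) ^ ((i + 1) * n) * (u₁ : F) ^ n - u * (u₂ : F) ^ n ∈ locRing W t M :=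
        sub_mem (mul_mem (pow_mem w.2 _) (pow_mem u₁.2 _)) (mul_mem hu (pow_mem u₂.2 _))
      have hsV : (w : F) ^ ((i + 1) * n) * (u₁ : F) ^ n - u * (u₂ : F) ^ n ∈ V.nonunits := by
        have hwk : V.valuation ((w : F) ^ (l * n)) = 1 := by rw [map_pow, hwV, one_pow]
        rw [show (w : F) ^ ((i + 1) * n) * (u₁ : F) ^ n - u * (u₂ : F) ^ n =
          ((w : F) ^ (l * n))⁻¹ * (((w : F) ^ (l + i + 1) * u₁) ^ n - u * ((w : F) ^ l * u₂) ^ n) by
          rw [eq_inv_mul_iff_mul_eq₀ (ne_zero_of_val hwk)]; ring]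
        exact nonunits_mul_left (val_eq_one_iff_inv.1 hwk).2.2 hpow
      refine mul_notMem_nonunits huM (pow_notMem_nonunits hu₂ n) ?_
      rw [← sub_sub_cancel ((w : F) ^ ((i + 1) * n) * (u₁ : F) ^ n) (u * (u₂ : F) ^ n)]
      exact sub_mem_nonunits (nonunits_mul_right (hMm _ (pow_mem u₁.2 _)) (hwpow _ (by positivity)))
        (hT.nonunits hM.evW_mem hs hsV hV.evW_mem)
  subst hkl
  refine ⟨(u₁ : F) * (u₂ : F)⁻¹, mul_mem u₁.2 (inv_mem_locRing hM.evW_mem u₂.2 hu₂),
    mul_notMem_nonunits hu₁ (fun h => ?_), ?_⟩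
  · have h' := nonunits_mul_right (hMm _ u₂.2) h
    rw [inv_mul_cancel₀ (ne_zero_of_notMem_nonunits hu₂)] at h'
    exact one_notMem_nonunits M h'
  · rw [mul_div_mul_left _ _ (pow_ne_zero _ (ne_zero_of_val hwV)), div_eq_mul_inv (u₁ : F)] at hcong
    rw [← neg_sub, show ∀ x : F, -x = (-1) * x from fun x => (neg_one_mul x).symm]
    exact nonunits_mul_left (neg_mem V.one_mem) hcong

/-- A valuation ring containing `W` in which `q` is invertible contains `K`. -/
theorem algebraMap_mem_of_inv {U : ValuationSubring F} (hb : BaseData W q)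
    (hW : ∀ w : W, algebraMap K F w ∈ U) (hq : ((q : F))⁻¹ ∈ U) (c : K) :
    algebraMap K F c ∈ U := by
  have := hb.dvr
  have := hb.charZero
  have hirr : Irreducible (q : W) :=
    (IsDiscreteValuationRing.irreducible_iff_uniformizer _).mpr hb.uniformizer
  obtain ⟨a, b, hb0, rfl⟩ := IsFractionRing.div_surjective (A := W) c
  obtain ⟨i, u, rfl⟩ := IsDiscreteValuationRing.eq_unit_mul_pow_irreducible
    (nonZeroDivisors.ne_zero hb0) hirr
  have e : algebraMap K F ((algebraMap W K a) / algebraMap W K (u * (q : W) ^ i)) =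
      algebraMap K F ((a * (u⁻¹ : Wˣ) : W) : K) * ((q : F))⁻¹ ^ i := by
    have hinv : algebraMap W K ((u⁻¹ : Wˣ) : W) = (algebraMap W K (u : W))⁻¹ :=
      (map_units_inv (algebraMap W K) u)
    have hcoe : ((a * (u⁻¹ : Wˣ) : W) : K) = algebraMap W K a * (algebraMap W K (u : W))⁻¹ := by
      rw [← hinv, ← map_mul]; rfl
    rw [hcoe, map_div₀, map_mul (algebraMap W K), map_pow, map_natCast, map_mul, map_mul,
      map_inv₀, map_pow, map_natCast, inv_pow, div_eq_mul_inv, mul_inv, mul_assoc]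
  rw [e]
  exact U.mul_mem _ _ (hW _) (pow_mem hq _)

include hb hc hM hg in
/-- **The function is, at the point, an `n`th power times a unit.** -/
theorem exists_local_power {n : ℕ} (hn : 0 < n) {f : F} (hf : f ≠ 0)
    (hloc : IsNthPowerLocally K n f)
    (hroot : ∀ V, IsVert W q t V → Through W t M V → ∃ r : F, V.valuation (r ^ n / f) = 1) :
    ∃ g : F, g ≠ 0 ∧ f / g ^ n ∈ locRing W t M ∧ g ^ n / f ∈ locRing W t M := by
  classical
  obtain ⟨V₀, hV₀, hT₀⟩ := exists_through hb hc hM
  obtain ⟨z₀, w₀, -, hufd⟩ := exists_branch hb hc hM hg hV₀ hT₀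
  obtain ⟨a, b, hb0, rfl⟩ := exists_locRing_div (M := M) hb hc f
  have ha0 : (a : F) ≠ 0 := fun h => hf (by rw [h, zero_div])
  obtain ⟨m, rfl⟩ : ∃ m, n = m + 1 := ⟨n - 1, by omega⟩
  have key : ∀ p : locRing W t M, Prime p → ∃ U : ValuationSubring F,
      locRing W t M ≤ U.toSubring ∧ (∀ x : locRing W t M, (x : F) ∈ U.nonunits ↔ p ∣ x) ∧
        ∃ g : F, U.valuation ((a : F) / b / g ^ (m + 1)) = 1 := by
    intro p hp
    by_cases hpq : p ∣ (q : locRing W t M)
    · -- a component through the point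
      choose! z w hB using fun V (h : IsVert W q t V ∧ Through W t M V) =>
        (exists_branch hb hc hM hg h.1 h.2).imp fun _ h' => h'.imp fun _ h'' => h''.1
      set S := (finite_vert hb hc).toFinset.filter (Through W t M ·)
      have hS : ∀ {U}, U ∈ S ↔ IsVert W q t U ∧ Through W t M U := fun {U} => by
        simp [S]
      obtain ⟨d, hd, hdn, hdv⟩ := exists_sep (M := M) hb hc
      obtain ⟨x, hx, den, hden, hdenn, hxd⟩ := (∏ U ∈ S, z U : locRing W t M).2
      have hall : ∀ U, IsVert W q t U → x * d ∈ U.nonunits := fun U hU => by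
        by_cases hTU : Through W t M U
        · refine nonunits_mul_right (mem_valuationSubring_of_mem_chart hd hU.evW_mem) ?_
          rw [← hxd]
          refine nonunits_mul_right (mem_valuationSubring_of_mem_chart hden hU.evW_mem) ?_
          exact ((hB U ⟨hU, hTU⟩).mem_iff _).2 (Finset.dvd_prod_of_mem _ (hS.2 ⟨hU, hTU⟩))
        · exact nonunits_mul_left (mem_valuationSubring_of_mem_chart hx hU.evW_mem)
            (hdv U hU hTU)
      obtain ⟨N, -, y, hy, e⟩ := exists_pow_eq_q_mul hb hc (mul_mem hx hd) hall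
      have hxd' : (⟨x * d, mul_mem (chart_le_locRing hx) (chart_le_locRing hd)⟩ : locRing W t M) =
          (∏ U ∈ S, z U) * (⟨den, chart_le_locRing hden⟩ * ⟨d, chart_le_locRing hd⟩) :=
        Subtype.ext (by show x * d = _; rw [← hxd, mul_assoc]; rfl)
      have hdvd : p ∣ ∏ U ∈ S, z U := by
        have h1 : p ∣ (⟨x * d, mul_mem (chart_le_locRing hx) (chart_le_locRing hd)⟩ :
            locRing W t M) := by
          refine hp.dvd_of_dvd_pow (n := N) ?_
          rw [show (⟨x * d, _⟩ : locRing W t M) ^ N =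
            (q : locRing W t M) * ⟨y, chart_le_locRing hy⟩ from Subtype.ext (by simpa using e)]
          exact dvd_mul_of_dvd_left hpq _
        rw [hxd'] at h1
        refine (hp.dvd_or_dvd h1).resolve_right fun h2 => ?_
        exact hp.not_isUnit (isUnit_of_dvd_unit h2
          ((isUnit_locRing_iff hM _).2 (mul_notMem_nonunits hdenn hdn)))
      obtain ⟨U, hU, hpU⟩ := hp.exists_mem_finset_dvd hdvd
      rw [hS] at hU
      obtain ⟨g, hg'⟩ := hroot U hU.1 hU.2
      refine ⟨U, hU.2.locRing_le hU.1.evW_mem, fun x => ?_, g, ?_⟩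
      · rw [(hB U hU).mem_iff, ((hp.associated_of_dvd (hB U hU).prime hpU).dvd_iff_dvd_left)]
      · rw [← inv_div, map_inv₀, hg', inv_one]
    · -- a valuation centred at a prime of the generic fibre
      have : (Ideal.span {p}).IsPrime := (Ideal.span_singleton_prime hp.ne_zero).2 hp
      obtain ⟨U, hU⟩ := LocalSubring.exists_le_valuationSubring
        (LocalSubring.ofPrime (locRing W t M) (Ideal.span {p}))
      have hle : locRing W t M ≤ U.toSubring := (LocalSubring.le_ofPrime _ _).trans hU.1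
      have hiff : ∀ x : locRing W t M, (x : F) ∈ U.nonunits ↔ p ∣ x := by
        intro x
        set R' := (LocalSubring.ofPrime (locRing W t M) (Ideal.span {p})).toSubring
        have h1 := IsLocalization.AtPrime.isUnit_to_map_iff R' (Ideal.span {p}) x
        rw [← Ideal.mem_span_singleton, ← not_iff_not]
        refine Iff.trans ?_ (h1.trans Iff.rfl)
        rw [ValuationSubring.mem_nonunits_iff_exists_mem_maximalIdeal]
        constructor
        · intro hx
          refine hU.2.map_nonunit _ ?_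
          by_contra hnu
          exact hx ⟨hle x.2, hnu⟩
        · rintro hx ⟨_, hm⟩
          exact hm (hx.map (Subring.inclusion hU.1))
      have hqU : ((q : F))⁻¹ ∈ U := inv_mem_of_notMem_nonunits' fun h => hpq ((hiff _).1
        (by simpa using h))
      obtain ⟨g, hg0, h1, h2⟩ := hloc U (algebraMap_mem_of_inv hb
        (fun c => hle (chart_le_locRing (algebraMap_mem_chart c))) hqU)
      exact ⟨U, hle, hiff, g, val_eq_one_iff_inv.2
        ⟨div_ne_zero hf (pow_ne_zero _ hg0), h1, by rwa [inv_div]⟩⟩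
  obtain ⟨g, u, e⟩ := exists_eq_pow_mul_unit (A := locRing W t M) (Nat.succ_pos m)
    (a := a * b ^ m) (mul_ne_zero (fun h => ha0 (by simp [h]))
      (pow_ne_zero _ fun h => hb0 (by simp [h]))) fun p hp => by
    obtain ⟨U, hle, hiff, g, hval⟩ := key p hp
    obtain ⟨c, d, hd0, hcd⟩ := exists_locRing_div (M := M) hb hc (g * b)
    have hg0 : g ≠ 0 := fun h => ne_zero_of_val hval (by simp [h, zero_pow])
    have hc0 : (c : F) ≠ 0 := fun h => mul_ne_zero hg0 hb0 (by rw [hcd, h, zero_div])
    have e : (a : F) / b / g ^ (m + 1) =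
        ((a * b ^ m * d ^ (m + 1) : locRing W t M) : F) / ((c ^ (m + 1) : locRing W t M) : F) := by
      simp only [Subring.coe_mul, SubmonoidClass.coe_pow]
      rw [eq_div_iff hd0] at hcd
      rw [← hcd]
      field_simp
      ring
    obtain ⟨s, t', hs, ht, est⟩ :=
      exists_frac_notMem hp hle hiff (by simp [hc0]) hval e
    refine ⟨c, d, s, t', fun h => hc0 (by simp [h]), fun h => hd0 (by simp [h]), hs, ht, ?_⟩
    have ht0 : (t' : F) ≠ 0 := fun h =>
      ht (by rw [show t' = 0 from Subtype.ext h]; exact dvd_zero p)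
    rw [est, div_eq_div_iff ht0 (by simp [hc0])] at e
    refine Subtype.ext ?_
    simp only [Subring.coe_mul, SubmonoidClass.coe_pow] at e ⊢
    rw [mul_comm ((c : F) ^ (m + 1)), ← e]
  have e' : (a : F) * (b : F) ^ m = (g : F) ^ (m + 1) * (u : locRing W t M) := by
    simpa using congrArg Subtype.val e
  have hu0 : ((u : locRing W t M) : F) ≠ 0 := fun h => by
    simp [h, ha0, hb0] at e'
  have hg0 : (g : F) ≠ 0 := fun h => by simp [h, ha0, hb0] at e'
  have e1 : (a : F) / b / ((g : F) / b) ^ (m + 1) = ((u : locRing W t M) : F) := by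
    rw [div_eq_iff (pow_ne_zero _ (div_ne_zero hg0 hb0)), div_pow, ← mul_div_assoc,
      div_eq_div_iff hb0 (pow_ne_zero _ hb0), pow_succ' (b : F)]
    linear_combination (b : F) * e'
  refine ⟨(g : F) / b, div_ne_zero hg0 hb0, e1 ▸ (u : locRing W t M).2, ?_⟩
  rw [← inv_div, e1, ← eq_inv_of_mul_eq_one_left
    (show (((u⁻¹ : (locRing W t M)ˣ) : locRing W t M) : F) * (u : locRing W t M) = 1 by
      exact_mod_cast congrArg Subtype.val u.inv_mul)]
  exact ((u⁻¹ : (locRing W t M)ˣ) : locRing W t M).2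

include hg in
/-- The branches of two components through a point generate the maximal ideal. -/
theorem span_pair_of_cross {V' : ValuationSubring F} (hV : IsVert W q t V) (hT : Through W t M V)
    (hV' : IsVert W q t V') (hT' : Through W t M V') (hne : V ≠ V') {z w z' w' : locRing W t M}
    (hB : Branch W t M V z w) (hB' : Branch W t M V' z' w') {x : locRing W t M}
    (hx : (x : F) ∈ M.nonunits) : x ∈ Ideal.span {z, z'} := by
  obtain ⟨a, ha, b, hb', haV, hbV, e⟩ := hg.cross V V' hV hT hV' hT' hne x x.2 hx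
  obtain ⟨c, hc'⟩ := (hB.mem_iff ⟨a, ha⟩).1 haV
  obtain ⟨d, hd⟩ := (hB'.mem_iff ⟨b, hb'⟩).1 hbV
  refine Ideal.mem_span_pair.2 ⟨c, d, ?_⟩
  rw [mul_comm c, mul_comm d, ← hc', ← hd]
  exact Subtype.ext e.symm

end Fermat.Agent.Carayol.Kill
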