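import Fermat.Agent.Carayol.Kill.Delta

/-!
# Gluing roots on one chart

On one chart, coherent roots along the components glue to a section which is a root modulo the
radical of `(q)`.

Main result: `exists_chart_section`.
-/

set_option autoImplicit false

open Polynomial IsLocalRing

namespace Fermat.Agent.Carayol.Kill

variable {K F : Type*} [Field K] [Field F] [Algebra K F] {W : ValuationSubring K} {q : ℕ} {t : F}
  {n : ℕ} [IsAlgClosed (ResidueField W)]
  (hb : BaseData W q) (hc : Cover K t) (hgood : ∀ M, IsPoint W q t M → GoodPoint W q t M)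
  (hn : 0 < n) (hnW : IsUnit (n : W)) {f : F} (hf : RootFun W q t n f)
  {rt : ValuationSubring F → F} (hrt : ∀ V, IsVert W q t V → IsRootAt n V f (rt V))
  (hcomp : ∀ M V V', OnBranch W q t M V → OnBranch W q t M V' →
    IsDelta W t M n f V V' (rt V) (rt V') 1)

include hb hc hgood hn hnW hf hrt hcomp in
/-- At a point, a local root congruent to the given ones along the components through it. -/
theorem exists_local_section {M : ValuationSubring F} (hM : IsPoint W q t M) :
    ∃ g h : F, IsPowPart W t M n f g ∧ h ∈ locRing W t M ∧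
      ∀ U, IsVert W q t U → Through W t M U → h - rt U / g ∈ U.nonunits := by
  classical
  have := isLocalRing_locRing hM
  have hg := hgood M hM
  obtain ⟨g, hp⟩ := exists_isPowPart hb hc hg hM hn hf
  set S := (finite_vert hb hc).toFinset.filter (Through W t M ·)
  have hS : ∀ {U}, U ∈ S ↔ IsVert W q t U ∧ Through W t M U := fun {U} => by simp [S]
  have hA : ∀ {U}, U ∈ S → OnBranch W q t M U := fun hU => ⟨hM, (hS.1 hU).1, (hS.1 hU).2⟩
  have hex : ∀ U ∈ S, ∃ (z w e : locRing W t M) (c : W), Branch W t M U z w ∧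
      (e : F) - rt U / g ∈ U.nonunits ∧ (e : F) - algebraMap K F c ∈ M.nonunits ∧
      BVal W t M U (rt U / g) (residue W c) := by
    intro U hU
    obtain ⟨z, w, hB, -⟩ := exists_branch hb hc hM hg (hS.1 hU).1 (hS.1 hU).2
    obtain ⟨x, -, hx⟩ := exists_bVal hb hc hg (hA hU) hn hf.ne_zero hp (hrt U (hS.1 hU).1)
    obtain ⟨e, he, hey, c, hc', hce⟩ := id hx
    exact ⟨z, w, ⟨e, he⟩, c, hB, hey, hce, hc' ▸ hx⟩
  choose! z w e c hB hey hce hbv using hex
  have hmax : ∀ x : locRing W t M,
      x ∈ maximalIdeal (locRing W t M) ↔ (x : F) ∈ M.nonunits :=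
    mem_maximalIdeal_locAt (chart_le_of_point hM)
  have hres : ∀ i ∈ S, ∀ j ∈ S, residue W (c i) = residue W (c j) := by
    intro i hi j hj
    obtain ⟨a, b, ha, hb', -, hb0, h1⟩ := (hcomp M i j (hA hi) (hA hj)).change hb hM (hA hi)
      (hA hj) hn hf.ne_zero hp
    rw [(hbv i hi).unique hb hM (hS.1 hi).1.evW_mem (hS.1 hi).2 ha,
      (hbv j hj).unique hb hM (hS.1 hj).1.evW_mem (hS.1 hj).2 hb']
    exact (div_eq_one_iff_eq hb0).1 h1.symm
  have hnu : IsUnit (n : locRing W t M) := by
    rw [isUnit_locRing_iff hM]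
    intro h
    refine (IsLocalRing.mem_maximalIdeal _).1 ((algebraMap_mem_nonunits_iff
      (hM.comap_algebraMap hb) (n : W)).1 ?_) hnW
    simpa using h
  obtain ⟨V₀, hV₀, hT₀⟩ := exists_through hb hc hM
  obtain ⟨h, hh⟩ := exists_glue (R := locRing W t M) z S hnu
    (fun i hi j hj hij => le_antisymm (fun x hx => span_pair_of_cross hg (hS.1 hi).1 (hS.1 hi).2
      (hS.1 hj).1 (hS.1 hj).2 hij (hB i hi) (hB j hj) ((hmax x).1 hx)) (by
        rw [Ideal.span_le]
        rintro x (rfl | rfl)
        exacts [(hmax _).2 (hB i hi).z_mem, (hmax _).2 (hB j hj).z_mem]))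
    (fun i hi => (hmax _).2 (hB i hi).z_mem) ⟨V₀, hS.2 ⟨hV₀, hT₀⟩⟩
    (u := ⟨g ^ n / f, hp.2.2⟩) (e := e)
    (fun i hi => by
      rw [Ideal.mem_span_singleton, ← (hB i hi).mem_iff]
      simp only [AddSubgroupClass.coe_sub, Subring.coe_mul, SubmonoidClass.coe_pow,
        OneMemClass.coe_one]
      have hU := hA hi
      have hval : g ^ n / f ∈ i := hU.through.locRing_le hU.vert.evW_mem hp.2.2
      rw [show (e i : F) ^ n * (g ^ n / f) - 1 = ((e i : F) ^ n - (rt i / g) ^ n) * (g ^ n / f) +
        (rt i ^ n / f - 1) by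
          rw [div_pow, sub_mul, div_mul_div_cancel₀ (pow_ne_zero n hp.1)]; ring]
      exact add_mem_nonunits (nonunits_mul_right hval
        (congr_pow (hU.through.locRing_le hU.vert.evW_mem (e i).2)
          ((hbv i hi).mem hU.vert.evW_mem hU.through) (hey i hi) n)) (hrt i (hS.1 hi).1))
    (fun i hi j hj => by
      rw [hmax, AddSubgroupClass.coe_sub]
      rw [show (e i : F) - e j = ((e i : F) - algebraMap K F (c i)) -
        ((e j : F) - algebraMap K F (c j)) + algebraMap K F ((c i - c j : W) : K) by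
          simp; ring]
      refine add_mem_nonunits (sub_mem_nonunits (hce i hi) (hce j hj)) ?_
      rw [algebraMap_mem_nonunits_iff (hM.comap_algebraMap hb), ← residue_eq_zero_iff, map_sub,
        hres i hi j hj, sub_self])
  refine ⟨g, h, hp, h.2, fun U hU hT => ?_⟩
  have hUS := hS.2 ⟨hU, hT⟩
  have h1 : ((h - e U : locRing W t M) : F) ∈ U.nonunits :=
    ((hB U hUS).mem_iff _).2 (Ideal.mem_span_singleton.1 (hh U hUS))
  rw [show (h : F) - rt U / g = ((h - e U : locRing W t M) : F) + ((e U : F) - rt U / g) by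
    simp]
  exact add_mem_nonunits h1 (hey U hUS)

include hb hc hgood hn hnW hf hrt hcomp in
/-- **The section on a chart.** -/
theorem exists_chart_section :
    ∃ s : F, IsRootSection (chart W t) n f s ∧
      ∀ V, IsVert W q t V → s / rt V - 1 ∈ V.nonunits := by
  let I : Ideal (chart W t) :=
    { carrier := {a | ∃ h, IsRootSection (chart W t) n f h ∧
        ∀ V, IsVert W q t V → h / rt V - (a : F) ∈ V.nonunits}
      zero_mem' := ⟨0, IsRootSection.zero hn, fun V _ => by simp⟩
      add_mem' := fun {a b} ⟨h, hh, ha⟩ ⟨h', hh', hb'⟩ =>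
        ⟨h + h', hh.add rootClosed_chart hn hh', fun V hV => by
          rw [add_div, Subring.coe_add,
            show h / rt V + h' / rt V - ((a : F) + b) = (h / rt V - a) + (h' / rt V - b) by ring]
          exact add_mem_nonunits (ha V hV) (hb' V hV)⟩
      smul_mem' := fun b a ⟨h, hh, ha⟩ => ⟨(b : F) * h, hh.smul b.2, fun V hV => by
        rw [smul_eq_mul, Subring.coe_mul, mul_div_assoc, ← mul_sub]
        exact nonunits_mul_left (mem_valuationSubring_of_mem_chart b.2 hV.evW_mem) (ha V hV)⟩ }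
  suffices h : I = ⊤ by
    obtain ⟨s, hs, hs'⟩ := (Ideal.eq_top_iff_one I).1 h
    exact ⟨s, hs, hs'⟩
  by_contra htop
  have hqI : (⟨(q : F), natCast_mem_chart q⟩ : chart W t) ∈ I :=
    ⟨0, IsRootSection.zero hn, fun V hV => by
      rw [zero_div, show (0 : F) - (q : F) = 0 - (q : F) from rfl]
      exact sub_mem_nonunits zero_mem_nonunits hV.q_mem⟩
  obtain ⟨M, hM, hIM⟩ := exists_point hb I htop hqI
  obtain ⟨g, h, hp, hhR, hcong⟩ := exists_local_section hb hc hgood hn hnW hf hrt hcomp hM
  obtain ⟨num, hnum, den, hden, hdenn, heq⟩ := mul_mem (pow_mem hhR n) hp.2.2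
  obtain ⟨d, hd, hdn, hdv⟩ := exists_sep (M := M) hb hc
  obtain ⟨m, rfl⟩ : ∃ m, n = m + 1 := ⟨n - 1, by omega⟩
  have hsec : (den * d * (h * g)) ^ (m + 1) / f = d ^ (m + 1) * (den ^ m * num) := by
    rw [← heq]
    simp only [mul_pow, pow_succ]
    ring
  have hsecC : d ^ (m + 1) * (den ^ m * num) ∈ chart W t :=
    mul_mem (pow_mem hd _) (mul_mem (pow_mem hden _) hnum)
  refine mul_notMem_nonunits hdenn hdn (hIM ⟨den * d, mul_mem hden hd⟩
    ⟨den * d * (h * g), by unfold IsRootSection; rw [hsec]; exact hsecC, fun U hU => ?_⟩)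
  have hr := hrt U hU
  have hdU := mem_valuationSubring_of_mem_chart hd hU.evW_mem
  have hdenU := mem_valuationSubring_of_mem_chart hden hU.evW_mem
  by_cases hT : Through W t M U
  · have hA : OnBranch W q t M U := ⟨hM, hU, hT⟩
    have hval : U.valuation (rt U / g) = 1 := (val_pow_eq_one_iff (Nat.succ_ne_zero m)).1 (by
      rw [div_pow, ← div_mul_div_cancel₀ (a := rt U ^ (m + 1)) (c := g ^ (m + 1)) hf.ne_zero,
        map_mul, hr.val, hp.val hA hf.ne_zero, one_mul])
    show den * d * (h * g) / rt U - den * d ∈ U.nonunits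
    rw [show den * d * (h * g) / rt U - den * d = den * d * (rt U / g)⁻¹ * (h - rt U / g) by
      field_simp [hp.1, hr.ne_zero hn]]
    exact nonunits_mul_left (mul_mem (mul_mem hdenU hdU) (val_eq_one_iff_inv.1 hval).2.2)
      (hcong U hU hT)
  · have hdd := hdv U hU hT
    refine sub_mem_nonunits ?_ (nonunits_mul_left hdenU hdd)
    rw [← pow_mem_nonunits_iff (Nat.succ_ne_zero m), div_pow,
      ← div_div_div_cancel_right₀ hf.ne_zero, hsec, div_eq_mul_inv]
    exact nonunits_mul_right (val_eq_one_iff_inv.1 hr.val).2.2 (nonunits_mul_right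
      (mem_valuationSubring_of_mem_chart (mul_mem (pow_mem hden _) hnum) hU.evW_mem)
      ((pow_mem_nonunits_iff (Nat.succ_ne_zero m)).2 hdd))

end Fermat.Agent.Carayol.Kill
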